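import Fermat.Agent.S27x.Spec.Inj
import Fermat.Agent.Gateway.Red.ChartPlaces

/-!
# P-S27 block D, D5: residue discs of a specialisation map of places

Everything here is a formal consequence of the *conservation of number*
`Inj.SpCompat R (spD sp)`, i.e. `sp (div f) = div (res f)` for `|f| = 1`, for an ARBITRARY map
`sp : Place K F → Place k κ` (so the file serves the glued reduction `Gateway/Red/Glue.glueRed` as
well as the chart-free Deuring reduction of `Spec/Deuring`).  The residue disc of a place `w` of the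
special fibre is the fibre `{Q | sp Q = w}`.

* `exists_finset_sum_ord`, `finsum_ord_sp` : the fibre-sum formula
  `∑_{sp Q = w} ord_Q f = ord_w (res f)`;
* `res_mem_rrs` : `L(D) ∩ O` reduces into `L(sp D)`;
* `RegularOn sp w f` : `f` is regular on the residue disc of `w`; then
  `ord_res_nonneg`, `ord_le_ord_res`, `ord_eq_zero_of_ord_res_eq_zero`;
* `mem_of_hasValue`, `hasValue_sp` : the maximum principle, values reduce;
* `existsUnique_sp_ord_pos`, `disc_injective`, `exists_sp_hasValue` : the residue disc of a point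
  where `res z` is a local coordinate is in bijection with a residue class of `A` via `Q ↦ z(Q)`;
* `sp_surjective`, `sp_eq_of_ord_res_neg` (the disc containing the unique pole).
-/

set_option autoImplicit false
set_option linter.unusedSectionVars false
set_option linter.style.haveILetI false

noncomputable section

namespace Fermat.Agent.S27x.Spec.Disc

open AlgebraicCurve IsLocalRing
open Fermat.Agent.Gateway.C0 Fermat.Agent.Gateway.Red Fermat.Agent.S27x.Spec.Inj

universe u v w z

/-! ### Generalities on places -/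

section place

variable {K : Type u} {F : Type v} [Field K] [Field F] [Algebra K F]

theorem ord_nonneg_of_mem (v : Place K F) {f : F} (hf : f ∈ v.toValuationSubring) :
    0 ≤ v.ord f := by
  rcases eq_or_ne f 0 with rfl | h0
  · simp
  · exact (Fermat.Agent.S24.place_mem_iff_ord_nonneg v h0).mp hf

theorem mem_of_ord_nonneg (v : Place K F) {f : F} (hf : 0 ≤ v.ord f) :
    f ∈ v.toValuationSubring := by
  rcases eq_or_ne f 0 with rfl | h0
  · exact v.toValuationSubring.zero_mem
  · exact (Fermat.Agent.S24.place_mem_iff_ord_nonneg v h0).mpr hf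

theorem mem_nonunits_iff_ord_pos (v : Place K F) {f : F} (hf : f ≠ 0) :
    f ∈ v.toValuationSubring.nonunits ↔ 0 < v.ord f := by
  rw [ValuationSubring.mem_nonunits_iff_or, or_iff_right hf,
    Fermat.Agent.S24.place_mem_iff_ord_nonneg v (inv_ne_zero hf), v.ord_inv]
  omega

theorem hasValue_iff_ord_pos {P : Place K F} {f : F} {c : K} (h : f ≠ algebraMap K F c) :
    HasValue P f c ↔ 0 < P.ord (f - algebraMap K F c) :=
  mem_nonunits_iff_ord_pos P (sub_ne_zero.mpr h)

theorem hasValue_of_ord_pos {P : Place K F} {f : F} {c : K}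
    (h : 0 < P.ord (f - algebraMap K F c)) : HasValue P f c := by
  have hne : f ≠ algebraMap K F c := by
    intro h0
    rw [h0, sub_self, Place.ord_zero] at h
    exact lt_irrefl _ h
  exact (hasValue_iff_ord_pos hne).mpr h

end place

/-! ### The push-forward of divisors and the fibre-sum formula -/

variable {K : Type u} [Field K] {A : ValuationSubring K}
  {F : Type v} [Field F] [Algebra K F] {O : ValuationSubring F}
  {k : Type w} {κ : Type z} [Field k] [Field κ] [Algebra k κ]
  (R : RedSetup A O k κ) (sp : Place K F → Place k κ)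

/-- the push-forward of divisors along a map of places -/
def spD : Divisor K F →+ Divisor k κ := Finsupp.mapDomain.addMonoidHom sp

theorem spD_apply_eq_sum [DecidableEq (Place k κ)] (E : Divisor K F) (w : Place k κ) :
    spD sp E w = ∑ Q ∈ E.support.filter (fun Q => sp Q = w), E Q := by
  classical
  show Finsupp.mapDomain sp E w = _
  rw [Finsupp.mapDomain, Finsupp.sum_apply, Finsupp.sum]
  simp only [Finsupp.single_apply]
  rw [← Finset.sum_filter]

theorem spD_nonneg {E : Divisor K F} (hE : 0 ≤ E) : 0 ≤ spD sp E := by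
  classical
  intro w
  rw [spD_apply_eq_sum]
  exact Finset.sum_nonneg fun Q _ => hE Q

theorem spD_single (Q : Place K F) (n : ℤ) : spD sp (Finsupp.single Q n) = Finsupp.single (sp Q) n :=
  Finsupp.mapDomain_single

variable [HasPrincipalDivisors K F]

variable {R sp}

theorem ne_zero_of_valuation_eq_one {f : F} (hv : O.valuation f = 1) : f ≠ 0 := by
  rintro rfl
  rw [map_zero] at hv
  exact zero_ne_one hv

/-- An element of `O` with nonzero residue has valuation one. -/
theorem valuation_eq_one_of_res_ne {f : F} (hf : f ∈ O) (h : R.res ⟨f, hf⟩ ≠ 0) :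
    O.valuation f = 1 := by
  have hle : O.valuation f ≤ 1 := (O.valuation_le_one_iff _).mpr hf
  exact le_antisymm hle (not_lt.mp fun hlt => h ((R.res_ker ⟨f, hf⟩).mpr hlt))

theorem res_ne_of_valuation_eq_one {f : F} (hf : f ∈ O) (h : O.valuation f = 1) :
    R.res ⟨f, hf⟩ ≠ 0 := by
  intro h0
  have := (R.res_ker ⟨f, hf⟩).mp h0
  rw [h] at this
  exact lt_irrefl _ this

/-- **Fibre-sum formula**, `Finset` form. -/
theorem exists_finset_sum_ord (hsp : SpCompat R (spD sp)) {f : F} (hf : f ∈ O)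
    (hv : O.valuation f = 1) (w : Place k κ) :
    ∃ s : Finset (Place K F), (∀ Q, Q ∈ s ↔ sp Q = w ∧ Q.ord f ≠ 0) ∧
      ∑ Q ∈ s, Q.ord f = w.ord (R.res ⟨f, hf⟩) := by
  classical
  obtain ⟨E, hE, -⟩ := HasPrincipalDivisors.exists_divisor (K := K) f (ne_zero_of_valuation_eq_one hv)
  refine ⟨E.support.filter (fun Q => sp Q = w), fun Q => ?_, ?_⟩
  · rw [Finset.mem_filter, Finsupp.mem_support_iff, hE Q, and_comm]
  · rw [← hsp f hf hv E hE w, spD_apply_eq_sum]
    exact Finset.sum_congr rfl fun Q _ => (hE Q).symm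

/-- **Fibre-sum formula**, `finsum` form: `∑_{sp Q = w} ord_Q f = ord_w (res f)`. -/
theorem finsum_ord_sp (hsp : SpCompat R (spD sp)) {f : F} (hf : f ∈ O)
    (hv : O.valuation f = 1) (w : Place k κ) :
    ({Q | sp Q = w} ∩ {Q | Q.ord f ≠ 0}).Finite ∧
      ∑ᶠ Q ∈ {Q | sp Q = w}, Q.ord f = w.ord (R.res ⟨f, hf⟩) := by
  obtain ⟨s, hs, hsum⟩ := exists_finset_sum_ord hsp hf hv w
  have hset : {Q | sp Q = w} ∩ {Q | Q.ord f ≠ 0} = (s : Set (Place K F)) := by
    ext Q
    simp only [Set.mem_inter_iff, Set.mem_ofPred_eq, Finset.mem_coe, hs Q]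
  refine ⟨hset ▸ s.finite_toSet, ?_⟩
  rw [← hsum]
  refine finsum_mem_eq_sum_of_inter_support_eq _ ?_
  ext Q
  simp only [Set.mem_inter_iff, Set.mem_ofPred_eq, Function.mem_support, Finset.mem_coe, hs Q]
  tauto

/-- `L(D) ∩ O` reduces into `L(sp D)`: poles reduce to poles. -/
theorem res_mem_rrs (hsp : SpCompat R (spD sp)) {f : F} (hf : f ∈ O) {D : Divisor K F}
    (hfD : f ∈ riemannRochSpace D) : R.res ⟨f, hf⟩ ∈ riemannRochSpace (spD sp D) := by
  classical
  rw [mem_riemannRochSpace_iff]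
  intro w
  by_cases h0 : R.res ⟨f, hf⟩ = 0
  · exact Or.inl h0
  right
  have hv := valuation_eq_one_of_res_ne hf h0
  have hf0 := ne_zero_of_valuation_eq_one hv
  obtain ⟨E, hE, -⟩ := HasPrincipalDivisors.exists_divisor (K := K) f hf0
  have hED : 0 ≤ E + D := by
    intro v
    have := (mem_riemannRochSpace_iff.mp hfD v).resolve_left hf0
    rw [Finsupp.add_apply, hE v, Finsupp.zero_apply]
    omega
  have h1 := spD_nonneg sp hED w
  rw [map_add, Finsupp.add_apply, hsp f hf hv E hE w, Finsupp.zero_apply] at h1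
  omega

/-! ### Functions regular on a residue disc -/

/-- `f` is regular at all places of the residue disc of `w`. -/
def RegularOn (sp : Place K F → Place k κ) (w : Place k κ) (f : F) : Prop :=
  ∀ Q : Place K F, sp Q = w → f ∈ Q.toValuationSubring

namespace RegularOn

variable {w : Place k κ} {f g : F}

theorem add (hf : RegularOn sp w f) (hg : RegularOn sp w g) : RegularOn sp w (f + g) :=
  fun Q hQ => Q.toValuationSubring.add_mem _ _ (hf Q hQ) (hg Q hQ)

theorem mul (hf : RegularOn sp w f) (hg : RegularOn sp w g) : RegularOn sp w (f * g) :=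
  fun Q hQ => Q.toValuationSubring.mul_mem _ _ (hf Q hQ) (hg Q hQ)

theorem neg (hf : RegularOn sp w f) : RegularOn sp w (-f) :=
  fun Q hQ => Q.toValuationSubring.neg_mem _ (hf Q hQ)

theorem sub (hf : RegularOn sp w f) (hg : RegularOn sp w g) : RegularOn sp w (f - g) :=
  fun Q hQ => sub_mem (hf Q hQ) (hg Q hQ)

theorem const (sp : Place K F → Place k κ) (w : Place k κ) (c : K) :
    RegularOn sp w (algebraMap K F c) :=
  fun Q _ => Q.algebraMap_mem' c

theorem pow (hf : RegularOn sp w f) (n : ℕ) : RegularOn sp w (f ^ n) :=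
  fun Q hQ => pow_mem (hf Q hQ) n

theorem of_ord_nonneg (h : ∀ Q : Place K F, sp Q = w → 0 ≤ Q.ord f) : RegularOn sp w f :=
  fun Q hQ => mem_of_ord_nonneg Q (h Q hQ)

theorem ord_nonneg (hf : RegularOn sp w f) {Q : Place K F} (hQ : sp Q = w) : 0 ≤ Q.ord f :=
  ord_nonneg_of_mem Q (hf Q hQ)

end RegularOn

/-- a term of the fibre sum of a function regular on the disc is at most the sum -/
theorem ord_le_ord_res (hsp : SpCompat R (spD sp)) {f : F} (hf : f ∈ O)
    (hv : O.valuation f = 1) {w : Place k κ} (hreg : RegularOn sp w f) {Q : Place K F}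
    (hQ : sp Q = w) : Q.ord f ≤ w.ord (R.res ⟨f, hf⟩) := by
  classical
  obtain ⟨s, hs, hsum⟩ := exists_finset_sum_ord hsp hf hv w
  rw [← hsum]
  by_cases h0 : Q.ord f = 0
  · rw [h0]
    exact Finset.sum_nonneg fun Q' hQ' => hreg.ord_nonneg ((hs Q').mp hQ').1
  · exact Finset.single_le_sum (f := fun Q' : Place K F => Q'.ord f)
      (fun Q' hQ' => hreg.ord_nonneg ((hs Q').mp hQ').1) ((hs Q).mpr ⟨hQ, h0⟩)

/-- the reduction of a function regular on the disc of `w` is regular at `w` -/
theorem ord_res_nonneg (hsp : SpCompat R (spD sp)) {f : F} (hf : f ∈ O) {w : Place k κ}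
    (hreg : RegularOn sp w f) : 0 ≤ w.ord (R.res ⟨f, hf⟩) := by
  classical
  by_cases h0 : R.res ⟨f, hf⟩ = 0
  · rw [h0, Place.ord_zero]
  have hv := valuation_eq_one_of_res_ne hf h0
  obtain ⟨s, hs, hsum⟩ := exists_finset_sum_ord hsp hf hv w
  rw [← hsum]
  exact Finset.sum_nonneg fun Q' hQ' => hreg.ord_nonneg ((hs Q').mp hQ').1

theorem res_mem_of_regularOn (hsp : SpCompat R (spD sp)) {f : F} (hf : f ∈ O) {w : Place k κ}
    (hreg : RegularOn sp w f) : R.res ⟨f, hf⟩ ∈ w.toValuationSubring :=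
  mem_of_ord_nonneg w (ord_res_nonneg hsp hf hreg)

/-- a function regular on the disc of `w` whose reduction does not vanish at `w` has neither
zeros nor poles on the disc -/
theorem ord_eq_zero_of_ord_res_eq_zero (hsp : SpCompat R (spD sp)) {f : F} (hf : f ∈ O)
    (hv : O.valuation f = 1) {w : Place k κ} (hreg : RegularOn sp w f)
    (h0 : w.ord (R.res ⟨f, hf⟩) = 0) {Q : Place K F} (hQ : sp Q = w) : Q.ord f = 0 :=
  le_antisymm (h0 ▸ ord_le_ord_res hsp hf hv hreg hQ) (hreg.ord_nonneg hQ)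

/-! ### The maximum principle: values reduce -/

theorem RegularOn.one (sp : Place K F → Place k κ) (w : Place k κ) : RegularOn sp w (1 : F) :=
  fun Q _ => Q.toValuationSubring.one_mem

/-- **Maximum principle.**  If `f ∈ O` is regular on the residue disc of `w`, then its values on
the disc lie in `A`. -/
theorem mem_of_hasValue (hsp : SpCompat R (spD sp)) {f : F} (hf : f ∈ O) {w : Place k κ}
    (hreg : RegularOn sp w f) {Q : Place K F} (hQ : sp Q = w) {a : K} (ha : HasValue Q f a) :
    a ∈ A := by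
  by_contra hnot
  have ha0 : a ≠ 0 := by
    rintro rfl
    exact hnot A.zero_mem
  have hinv : a⁻¹ ∈ A := (A.mem_or_inv_mem a).resolve_left hnot
  have hmax : (⟨a⁻¹, hinv⟩ : A) ∈ maximalIdeal A := by
    rw [mem_maximalIdeal, mem_nonunits_iff]
    intro hu
    obtain ⟨b, hb⟩ := hu.exists_right_inv
    have hb' : a⁻¹ * (b : K) = 1 := by
      have := congrArg Subtype.val hb
      simpa using this
    have : (b : K) = a := by
      field_simp at hb'
      exact hb'
    exact hnot (this ▸ b.2)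
  have hπ : R.π ⟨a⁻¹, hinv⟩ = 0 := (R.π_eq_zero_iff _).mpr hmax
  have hcO : algebraMap K F a⁻¹ ∈ O := R.algebraMap_mem ⟨a⁻¹, hinv⟩
  set g : F := 1 - algebraMap K F a⁻¹ * f with hg
  have hgO : g ∈ O := sub_mem O.one_mem (O.mul_mem _ _ hcO hf)
  have hres : R.res ⟨g, hgO⟩ = 1 := by
    have e : (⟨g, hgO⟩ : O) = 1 - ⟨algebraMap K F a⁻¹, hcO⟩ * ⟨f, hf⟩ := Subtype.ext rfl
    rw [e, map_sub, map_mul, map_one, R.res_algebraMap ⟨a⁻¹, hinv⟩, hπ, map_zero, zero_mul,
      sub_zero]
  have hv : O.valuation g = 1 := valuation_eq_one_of_res_ne hgO (by rw [hres]; exact one_ne_zero)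
  have hg0 : g ≠ 0 := ne_zero_of_valuation_eq_one hv
  have hgreg : RegularOn sp w g :=
    (RegularOn.one sp w).sub ((RegularOn.const sp w a⁻¹).mul hreg)
  have hgQ : HasValue Q g 0 := by
    have h1 : HasValue Q g (1 - a⁻¹ * a) := by
      have := (hasValue_algebraMap Q (1 : K)).sub ((hasValue_algebraMap Q a⁻¹).mul ha)
      rwa [map_one] at this
    rwa [inv_mul_cancel₀ ha0, sub_self] at h1
  have hpos : 0 < Q.ord g := (mem_nonunits_iff_ord_pos Q hg0).mp (hasValue_zero_iff.mp hgQ)
  have hle := ord_le_ord_res hsp hgO hv hgreg hQ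
  rw [hres, Place.ord_one] at hle
  omega

/-- **Values reduce.**  If `f ∈ O` is regular on the residue disc of `w = sp Q` and `f(Q) = a`
(`a ∈ A` is automatic, `mem_of_hasValue`), then `(res f)(sp Q) = π a`. -/
theorem hasValue_sp (hsp : SpCompat R (spD sp)) {f : F} (hf : f ∈ O) {w : Place k κ}
    (hreg : RegularOn sp w f) {Q : Place K F} (hQ : sp Q = w) {a : A}
    (ha : HasValue Q f (a : K)) : HasValue w (R.res ⟨f, hf⟩) (R.π a) := by
  set g : F := f - algebraMap K F (a : K) with hg
  have hgO : g ∈ O := sub_mem hf (R.algebraMap_mem a)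
  have hres : R.res ⟨g, hgO⟩ = R.res ⟨f, hf⟩ - algebraMap k κ (R.π a) := by
    have e : (⟨g, hgO⟩ : O) = ⟨f, hf⟩ - ⟨algebraMap K F (a : K), R.algebraMap_mem a⟩ :=
      Subtype.ext rfl
    rw [e, map_sub, R.res_algebraMap]
  by_cases h0 : R.res ⟨g, hgO⟩ = 0
  · rw [hres, sub_eq_zero] at h0
    rw [h0]
    exact hasValue_algebraMap w _
  have hv : O.valuation g = 1 := valuation_eq_one_of_res_ne hgO h0
  have hg0 : g ≠ 0 := ne_zero_of_valuation_eq_one hv
  have hgreg : RegularOn sp w g := hreg.sub (RegularOn.const sp w _)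
  have hpos : 0 < Q.ord g := (mem_nonunits_iff_ord_pos Q hg0).mp ha
  have hle := ord_le_ord_res hsp hgO hv hgreg hQ
  rw [hres] at hle
  exact hasValue_of_ord_pos (lt_of_lt_of_le hpos hle)

/-! ### Residue discs of points with a local coordinate -/

/-- **The residue disc.**  Let `z ∈ O` be regular on the residue disc of `w` and assume that
`res z - c̄` is a uniformiser at `w`.  Then for every `ρ ∈ A` over `c̄` there is exactly one place
`Q` of the disc with `z(Q) = ρ`; the zero of `z - ρ` at `Q` is simple and `z - ρ` has no other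
zero on the disc. -/
theorem exists_sp_ord_eq_one (hsp : SpCompat R (spD sp)) {z : F} (hz : z ∈ O) {w : Place k κ}
    (hreg : RegularOn sp w z) {cb : k}
    (hunif : w.ord (R.res ⟨z, hz⟩ - algebraMap k κ cb) = 1) (ρ : A) (hρ : R.π ρ = cb) :
    ∃ Q : Place K F, sp Q = w ∧ Q.ord (z - algebraMap K F (ρ : K)) = 1 ∧
      ∀ Q' : Place K F, sp Q' = w → Q' ≠ Q → Q'.ord (z - algebraMap K F (ρ : K)) = 0 := by
  classical
  set g : F := z - algebraMap K F (ρ : K) with hg
  have hgO : g ∈ O := sub_mem hz (R.algebraMap_mem ρ)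
  have hres : R.res ⟨g, hgO⟩ = R.res ⟨z, hz⟩ - algebraMap k κ cb := by
    have e : (⟨g, hgO⟩ : O) = ⟨z, hz⟩ - ⟨algebraMap K F (ρ : K), R.algebraMap_mem ρ⟩ :=
      Subtype.ext rfl
    rw [e, map_sub, R.res_algebraMap, hρ]
  have h0 : R.res ⟨g, hgO⟩ ≠ 0 := by
    intro h
    rw [← hres, h, Place.ord_zero] at hunif
    exact zero_ne_one hunif
  have hv : O.valuation g = 1 := valuation_eq_one_of_res_ne hgO h0
  have hgreg : RegularOn sp w g := hreg.sub (RegularOn.const sp w _)
  obtain ⟨s, hs, hsum⟩ := exists_finset_sum_ord hsp hgO hv w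
  rw [hres, hunif] at hsum
  have hge : ∀ Q ∈ s, 1 ≤ Q.ord g := by
    intro Q hQ
    obtain ⟨hQw, hQ0⟩ := (hs Q).mp hQ
    have := hgreg.ord_nonneg hQw
    omega
  have hne : s.Nonempty := by
    rw [Finset.nonempty_iff_ne_empty]
    rintro rfl
    rw [Finset.sum_empty] at hsum
    exact zero_ne_one hsum
  obtain ⟨Q0, hQ0⟩ := hne
  have hsplit := Finset.add_sum_erase s (fun Q : Place K F => Q.ord g) hQ0
  have herase : ∀ Q ∈ s.erase Q0, 1 ≤ Q.ord g := fun Q hQ => hge Q (Finset.mem_of_mem_erase hQ)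
  have hcard : ((s.erase Q0).card : ℤ) ≤ ∑ Q ∈ s.erase Q0, Q.ord g := by
    have := Finset.card_nsmul_le_sum (s.erase Q0) (fun Q : Place K F => Q.ord g) 1 herase
    simpa using this
  have hQ0ge := hge Q0 hQ0
  have hcard0 : (s.erase Q0).card = 0 := by
    have : (0 : ℤ) ≤ (s.erase Q0).card := Int.natCast_nonneg _
    omega
  have hempty : s.erase Q0 = ∅ := Finset.card_eq_zero.mp hcard0
  refine ⟨Q0, ((hs Q0).mp hQ0).1, ?_, ?_⟩
  · rw [hempty, Finset.sum_empty] at hsplit
    omega
  · intro Q' hQ'w hne'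
    by_contra h
    have hmem : Q' ∈ s := (hs Q').mpr ⟨hQ'w, h⟩
    have : Q' ∈ s.erase Q0 := Finset.mem_erase.mpr ⟨hne', hmem⟩
    rw [hempty] at this
    exact (Finset.notMem_empty _) this

/-- `∃!` form of `exists_sp_ord_eq_one` -/
theorem existsUnique_sp_ord_pos (hsp : SpCompat R (spD sp)) {z : F} (hz : z ∈ O) {w : Place k κ}
    (hreg : RegularOn sp w z) {cb : k}
    (hunif : w.ord (R.res ⟨z, hz⟩ - algebraMap k κ cb) = 1) (ρ : A) (hρ : R.π ρ = cb) :
    ∃! Q : Place K F, sp Q = w ∧ 0 < Q.ord (z - algebraMap K F (ρ : K)) := by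
  obtain ⟨Q, hQw, hQ1, hQ'⟩ := exists_sp_ord_eq_one hsp hz hreg hunif ρ hρ
  refine ⟨Q, ⟨hQw, by omega⟩, ?_⟩
  rintro Q' ⟨hQ'w, hpos⟩
  by_contra hne
  have := hQ' Q' hQ'w hne
  omega

/-- every `ρ ∈ A` over `c̄` is the value of `z` at a place of the disc -/
theorem exists_sp_hasValue (hsp : SpCompat R (spD sp)) {z : F} (hz : z ∈ O) {w : Place k κ}
    (hreg : RegularOn sp w z) {cb : k}
    (hunif : w.ord (R.res ⟨z, hz⟩ - algebraMap k κ cb) = 1) (ρ : A) (hρ : R.π ρ = cb) :
    ∃ Q : Place K F, sp Q = w ∧ HasValue Q z (ρ : K) := by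
  obtain ⟨Q, hQw, hQ1, -⟩ := exists_sp_ord_eq_one hsp hz hreg hunif ρ hρ
  exact ⟨Q, hQw, hasValue_of_ord_pos (by omega)⟩

/-- the value at `w` of the reduction of `z` is `c̄` -/
theorem hasValue_of_unif {zb : κ} {w : Place k κ} {cb : k}
    (hunif : w.ord (zb - algebraMap k κ cb) = 1) : HasValue w zb cb :=
  hasValue_of_ord_pos (by omega)

/-- the values of `z` on the disc lie over `c̄` -/
theorem π_eq_of_hasValue (hsp : SpCompat R (spD sp)) {z : F} (hz : z ∈ O) {w : Place k κ}
    (hreg : RegularOn sp w z) {cb : k}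
    (hunif : w.ord (R.res ⟨z, hz⟩ - algebraMap k κ cb) = 1) {Q : Place K F} (hQ : sp Q = w)
    {a : A} (ha : HasValue Q z (a : K)) : R.π a = cb :=
  (hasValue_sp hsp hz hreg hQ ha).unique (hasValue_of_unif hunif)

/-- **`z` is injective on the residue disc** of a point where `res z` is a local coordinate. -/
theorem disc_injective (hsp : SpCompat R (spD sp)) {z : F} (hz : z ∈ O) {w : Place k κ}
    (hreg : RegularOn sp w z) {cb : k}
    (hunif : w.ord (R.res ⟨z, hz⟩ - algebraMap k κ cb) = 1) {Q Q' : Place K F}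
    (hQ : sp Q = w) (hQ' : sp Q' = w) {a : K} (ha : HasValue Q z a) (ha' : HasValue Q' z a) :
    Q = Q' := by
  have haA : a ∈ A := mem_of_hasValue hsp hz hreg hQ ha
  have hπ : R.π ⟨a, haA⟩ = cb :=
    π_eq_of_hasValue hsp hz hreg hunif hQ (a := ⟨a, haA⟩) ha
  have hne : z ≠ algebraMap K F a := by
    intro h
    have hzO : algebraMap K F a ∈ O := R.algebraMap_mem ⟨a, haA⟩
    have e : R.res ⟨z, hz⟩ = algebraMap k κ cb := by
      have : (⟨z, hz⟩ : O) = ⟨algebraMap K F ((⟨a, haA⟩ : A) : K), hzO⟩ := Subtype.ext h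
      rw [this, R.res_algebraMap, hπ]
    rw [e, sub_self, Place.ord_zero] at hunif
    exact zero_ne_one hunif
  obtain ⟨Q0, -, huniq⟩ := existsUnique_sp_ord_pos hsp hz hreg hunif ⟨a, haA⟩ hπ
  have h1 := huniq Q ⟨hQ, (hasValue_iff_ord_pos hne).mp ha⟩
  have h2 := huniq Q' ⟨hQ', (hasValue_iff_ord_pos hne).mp ha'⟩
  rw [h1, h2]

/-- the values of `z` on the disc: every value is in `A` and lies over `c̄` -/
theorem exists_value_of_sp_eq (hsp : SpCompat R (spD sp)) {z : F} (hz : z ∈ O) {w : Place k κ}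
    (hreg : RegularOn sp w z) {cb : k}
    (hunif : w.ord (R.res ⟨z, hz⟩ - algebraMap k κ cb) = 1) {Q : Place K F} (hQ : sp Q = w)
    (hval : ∃ a : K, HasValue Q z a) : ∃ ρ : A, R.π ρ = cb ∧ HasValue Q z (ρ : K) := by
  obtain ⟨a, ha⟩ := hval
  have haA : a ∈ A := mem_of_hasValue hsp hz hreg hQ ha
  exact ⟨⟨a, haA⟩, π_eq_of_hasValue hsp hz hreg hunif hQ (a := ⟨a, haA⟩) ha, ha⟩

/-! ### Surjectivity and the disc of the pole -/

/-- **the specialisation of places is surjective** (if the reduction map is) -/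
theorem sp_surjective (hsp : SpCompat R (spD sp)) (hsurj : Function.Surjective R.res) :
    Function.Surjective sp := by
  classical
  intro w
  obtain ⟨ϖ, hϖ⟩ := IsDiscreteValuationRing.exists_irreducible w.toValuationSubring
  have hord : w.ord (ϖ : κ) = 1 := w.ord_coe_irreducible hϖ
  obtain ⟨g, hg⟩ := hsurj (ϖ : κ)
  have hg' : R.res ⟨(g : F), g.2⟩ = (ϖ : κ) := hg
  have h0 : R.res ⟨(g : F), g.2⟩ ≠ 0 := by
    intro h
    rw [← hg', h, Place.ord_zero] at hord
    exact zero_ne_one hord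
  have hv := valuation_eq_one_of_res_ne g.2 h0
  obtain ⟨s, hs, hsum⟩ := exists_finset_sum_ord hsp g.2 hv w
  rw [hg', hord] at hsum
  have hne : s.Nonempty := by
    rw [Finset.nonempty_iff_ne_empty]
    rintro rfl
    rw [Finset.sum_empty] at hsum
    exact zero_ne_one hsum
  obtain ⟨Q, hQ⟩ := hne
  exact ⟨Q, ((hs Q).mp hQ).1⟩

/-- if the reduction of `f` has a pole at `w`, then `f` has a pole on the disc of `w` -/
theorem exists_sp_ord_neg (hsp : SpCompat R (spD sp)) {f : F} (hf : f ∈ O) {w : Place k κ}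
    (hneg : w.ord (R.res ⟨f, hf⟩) < 0) : ∃ Q : Place K F, sp Q = w ∧ Q.ord f < 0 := by
  classical
  have h0 : R.res ⟨f, hf⟩ ≠ 0 := by
    intro h
    rw [h, Place.ord_zero] at hneg
    exact lt_irrefl _ hneg
  have hv := valuation_eq_one_of_res_ne hf h0
  obtain ⟨s, hs, hsum⟩ := exists_finset_sum_ord hsp hf hv w
  by_contra hcon
  push Not at hcon
  have : 0 ≤ ∑ Q ∈ s, Q.ord f := Finset.sum_nonneg fun Q hQ => hcon Q ((hs Q).mp hQ).1
  omega

/-- the place where the reduction of `f` has a pole is the specialisation of the unique pole -/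
theorem sp_eq_of_ord_res_neg (hsp : SpCompat R (spD sp)) {f : F} (hf : f ∈ O) {P : Place K F}
    (hP : ∀ Q : Place K F, Q.ord f < 0 → Q = P) {w : Place k κ}
    (hneg : w.ord (R.res ⟨f, hf⟩) < 0) : sp P = w := by
  obtain ⟨Q, hQw, hQ⟩ := exists_sp_ord_neg hsp hf hneg
  rw [← hP Q hQ, hQw]

/-- a function whose only possible pole is `P` is regular on every disc not containing `P` -/
theorem regularOn_of_forall_ne {f : F} {P : Place K F}
    (hP : ∀ Q : Place K F, Q ≠ P → f ∈ Q.toValuationSubring) {w : Place k κ}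
    (hw : sp P ≠ w) : RegularOn sp w f := by
  intro Q hQ
  apply hP Q
  rintro rfl
  exact hw hQ

/-- a point where a function with unique pole `P` takes a value outside `A` specialises into the
disc of `P` -/
theorem sp_eq_of_value_not_mem (hsp : SpCompat R (spD sp)) {f : F} (hf : f ∈ O) {P : Place K F}
    (hP : ∀ Q : Place K F, Q ≠ P → f ∈ Q.toValuationSubring) {Q : Place K F} {a : K}
    (ha : HasValue Q f a) (hnot : a ∉ A) : sp Q = sp P := by
  by_contra hne
  exact hnot (mem_of_hasValue hsp hf (regularOn_of_forall_ne hP (Ne.symm hne)) rfl ha)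

end Fermat.Agent.S27x.Spec.Disc
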