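import Fermat.Agent.S27x.Spec.Inj

/-!
# P-S27 block D5, corollaries of `SpCompat` (helper94; split with helper84's `Spec/Disc.lean`)

For a specialisation map of places `sp : Place K F → Place k κ` with
`Inj.SpCompat R (Finsupp.mapDomain.addMonoidHom sp)` (i.e. `sp (div f) = div (res f)` for `|f| = 1`):

* `res_mem_rrs` : poles reduce to poles: `f ∈ L(D) ∩ O ⇒ res f ∈ L(sp D)`;
* `sp_surjective` : every place of the special fibre is the specialisation of a place.
-/

set_option autoImplicit false

noncomputable section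

namespace Fermat.Agent.S27x.Spec.DiscSurj

open AlgebraicCurve IsLocalRing
open Fermat.Agent.Gateway.C0

universe u v w z

variable {K : Type u} [Field K] {A : ValuationSubring K}
  {F : Type v} [Field F] [Algebra K F] {O : ValuationSubring F}
  {k : Type w} {κ : Type z} [Field k] [Field κ] [Algebra k κ]
  (R : RedSetup A O k κ) (sp : Place K F → Place k κ)

/-- `Finsupp.mapDomain` of a pointwise nonnegative divisor is pointwise nonnegative. -/
theorem mapDomain_nonneg {α β : Type*} (f : α → β) {G : α →₀ ℤ} (hG : ∀ a, 0 ≤ G a) (b : β) :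
    0 ≤ Finsupp.mapDomain f G b := by
  classical
  rw [Finsupp.mapDomain, Finsupp.sum_apply]
  refine Finset.sum_nonneg fun a _ => ?_
  show 0 ≤ (Finsupp.single (f a) (G a)) b
  rw [Finsupp.single_apply]
  split_ifs
  · exact hG a
  · exact le_rfl

/-- If `Finsupp.mapDomain f G` does not vanish at `b`, some point of the support of `G` maps
to `b`. -/
theorem exists_eq_of_mapDomain_ne_zero {α β : Type*} (f : α → β) {G : α →₀ ℤ} {b : β}
    (h : Finsupp.mapDomain f G b ≠ 0) : ∃ a, G a ≠ 0 ∧ f a = b := by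
  classical
  by_contra hcon
  push Not at hcon
  apply h
  rw [Finsupp.mapDomain, Finsupp.sum_apply]
  refine Finset.sum_eq_zero fun a ha => ?_
  show (Finsupp.single (f a) (G a)) b = 0
  rw [Finsupp.single_apply, if_neg]
  exact hcon a (Finsupp.mem_support_iff.mp ha)

/-- An element of `O` with nonzero residue has valuation one (no hypotheses on `K`). -/
theorem valuation_eq_one_of_res_ne_zero {f : F} (hf : f ∈ O) (h : R.res ⟨f, hf⟩ ≠ 0) :
    O.valuation f = 1 := by
  have hle : O.valuation f ≤ 1 := (O.valuation_le_one_iff _).mpr hf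
  exact le_antisymm hle (not_lt.mp fun hlt => h ((R.res_ker ⟨f, hf⟩).mpr hlt))

variable [HasPrincipalDivisors K F]

/-- **Poles reduce to poles.** If `sp (div f) = div (res f)` for `|f| = 1`, then the reduction of
`L(D) ∩ O` lies in `L(sp D)`. -/
theorem res_mem_rrs (hsp : Inj.SpCompat R (Finsupp.mapDomain.addMonoidHom sp)) {f : F}
    (hfO : f ∈ O) {D : Divisor K F} (hfD : f ∈ riemannRochSpace D) :
    R.res ⟨f, hfO⟩ ∈ riemannRochSpace (Finsupp.mapDomain sp D) := by
  rw [mem_riemannRochSpace_iff]
  intro w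
  by_cases h0 : R.res ⟨f, hfO⟩ = 0
  · exact Or.inl h0
  refine Or.inr ?_
  have hv : O.valuation f = 1 := valuation_eq_one_of_res_ne_zero R hfO h0
  have hf0 : f ≠ 0 := by
    rintro rfl
    rw [map_zero] at hv
    exact zero_ne_one hv
  obtain ⟨E, hE, -⟩ := HasPrincipalDivisors.exists_divisor (K := K) f hf0
  have h1 := hsp f hfO hv E hE w
  rw [Finsupp.mapDomain.addMonoidHom_apply] at h1
  rw [← h1]
  have hnonneg : ∀ v : Place K F, 0 ≤ (E + D) v := by
    intro v
    rw [Finsupp.add_apply, hE v]
    rcases (mem_riemannRochSpace_iff.mp hfD) v with h | h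
    · exact absurd h hf0
    · linarith
  have h2 := mapDomain_nonneg sp hnonneg w
  rw [Finsupp.mapDomain_add, Finsupp.add_apply] at h2
  linarith

/-- **Surjectivity of the specialisation of places.** -/
theorem sp_surjective (hsp : Inj.SpCompat R (Finsupp.mapDomain.addMonoidHom sp))
    (hsurj : Function.Surjective R.res) : Function.Surjective sp := by
  intro w
  obtain ⟨ϖ, hϖ⟩ := IsDiscreteValuationRing.exists_irreducible w.toValuationSubring
  have hord : w.ord ((ϖ : w.toValuationSubring) : κ) = 1 := w.ord_coe_irreducible hϖ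
  obtain ⟨f, hf⟩ := hsurj ((ϖ : w.toValuationSubring) : κ)
  have hϖ0 : ((ϖ : w.toValuationSubring) : κ) ≠ 0 := by
    intro h
    exact hϖ.ne_zero (Subtype.ext h)
  have h0 : R.res ⟨(f : F), f.2⟩ ≠ 0 := by
    rw [Subtype.coe_eta, hf]; exact hϖ0
  have hv : O.valuation (f : F) = 1 := valuation_eq_one_of_res_ne_zero R f.2 h0
  have hf0 : (f : F) ≠ 0 := by
    intro h
    rw [h, map_zero] at hv
    exact zero_ne_one hv
  obtain ⟨E, hE, -⟩ := HasPrincipalDivisors.exists_divisor (K := K) (f : F) hf0
  have h1 := hsp (f : F) f.2 hv E hE w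
  rw [Finsupp.mapDomain.addMonoidHom_apply, Subtype.coe_eta, hf, hord] at h1
  obtain ⟨a, -, ha⟩ := exists_eq_of_mapDomain_ne_zero sp (G := E) (b := w) (by rw [h1]; exact one_ne_zero)
  exact ⟨a, ha⟩

end Fermat.Agent.S27x.Spec.DiscSurj
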