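import Fermat.Agent.Gateway.C0.Main

/-!
# P-S27 block D, D6: specialisation is injective on `n`-torsion

Instantiation of the abstract (C0) theorem `Gateway/C0/Main.exists_const_mul_pow_of_res_eq_one`
(helper92) in the setting of a *good reduction* `R : RedSetup A O k κ` of a function field `F / K`
(`K` algebraically closed of characteristic zero, `A` a rank one valuation subring of `K`, `O` a
valuation subring of `F` over `A` with residue field `κ`, a function field over `k`).

* `GoodFacts R x xb` : the five good reduction facts (G0)-(G3) consumed by (C0);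
* `isUnit_natCast` : in residue characteristic zero every `n > 0` is a unit of `A`;
* `exists_const_mul_pow_of_res_eq` : **Kummer form**: `u ∈ O` with `n ∣ div u` and
  `res u = c̄ * h̄ ^ n` (`c̄ ∈ kˣ`) is of the form `c * w ^ n`;
* `isPrincipal_of_sp_isPrincipal` : **divisor form**, for any specialisation map of divisors
  `spD` with `spD (div f) = div (res f)` for `|f| = 1`: `n • D` and `spD D` principal ⇒ `D` principal;
* `eq_zero_of_sp_eq_zero`, `sp_injOn_torsion`, `card_torsion_le` : **class form**, for a map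
  `sp : Pic0 K F →+ Pic0 k κ` induced by `spD`.
-/

set_option autoImplicit false
set_option linter.unusedSectionVars false
set_option linter.style.haveILetI false

noncomputable section

namespace Fermat.Agent.S27x.Spec.Inj

open AlgebraicCurve IntermediateField Module IsLocalRing
open Fermat.Agent.Gateway.C0 Fermat.Agent.Lib.RiemannRoch

universe u v w z

variable {K : Type u} [Field K] [IsAlgClosed K] [CharZero K] {A : ValuationSubring K}
  {F : Type v} [Field F] [Algebra K F] {O : ValuationSubring F}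
  {k : Type w} {κ : Type z} [Field k] [IsAlgClosed k] [Field κ] [Algebra k κ]
  (R : RedSetup A O k κ)

/-- The five good reduction facts consumed by (C0): reduction preserves integrality over `K[x]`
and `K[1/x]` (G3), the residue degree is at most the degree (G1), the genus does not drop (G2),
finite dimensional subspaces are cartesian (G0). -/
structure GoodFacts (x : F) (hxO : x ∈ O) (xb : κ) : Prop where
  int_x : ∀ (f : F) (hf : f ∈ O), IsIntegral (Algebra.adjoin K {x}) f →
    IsIntegral (Algebra.adjoin k {xb}) (R.res ⟨f, hf⟩)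
  int_x_inv : ∀ (f : F) (hf : f ∈ O), IsIntegral (Algebra.adjoin K {x⁻¹}) f →
    IsIntegral (Algebra.adjoin k {xb⁻¹}) (R.res ⟨f, hf⟩)
  deg_le : finrank k⟮xb⟯ κ ≤ finrank K⟮x⟯ F
  genus_le : genusFF K F ≤ genusFF k κ
  cartesian : ∀ V : Submodule K F, FiniteDimensional K V → (R.lat V).FG

include R in
/-- In residue characteristic zero every positive integer is a unit of `A`. -/
theorem isUnit_natCast [CharZero k] {n : ℕ} (hn : 0 < n) : IsUnit ((n : ℕ) : A) := by
  by_contra h
  have hmem : ((n : ℕ) : A) ∈ maximalIdeal A := (mem_maximalIdeal _).mpr h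
  have h0 := (R.π_eq_zero_iff _).mpr hmem
  rw [map_natCast] at h0
  exact hn.ne' (Nat.cast_eq_zero.mp h0)

/-- An element of `O` with nonzero residue has valuation one. -/
theorem valuation_eq_one_of_res_ne_zero {f : F} (hf : f ∈ O) (h : R.res ⟨f, hf⟩ ≠ 0) :
    O.valuation f = 1 := by
  have hle : O.valuation f ≤ 1 := (O.valuation_le_one_iff _).mpr hf
  exact le_antisymm hle (not_lt.mp fun hlt => h ((R.res_ker ⟨f, hf⟩).mpr hlt))

theorem res_ne_zero_of_valuation_eq_one {f : F} (hf : f ∈ O) (h : O.valuation f = 1) :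
    R.res ⟨f, hf⟩ ≠ 0 := by
  intro h0
  have := (R.res_ker ⟨f, hf⟩).mp h0
  rw [h] at this
  exact lt_irrefl _ this

theorem inv_mem_of_valuation_eq_one {f : F} (h : O.valuation f = 1) : f⁻¹ ∈ O := by
  rw [← O.valuation_le_one_iff, map_inv₀, h, inv_one]

theorem res_inv {f : F} (hf : f ∈ O) (h : O.valuation f = 1) :
    R.res ⟨f⁻¹, inv_mem_of_valuation_eq_one h⟩ = (R.res ⟨f, hf⟩)⁻¹ := by
  have hf0 : f ≠ 0 := by
    rintro rfl
    rw [map_zero] at h
    exact zero_ne_one h
  have h1 : (⟨f⁻¹, inv_mem_of_valuation_eq_one h⟩ : O) * ⟨f, hf⟩ = 1 :=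
    Subtype.ext (inv_mul_cancel₀ hf0)
  have h2 := congrArg R.res h1
  rw [map_mul, map_one] at h2
  exact eq_inv_of_mul_eq_one_left h2

section kummer

variable {x : F} (hx : Transcendental K x) [FiniteDimensional K⟮x⟯ F]
  (hxO : x ∈ O) {xb : κ} (hxb : R.res ⟨x, hxO⟩ = xb) (hxbt : Transcendental k xb)
  [FiniteDimensional k⟮xb⟯ κ] [Algebra.IsSeparable k⟮xb⟯ κ]

include hx hxb hxbt in
/-- **(D6), Kummer form.**  If `n ∣ div u`, `u ∈ O` and the residue of `u` is a constant times
an `n`-th power, then `u` is a constant times an `n`-th power. -/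
theorem exists_const_mul_pow_of_res_eq (H : GoodFacts R x hxO xb) {n : ℕ}
    (hn : IsUnit ((n : ℕ) : A)) {u : F} (hu : u ≠ 0)
    (hdiv : ∀ v : Place K F, (n : ℤ) ∣ v.ord u) (huO : u ∈ O)
    {cb : k} (hcb : cb ≠ 0) {h : F} (hhO : h ∈ O) (hh : R.res ⟨h, hhO⟩ ≠ 0)
    (hres : R.res ⟨u, huO⟩ = algebraMap k κ cb * R.res ⟨h, hhO⟩ ^ n) :
    ∃ (c : K) (w : F), u = algebraMap K F c * w ^ n := by
  -- lift the constant
  obtain ⟨c0, hc0⟩ := R.π_surj cb
  have hc0res : R.res ⟨algebraMap K F c0, R.algebraMap_mem c0⟩ = algebraMap k κ cb := by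
    rw [R.res_algebraMap, hc0]
  have hcbκ : algebraMap k κ cb ≠ 0 := by
    rwa [Ne, map_eq_zero]
  have hc0v : O.valuation (algebraMap K F (c0 : K)) = 1 :=
    valuation_eq_one_of_res_ne_zero R (R.algebraMap_mem c0) (by rw [hc0res]; exact hcbκ)
  have hc0K : (c0 : K) ≠ 0 := by
    intro h0
    rw [h0, map_zero, map_zero] at hc0v
    exact zero_ne_one hc0v
  have hhv : O.valuation h = 1 := valuation_eq_one_of_res_ne_zero R hhO hh
  have hh0 : h ≠ 0 := by
    rintro rfl
    rw [map_zero] at hhv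
    exact zero_ne_one hhv
  -- the normalised element
  have hciO : (algebraMap K F (c0 : K))⁻¹ ∈ O := inv_mem_of_valuation_eq_one hc0v
  have hhiO : h⁻¹ ∈ O := inv_mem_of_valuation_eq_one hhv
  set z : F := u * ((algebraMap K F (c0 : K))⁻¹ * h⁻¹ ^ n) with hz
  have hzO : z ∈ O := O.mul_mem _ _ huO (O.mul_mem _ _ hciO (pow_mem hhiO n))
  have hz0 : z ≠ 0 :=
    mul_ne_zero hu (mul_ne_zero (inv_ne_zero (by rwa [Ne, map_eq_zero]))
      (pow_ne_zero _ (inv_ne_zero hh0)))
  have hz1 : R.res ⟨z, hzO⟩ = 1 := by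
    have e : (⟨z, hzO⟩ : O) = ⟨u, huO⟩ * (⟨(algebraMap K F (c0 : K))⁻¹, hciO⟩ *
        ⟨h⁻¹, hhiO⟩ ^ n) := Subtype.ext rfl
    rw [e, map_mul, map_mul, map_pow, hres, res_inv R (R.algebraMap_mem c0) hc0v,
      res_inv R hhO hhv, hc0res, inv_pow]
    field_simp
  have hzdiv : ∀ v : Place K F, (n : ℤ) ∣ v.ord z := by
    intro v
    have hci0 : (algebraMap K F (c0 : K))⁻¹ ≠ 0 := inv_ne_zero (by rwa [Ne, map_eq_zero])
    have hhn0 : h⁻¹ ^ n ≠ 0 := pow_ne_zero _ (inv_ne_zero hh0)
    rw [hz, v.ord_mul hu (mul_ne_zero hci0 hhn0), v.ord_mul hci0 hhn0, v.ord_inv,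
      Fermat.Agent.S24.PDiv.ord_algebraMap, ← zpow_natCast, v.ord_zpow, v.ord_inv]
    exact dvd_add (hdiv v) (dvd_add (by simp) (Dvd.intro _ rfl))
  obtain ⟨c, w, hcw⟩ := exists_const_mul_pow_of_res_eq_one R hx hxO hxb hxbt H.int_x H.int_x_inv
    H.deg_le H.genus_le H.cartesian hn hz0 hzdiv hzO hz1
  refine ⟨c0 * c, h * w, ?_⟩
  have hcF : algebraMap K F (c0 : K) ≠ 0 := by rwa [Ne, map_eq_zero]
  have : u = z * (algebraMap K F (c0 : K) * h ^ n) := by
    rw [hz, inv_pow]
    field_simp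
  rw [this, hcw, map_mul, mul_pow]
  ring

end kummer

/-! ### Divisor form and class form -/

section divisor

variable {x : F} (hx : Transcendental K x) [FiniteDimensional K⟮x⟯ F]
  (hxO : x ∈ O) {xb : κ} (hxb : R.res ⟨x, hxO⟩ = xb) (hxbt : Transcendental k xb)
  [FiniteDimensional k⟮xb⟯ κ] [Algebra.IsSeparable k⟮xb⟯ κ]

/-- The compatibility of a specialisation map of divisors with the reduction of functions:
`sp (div f) = div (res f)` for `|f| = 1`. -/
def SpCompat (spD : Divisor K F →+ Divisor k κ) : Prop :=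
  ∀ (f : F) (hf : f ∈ O), O.valuation f = 1 → ∀ E : Divisor K F, (∀ v : Place K F, E v = v.ord f) →
    ∀ w : Place k κ, spD E w = w.ord (R.res ⟨f, hf⟩)

include hxbt in
/-- a function on the special fibre without zeros and poles is a nonzero constant -/
theorem exists_const_of_ord_eq_zero {q : κ} (hq : q ≠ 0) (h : ∀ w : Place k κ, w.ord q = 0) :
    ∃ c : k, c ≠ 0 ∧ q = algebraMap k κ c := by
  haveI := FunctionFieldRR.hasPrincipalDivisors hxbt
  haveI : ∀ v : Place k κ, v.FiniteResidue := FunctionFieldRR.finiteResidue (K := k) xb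
  haveI := FunctionFieldRR.nonempty_place hxbt
  have hqL : q ∈ riemannRochSpace (0 : Divisor k κ) := by
    rw [mem_riemannRochSpace_iff]
    intro w
    right
    rw [h w]
    simp
  have hint : IsIntegral k q := (isAlgebraic_of_mem_zero hqL).isIntegral
  have hdeg1 : (minpoly k q).degree = 1 :=
    IsAlgClosed.degree_eq_one_of_irreducible k (minpoly.irreducible hint)
  obtain ⟨c, hc⟩ := minpoly.mem_range_of_degree_eq_one k q hdeg1
  refine ⟨c, ?_, hc.symm⟩
  rintro rfl
  rw [map_zero] at hc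
  exact hq hc.symm

include hx hxb hxbt in
/-- **(D6), divisor form.**  If `n • D` is principal and the specialisation of `D` is principal,
then `D` is principal. -/
theorem isPrincipal_of_sp_isPrincipal (H : GoodFacts R x hxO xb) {n : ℕ}
    (hn : IsUnit ((n : ℕ) : A)) (hsurj : Function.Surjective R.res)
    (spD : Divisor K F →+ Divisor k κ) (hspD : SpCompat R spD)
    {D : Divisor K F} (hnD : Divisor.IsPrincipal (n • D)) (hsp : Divisor.IsPrincipal (spD D)) :
    Divisor.IsPrincipal D := by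
  have hn0 : n ≠ 0 := by
    rintro rfl
    rw [Nat.cast_zero] at hn
    exact not_isUnit_zero hn
  obtain ⟨u, hu, hDu⟩ := hnD
  obtain ⟨g, hg, hDg⟩ := hsp
  -- normalise `|u| = 1`
  obtain ⟨c, hc, hcu⟩ := R.scal u hu
  rw [Algebra.smul_def] at hcu
  have hcF : algebraMap K F c ≠ 0 := by rwa [Ne, map_eq_zero]
  set u' : F := algebraMap K F c * u with hu'
  have hu'0 : u' ≠ 0 := mul_ne_zero hcF hu
  have hu'O : u' ∈ O := (O.valuation_le_one_iff _).mp hcu.le
  have hord : ∀ v : Place K F, (n • D) v = v.ord u' := by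
    intro v
    rw [hDu v, hu', v.ord_mul hcF hu, Fermat.Agent.S24.PDiv.ord_algebraMap, zero_add]
  -- the residue of `u'` has divisor `n • div g`
  have hres0 : R.res ⟨u', hu'O⟩ ≠ 0 := res_ne_zero_of_valuation_eq_one R hu'O hcu
  have hresord : ∀ w : Place k κ, w.ord (R.res ⟨u', hu'O⟩) = (n : ℤ) * w.ord g := by
    intro w
    rw [← hspD u' hu'O hcu (n • D) hord w, map_nsmul, Finsupp.smul_apply, hDg w, nsmul_eq_mul]
  obtain ⟨cb, hcb, hq⟩ := exists_const_of_ord_eq_zero hxbt
    (q := R.res ⟨u', hu'O⟩ * (g ^ n)⁻¹)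
    (mul_ne_zero hres0 (inv_ne_zero (pow_ne_zero _ hg))) (by
      intro w
      rw [w.ord_mul hres0 (inv_ne_zero (pow_ne_zero _ hg)), w.ord_inv, ← zpow_natCast,
        w.ord_zpow, hresord w]
      ring)
  obtain ⟨⟨h, hhO⟩, hh⟩ := hsurj g
  have hres : R.res ⟨u', hu'O⟩ = algebraMap k κ cb * R.res ⟨h, hhO⟩ ^ n := by
    rw [hh, ← hq, mul_assoc, inv_mul_cancel₀ (pow_ne_zero _ hg), mul_one]
  obtain ⟨c', w, hw⟩ := exists_const_mul_pow_of_res_eq R hx hxO hxb hxbt H hn hu'0
    (fun v => by rw [← hord v, Finsupp.smul_apply, nsmul_eq_mul]; exact Dvd.intro _ rfl)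
    hu'O hcb hhO (by rw [hh]; exact hg) hres
  have hc'0 : algebraMap K F c' ≠ 0 := by
    intro h0
    rw [hw, h0, zero_mul] at hu'0
    exact hu'0 rfl
  have hw0 : w ≠ 0 := by
    rintro rfl
    rw [hw, zero_pow hn0, mul_zero] at hu'0
    exact hu'0 rfl
  refine ⟨w, hw0, fun v => ?_⟩
  have h1 := hord v
  rw [hw, v.ord_mul hc'0 (pow_ne_zero _ hw0), Fermat.Agent.S24.PDiv.ord_algebraMap, zero_add,
    ← zpow_natCast, v.ord_zpow, Finsupp.smul_apply, nsmul_eq_mul] at h1
  have hnz : (n : ℤ) ≠ 0 := by exact_mod_cast hn0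
  exact mul_left_cancel₀ hnz h1

include hx hxb hxbt in
/-- **(D6), class form.**  A map `sp : Pic0 K F →+ Pic0 k κ` induced by a specialisation map of
divisors compatible with the reduction of functions is injective on `n`-torsion. -/
theorem eq_zero_of_sp_eq_zero (H : GoodFacts R x hxO xb) {n : ℕ}
    (hn : IsUnit ((n : ℕ) : A)) (hsurj : Function.Surjective R.res)
    (spD : Divisor K F →+ Divisor k κ) (hspD : SpCompat R spD)
    (sp : Pic0 K F →+ Pic0 k κ)
    (hsp : ∀ D : Divisor.degZero (K := K) (F := F),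
      ∃ h : spD D.1 ∈ Divisor.degZero (K := k) (F := κ), sp (Pic0.mk D) = Pic0.mk ⟨spD D.1, h⟩)
    {c : Pic0 K F} (hc : c ∈ Pic0.torsion K F n) (h0 : sp c = 0) : c = 0 := by
  obtain ⟨D, rfl⟩ := Pic0.mk_surjective c
  rw [Pic0.mem_torsion] at hc
  have hnD : Divisor.IsPrincipal (n • D.1) := by
    have h1 : Pic0.mk ((n : ℤ) • D) = 0 := hc
    rw [Pic0.mk, QuotientAddGroup.eq_zero_iff, AddSubgroup.mem_addSubgroupOf] at h1
    have h2 : (((n : ℤ) • D : Divisor.degZero (K := K) (F := F)) : Divisor K F) = n • D.1 := by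
      rw [AddSubgroup.coe_zsmul, natCast_zsmul]
    rw [h2] at h1
    exact h1
  obtain ⟨h, hh⟩ := hsp D
  rw [hh, Pic0.mk, QuotientAddGroup.eq_zero_iff, AddSubgroup.mem_addSubgroupOf] at h0
  have hD := isPrincipal_of_sp_isPrincipal R hx hxO hxb hxbt H hn hsurj spD hspD hnD h0
  rw [Pic0.mk, QuotientAddGroup.eq_zero_iff, AddSubgroup.mem_addSubgroupOf]
  exact hD

include hx hxb hxbt in
/-- `sp` is injective on the `n`-torsion. -/
theorem sp_injOn_torsion (H : GoodFacts R x hxO xb) {n : ℕ}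
    (hn : IsUnit ((n : ℕ) : A)) (hsurj : Function.Surjective R.res)
    (spD : Divisor K F →+ Divisor k κ) (hspD : SpCompat R spD)
    (sp : Pic0 K F →+ Pic0 k κ)
    (hsp : ∀ D : Divisor.degZero (K := K) (F := F),
      ∃ h : spD D.1 ∈ Divisor.degZero (K := k) (F := κ), sp (Pic0.mk D) = Pic0.mk ⟨spD D.1, h⟩) :
    Set.InjOn sp (Pic0.torsion K F n : Set (Pic0 K F)) := by
  intro a ha b hb hab
  have hmem : a - b ∈ Pic0.torsion K F n := (Pic0.torsion K F n).sub_mem ha hb
  have h0 : sp (a - b) = 0 := by rw [map_sub, hab, sub_self]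
  exact sub_eq_zero.mp
    (eq_zero_of_sp_eq_zero R hx hxO hxb hxbt H hn hsurj spD hspD sp hsp hmem h0)

include hx hxb hxbt in
/-- The upper bound for the `n`-torsion of the generic fibre. -/
theorem card_torsion_le (H : GoodFacts R x hxO xb) {n : ℕ}
    (hn : IsUnit ((n : ℕ) : A)) (hsurj : Function.Surjective R.res)
    (spD : Divisor K F →+ Divisor k κ) (hspD : SpCompat R spD)
    (sp : Pic0 K F →+ Pic0 k κ)
    (hsp : ∀ D : Divisor.degZero (K := K) (F := F),
      ∃ h : spD D.1 ∈ Divisor.degZero (K := k) (F := κ), sp (Pic0.mk D) = Pic0.mk ⟨spD D.1, h⟩)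
    [Finite (Pic0.torsion k κ n)] :
    Nat.card (Pic0.torsion K F n) ≤ Nat.card (Pic0.torsion k κ n) := by
  have hmaps : ∀ a : Pic0.torsion K F n, sp a.1 ∈ Pic0.torsion k κ n := by
    intro a
    have ha := Pic0.mem_torsion.mp a.2
    rw [Pic0.mem_torsion, ← map_zsmul, ha, map_zero]
  refine Nat.card_le_card_of_injective (fun a => (⟨sp a.1, hmaps a⟩ : Pic0.torsion k κ n)) ?_
  intro a b hab
  have h1 : sp a.1 = sp b.1 := congrArg Subtype.val hab
  exact Subtype.ext
    (sp_injOn_torsion R hx hxO hxb hxbt H hn hsurj spD hspD sp hsp a.2 b.2 h1)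

end divisor

end Fermat.Agent.S27x.Spec.Inj
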