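import Fermat.Agent.Gateway.Red.Glue
import Fermat.Agent.Gateway.Red.Filtered
import Fermat.Agent.S27x.Spec.Inj

/-!
# P-S27 block D, D6 (adapter): injectivity of the glued reduction on `n`-torsion

The abstract reduction theory of `Gateway/Red` (`RedBase`, `IsFilteredChart`, `Glue.glueRed`,
`Glue.glue_count`) feeds `Spec/Inj` (= the abstract (C0) theorem):

* `redSetupOfBase` : a `RedBase` over a rank one valuation ring is a `C0.RedSetup`;
* `goodFacts_of_filteredChart` : a filtered chart coordinate `x` with (G0), (G1), (G2) gives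
  `Inj.GoodFacts`;
* `spD`, `spCompat_spD` : the push-forward of divisors along `Glue.glueRed` is compatible with the
  reduction of functions (`Glue.glue_count`);
* `isPrincipal_of_spD_isPrincipal`, `eq_zero_of_sp_eq_zero`, `card_torsion_le` : injectivity of the
  specialisation on `n`-torsion.
-/

set_option autoImplicit false
set_option linter.unusedSectionVars false
set_option linter.style.haveILetI false

noncomputable section

namespace Fermat.Agent.S27x.Spec.InjBase

open AlgebraicCurve IntermediateField Module IsLocalRing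
open Fermat.Agent.Gateway.C0 Fermat.Agent.Gateway.Red Fermat.Agent.S27x.Spec.Inj

universe u v w z

variable {K : Type u} [Field K] {A : ValuationSubring K} {k : Type w} [Field k]
  {F : Type v} [Field F] [Algebra K F] {κ : Type z} [Field κ] [Algebra k κ]
  (B : RedBase K A k F κ)

/-- A `RedBase` over a rank one valuation ring is a `RedSetup`. -/
def redSetupOfBase
    (hrank : ∀ x ∈ maximalIdeal A, ∀ c : A, c ≠ 0 → ∃ j : ℕ, c ∣ x ^ j)
    (hne : ∃ ϖ ∈ maximalIdeal A, ϖ ≠ 0) : RedSetup A B.O k κ where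
  π := B.π
  π_surj := B.π_surj
  res := B.res
  res_ker f := by
    rw [B.res_eq_zero_iff, B.O.valuation_lt_one_iff]
  algebraMap_mem a := (B.algebraMap_mem_iff (a : K)).mpr a.2
  res_algebraMap a := B.res_algebraMap a _
  scal f hf := by
    obtain ⟨c, hc, h, hres⟩ := B.normalize f hf
    refine ⟨c, hc, ?_⟩
    have hle : B.O.valuation (c • f) ≤ 1 := (B.O.valuation_le_one_iff _).mpr h
    refine le_antisymm hle (not_lt.mp fun hlt => hres ?_)
    rw [B.res_eq_zero_iff, B.O.valuation_lt_one_iff]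
    exact hlt
  rank_one := hrank
  exists_ne_zero := hne

@[simp] theorem redSetupOfBase_res (hrank) (hne) : (redSetupOfBase B hrank hne).res = B.res := rfl

@[simp] theorem redSetupOfBase_π (hrank) (hne) : (redSetupOfBase B hrank hne).π = B.π := rfl

variable {B}

/-- The good reduction facts from a filtered chart coordinate. -/
theorem goodFacts_of_filteredChart (hrank) (hne) {x : F} (h : B.IsFilteredChart x)
    (hdeg : finrank k⟮B.res ⟨x, h.t_mem⟩⟯ κ ≤ finrank K⟮x⟯ F)
    (hgenus : genusFF K F ≤ genusFF k κ)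
    (hcart : ∀ V : Submodule K F, FiniteDimensional K V →
      ((redSetupOfBase B hrank hne).lat V).FG) :
    GoodFacts (redSetupOfBase B hrank hne) x h.t_mem (B.res ⟨x, h.t_mem⟩) where
  int_x f hf hint := h.sc ⟨f, hf⟩ hint
  int_x_inv f hf hint := h.sc_inv ⟨f, hf⟩ hint
  deg_le := hdeg
  genus_le := hgenus
  cartesian := hcart

section glue

variable [IsAlgClosed K] [CharZero K] [IsAlgClosed k]
  (B) (x : F) (h₀ : B.IsChart x) (hinf : B.IsChart x⁻¹)
  (hx : Transcendental K x) (hxb : Transcendental k (B.res ⟨x, h₀.t_mem⟩))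
  [FiniteDimensional K⟮x⟯ F] [Algebra.IsSeparable K⟮x⟯ F]
  [FiniteDimensional k⟮B.res ⟨x, h₀.t_mem⟩⟯ κ] [Algebra.IsSeparable k⟮B.res ⟨x, h₀.t_mem⟩⟯ κ]

/-- The specialisation of divisors: push-forward along the glued reduction of places. -/
def spD : Divisor K F →+ Divisor k κ :=
  Finsupp.mapDomain.addMonoidHom (Glue.glueRed B x h₀ hinf hx hxb)

theorem spD_apply (D : Divisor K F) :
    spD B x h₀ hinf hx hxb D = Finsupp.mapDomain (Glue.glueRed B x h₀ hinf hx hxb) D := rfl

/-- `sp (div f) = div (res f)` for `|f| = 1` (conservation of number). -/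
theorem spCompat_spD (hrank) (hne) :
    SpCompat (redSetupOfBase B hrank hne) (spD B x h₀ hinf hx hxb) := by
  intro f hf hf1 E hE w
  have hres : B.res ⟨f, hf⟩ ≠ 0 :=
    res_ne_zero_of_valuation_eq_one (redSetupOfBase B hrank hne) hf hf1
  exact Glue.glue_count B x h₀ hinf hx hxb ⟨f, hf⟩ hres E hE w

/-- the specialisation of divisors preserves the degree -/
theorem degree_spD (D : Divisor K F) :
    Divisor.degree (spD B x h₀ hinf hx hxb D) = Divisor.degree D := by
  classical
  rw [spD_apply]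
  induction D using Finsupp.induction_linear with
  | zero => simp
  | add D E hD hE => rw [Finsupp.mapDomain_add, map_add, map_add, hD, hE]
  | single P n =>
    rw [Finsupp.mapDomain_single, Divisor.degree_single, Divisor.degree_single,
      Glue.deg_glueRed]

end glue

section main

variable [IsAlgClosed K] [CharZero K] [IsAlgClosed k]
  {x : F} (h : B.IsFilteredChart x)
  (hx : Transcendental K x) (hxb : Transcendental k (B.res ⟨x, h.t_mem⟩))
  [FiniteDimensional K⟮x⟯ F] [Algebra.IsSeparable K⟮x⟯ F]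
  [FiniteDimensional k⟮B.res ⟨x, h.t_mem⟩⟯ κ] [Algebra.IsSeparable k⟮B.res ⟨x, h.t_mem⟩⟯ κ]

/-- **(D6) for the glued reduction, divisor form.** -/
theorem isPrincipal_of_spD_isPrincipal (hrank) (hne)
    (hdeg : finrank k⟮B.res ⟨x, h.t_mem⟩⟯ κ ≤ finrank K⟮x⟯ F)
    (hgenus : genusFF K F ≤ genusFF k κ)
    (hcart : ∀ V : Submodule K F, FiniteDimensional K V →
      ((redSetupOfBase B hrank hne).lat V).FG)
    {n : ℕ} (hn : IsUnit ((n : ℕ) : A)) {D : Divisor K F}
    (hnD : Divisor.IsPrincipal (n • D))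
    (hsp : Divisor.IsPrincipal (spD B x h.isChart h.isChart_inv hx hxb D)) :
    Divisor.IsPrincipal D :=
  isPrincipal_of_sp_isPrincipal (xb := B.res ⟨x, h.t_mem⟩) (redSetupOfBase B hrank hne) hx h.t_mem
    rfl hxb
    (goodFacts_of_filteredChart hrank hne h hdeg hgenus hcart) hn B.res_surj _
    (spCompat_spD B x h.isChart h.isChart_inv hx hxb hrank hne) hnD hsp

/-- The map `Pic0 K F →+ Pic0 k κ` induced by the glued reduction. -/
def spPic0 : Pic0 K F →+ Pic0 k κ :=
  QuotientAddGroup.map _ _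
    (((spD B x h.isChart h.isChart_inv hx hxb).comp (Divisor.degZero (K := K) (F := F)).subtype).codRestrict
      (Divisor.degZero (K := k) (F := κ)) (fun D => by
        rw [Divisor.mem_degZero]
        show Divisor.degree (spD B x h.isChart h.isChart_inv hx hxb D.1) = 0
        rw [degree_spD]
        exact D.2))
    (by
      rintro D hD
      rw [AddSubgroup.mem_addSubgroupOf] at hD
      obtain ⟨f, hf, hDf⟩ := hD
      rw [AddSubgroup.mem_comap, AddSubgroup.mem_addSubgroupOf]
      -- normalise `f`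
      obtain ⟨c, hc, hcO, hres⟩ := B.normalize f hf
      have hcF : algebraMap K F c ≠ 0 := by rwa [Ne, map_eq_zero]
      refine ⟨B.res ⟨c • f, hcO⟩, hres, fun w => ?_⟩
      refine Glue.glue_count B x h.isChart h.isChart_inv hx hxb ⟨c • f, hcO⟩ hres D.1 (fun P => ?_) w
      show D.1 P = P.ord (c • f)
      rw [hDf P, Algebra.smul_def, P.ord_mul hcF hf, Fermat.Agent.S24.PDiv.ord_algebraMap,
        zero_add])

theorem spPic0_mk (D : Divisor.degZero (K := K) (F := F)) :
    ∃ hD : spD B x h.isChart h.isChart_inv hx hxb D.1 ∈ Divisor.degZero (K := k) (F := κ),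
      spPic0 h hx hxb (Pic0.mk D) = Pic0.mk ⟨spD B x h.isChart h.isChart_inv hx hxb D.1, hD⟩ :=
  ⟨by
    rw [Divisor.mem_degZero, degree_spD]
    exact D.2, rfl⟩

/-- **(D6) for the glued reduction, class form.** -/
theorem eq_zero_of_spPic0_eq_zero (hrank) (hne)
    (hdeg : finrank k⟮B.res ⟨x, h.t_mem⟩⟯ κ ≤ finrank K⟮x⟯ F)
    (hgenus : genusFF K F ≤ genusFF k κ)
    (hcart : ∀ V : Submodule K F, FiniteDimensional K V →
      ((redSetupOfBase B hrank hne).lat V).FG)
    {n : ℕ} (hn : IsUnit ((n : ℕ) : A)) {c : Pic0 K F} (hc : c ∈ Pic0.torsion K F n)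
    (h0 : spPic0 h hx hxb c = 0) : c = 0 :=
  eq_zero_of_sp_eq_zero (xb := B.res ⟨x, h.t_mem⟩) (redSetupOfBase B hrank hne) hx h.t_mem rfl hxb
    (goodFacts_of_filteredChart hrank hne h hdeg hgenus hcart) hn B.res_surj _
    (spCompat_spD B x h.isChart h.isChart_inv hx hxb hrank hne) (spPic0 h hx hxb)
    (spPic0_mk h hx hxb) hc h0

/-- the specialisation is injective on `n`-torsion -/
theorem spPic0_injOn_torsion (hrank) (hne)
    (hdeg : finrank k⟮B.res ⟨x, h.t_mem⟩⟯ κ ≤ finrank K⟮x⟯ F)
    (hgenus : genusFF K F ≤ genusFF k κ)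
    (hcart : ∀ V : Submodule K F, FiniteDimensional K V →
      ((redSetupOfBase B hrank hne).lat V).FG)
    {n : ℕ} (hn : IsUnit ((n : ℕ) : A)) :
    Set.InjOn (spPic0 h hx hxb) (Pic0.torsion K F n : Set (Pic0 K F)) :=
  sp_injOn_torsion (xb := B.res ⟨x, h.t_mem⟩) (redSetupOfBase B hrank hne) hx h.t_mem rfl hxb
    (goodFacts_of_filteredChart hrank hne h hdeg hgenus hcart) hn B.res_surj _
    (spCompat_spD B x h.isChart h.isChart_inv hx hxb hrank hne) (spPic0 h hx hxb)
    (spPic0_mk h hx hxb)

include h hx hxb in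
/-- the upper bound for the torsion of the generic fibre -/
theorem card_torsion_le (hrank) (hne)
    (hdeg : finrank k⟮B.res ⟨x, h.t_mem⟩⟯ κ ≤ finrank K⟮x⟯ F)
    (hgenus : genusFF K F ≤ genusFF k κ)
    (hcart : ∀ V : Submodule K F, FiniteDimensional K V →
      ((redSetupOfBase B hrank hne).lat V).FG)
    {n : ℕ} (hn : IsUnit ((n : ℕ) : A)) [Finite (Pic0.torsion k κ n)] :
    Nat.card (Pic0.torsion K F n) ≤ Nat.card (Pic0.torsion k κ n) :=
  Inj.card_torsion_le (xb := B.res ⟨x, h.t_mem⟩) (redSetupOfBase B hrank hne) hx h.t_mem rfl hxb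
    (goodFacts_of_filteredChart hrank hne h hdeg hgenus hcart) hn B.res_surj _
    (spCompat_spD B x h.isChart h.isChart_inv hx hxb hrank hne) (spPic0 h hx hxb)
    (spPic0_mk h hx hxb)

end main

end Fermat.Agent.S27x.Spec.InjBase
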