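import Fermat.Agent.S27x.Contract

/-!
# P-S27 block D (D8, helper95): the specialisation step only for TRANSCENDENTAL `t`

`Contract.T1` asks for the step `CountOKOver k → CountOKOver K` for every `t` with `K` algebraic
over `k(t)`, including the degenerate case `t` algebraic over `k` (then `K = k` as sets, and the
step would be a transport of structure).  The induction of `Contract.countOKOver_of_finGen` never
needs that case: if `t` is algebraic over `fieldOfDef (s.erase t)` then `K` is already algebraic
over `ℚ(s.erase t)` and the induction hypothesis applies to `K` itself.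

* `T1Trans` : `T1` with the extra hypothesis `Transcendental k t`.
* `countOKOver_of_finGen_trans : T0 → T1Trans → ∀ d K, FinGen K d → CountOKOver K`.
* `s27_of_blocks_trans : T0 → BlockBC → BlockDesc → T1Trans → (statement of S27)`.
-/

set_option autoImplicit false
set_option linter.style.haveILetI false

noncomputable section

namespace Fermat.Agent.S27x.Spec

open AlgebraicCurve IntermediateField Fermat.Agent.S27x.Contract

universe u v

/-- (G4), sharp form: one specialisation step, with `t` transcendental over `k`. -/
def T1Trans : Prop :=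
  ∀ (K : Type u) [Field K] [IsAlgClosed K] [CharZero K]
    (k : IntermediateField ℚ K) [IsAlgClosed k] (t : K),
    Transcendental k t →
    Algebra.IsAlgebraic (IntermediateField.adjoin k {t}) K →
      CountOKOver.{u, v} k → CountOKOver.{u, v} K

theorem t1Trans_of_t1 (h : T1.{u, v}) : T1Trans.{u, v} :=
  fun K _ _ _ k _ t _ halg hk => h K k t halg hk

section

variable {K : Type u} [Field K] [CharZero K]

/-- If `t` is algebraic over `fieldOfDef s'` and `K` is algebraic over `ℚ(s' ∪ {t})`, then `K` is
algebraic over `ℚ(s')`. -/
theorem isAlgebraic_adjoin_erase {s : Finset K} {t : K} [DecidableEq K]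
    (halgt : IsAlgebraic (fieldOfDef (s.erase t)) t)
    (halg : Algebra.IsAlgebraic (IntermediateField.adjoin ℚ (s : Set K)) K) :
    Algebra.IsAlgebraic (IntermediateField.adjoin ℚ ((s.erase t : Finset K) : Set K)) K := by
  set E := IntermediateField.adjoin ℚ ((s.erase t : Finset K) : Set K) with hE
  -- `t ∈ fieldOfDef (s.erase t)`
  have htmem : t ∈ fieldOfDef (s.erase t) := by
    rw [mem_fieldOfDef]
    have h1 : IsAlgebraic (algebraicClosure E K) t := halgt
    exact IsAlgebraic.restrictScalars (R := E) (S := algebraicClosure E K) h1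
  have hle : IntermediateField.adjoin ℚ (s : Set K) ≤ fieldOfDef (s.erase t) := by
    rw [IntermediateField.adjoin_le_iff]
    intro x hx
    by_cases hxt : x = t
    · subst hxt; exact htmem
    · exact subset_fieldOfDef (s.erase t) (Finset.mem_coe.mpr (Finset.mem_erase.mpr ⟨hxt, hx⟩))
  refine ⟨fun x => ?_⟩
  have h2 : IsAlgebraic (fieldOfDef (s.erase t)) x :=
    IsAlgebraic.tower_top_of_subalgebra_le (R := ℚ) (S := K)
      (A := (IntermediateField.adjoin ℚ (s : Set K)).toSubalgebra)
      (B := (fieldOfDef (s.erase t)).toSubalgebra) hle (halg.isAlgebraic x)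
  have h3 : IsAlgebraic (algebraicClosure E K) x := h2
  exact IsAlgebraic.restrictScalars (R := E) (S := algebraicClosure E K) h3

end

theorem countOKOver_of_finGen_trans (hQ : T0.{u, v}) (hStep : T1Trans.{u, v}) :
    ∀ (d : ℕ) (K : Type u) [Field K] [IsAlgClosed K] [CharZero K],
      FinGen K d → CountOKOver.{u, v} K := by
  intro d
  induction d with
  | zero =>
    intro K _ _ _ ⟨s, hs, halg⟩
    have hs0 : s = ∅ := Finset.card_eq_zero.mp (Nat.le_zero.mp hs)
    subst hs0
    haveI : Algebra.IsAlgebraic ℚ (IntermediateField.adjoin ℚ ((∅ : Finset K) : Set K)) :=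
      (IntermediateField.isAlgebraic_adjoin_iff_isAlgebraic ℚ K).mpr (by simp)
    haveI : Algebra.IsAlgebraic ℚ K :=
      Algebra.IsAlgebraic.trans ℚ (IntermediateField.adjoin ℚ ((∅ : Finset K) : Set K)) K
    exact hQ K
  | succ d ih =>
    intro K _ _ _ ⟨s, hs, halg⟩
    classical
    by_cases hsd : s.card ≤ d
    · exact ih K ⟨s, hsd, halg⟩
    · have hcard : s.card = d + 1 := by omega
      obtain ⟨t, ht⟩ : s.Nonempty := Finset.card_pos.mp (by omega)
      have hs'card : (s.erase t).card = d := by
        rw [Finset.card_erase_of_mem ht, hcard]; rfl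
      by_cases halgt : IsAlgebraic (fieldOfDef (s.erase t)) t
      · exact ih K ⟨s.erase t, hs'card.le, isAlgebraic_adjoin_erase halgt halg⟩
      have hle : IntermediateField.adjoin ℚ (s : Set K) ≤
          (IntermediateField.adjoin (fieldOfDef (s.erase t)) {t}).restrictScalars ℚ := by
        rw [IntermediateField.adjoin_le_iff]
        intro x hx
        by_cases hxt : x = t
        · subst hxt
          exact IntermediateField.mem_adjoin_simple_self (fieldOfDef (s.erase x)) x
        · have hxs : x ∈ s.erase t := Finset.mem_erase.mpr ⟨hxt, hx⟩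
          have hxk : x ∈ fieldOfDef (s.erase t) := subset_fieldOfDef (s.erase t) hxs
          exact IntermediateField.algebraMap_mem
            (IntermediateField.adjoin (fieldOfDef (s.erase t)) {t})
            (⟨x, hxk⟩ : fieldOfDef (s.erase t))
      have halg' : Algebra.IsAlgebraic
          (IntermediateField.adjoin (fieldOfDef (s.erase t)) {t}) K :=
        ⟨fun x => isAlgebraic_of_le _ hle (halg.isAlgebraic x)⟩
      have hk : CountOKOver.{u, v} (fieldOfDef (s.erase t)) := by
        apply ih (fieldOfDef (s.erase t))
        have := finGen_fieldOfDef (s.erase t)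
        rwa [hs'card] at this
      exact hStep K (fieldOfDef (s.erase t)) t halgt halg' hk

/-- **S27 from the four blocks**, with the sharp specialisation step `T1Trans`. -/
theorem s27_of_blocks_trans (h0 : T0.{u, v}) (hBC : BlockBC.{u, v})
    (hDesc : BlockDesc.{u, v}) (h1 : T1Trans.{u, v})
    (K : Type u) (F : Type v) [Field K] [Field F] [Algebra K F] [IsAlgClosed K] [CharZero K]
    [IsCurveOver K F] [Algebra.EssFiniteType K F]
    (ℓ : ℕ) [Fact ℓ.Prime] (k : ℕ) :
    Nat.card (Pic0.torsion K F (ℓ ^ k)) = ℓ ^ (2 * genusFF K F * k) := by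
  have h := t2_of_bc_desc hBC hDesc (countOKOver_of_finGen_trans h0 h1) K F (ℓ ^ k)
    (pow_pos (Fact.out : ℓ.Prime).pos k)
  rw [h, ← pow_mul]
  congr 1
  ring

end Fermat.Agent.S27x.Spec
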