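import Mathlib

/-!
# P-S27 block D2: the Apéry model, abstract core (helper32)

`PoleOrd K B` : a "pole order" function `ν : B → WithBot ℕ` on a `K`-algebra `B`
(think: `B` = functions on a curve regular outside a point `P`, `ν = -ord_P`), multiplicative,
ultrametric, trivial on constants, and with one-dimensional jumps (`exists_sub_lt`).

`AperyData P d x` : for `x` of pole order `d ≥ 1`, elements `f i` (`i : Fin d`) of
minimal pole order `m i ≡ i mod d`.  Then (`AperyData.*`):

* `ν_combo` : `ν (∑ i, p_i(x) f_i) = max_i (d * deg p_i + m_i)` (no cancellation);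
* `combo_injective`, `combo_surjective` : `B = ⊕ K[x] f_i`;
* `exists_structure` : the structure constants `f_i f_j = ∑ l, c_ijl(x) f_l` with
  `d * deg c_ijl + m_l ≤ m_i + m_j` and equality exactly for `l = i + j mod d`.
-/

set_option autoImplicit false

namespace Fermat.Agent.S27x.Spec.AperyCore

open Polynomial

/-- A pole-order function on a `K`-algebra `B`. -/
structure PoleOrd (K B : Type*) [Field K] [CommRing B] [Algebra K B] where
  /-- the pole order; `⊥` at `0` -/
  ν : B → WithBot ℕ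
  ν_eq_bot : ∀ {b : B}, ν b = ⊥ ↔ b = 0
  ν_mul : ∀ a b : B, ν (a * b) = ν a + ν b
  ν_add_le : ∀ a b : B, ν (a + b) ≤ max (ν a) (ν b)
  ν_algebraMap : ∀ c : K, c ≠ 0 → ν (algebraMap K B c) = 0
  exists_sub_lt : ∀ a b : B, b ≠ 0 → ν a = ν b → ∃ c : K, ν (a - c • b) < ν b

namespace PoleOrd

variable {K B : Type*} [Field K] [CommRing B] [Algebra K B] (P : PoleOrd K B)

@[simp] theorem ν_zero : P.ν 0 = ⊥ := P.ν_eq_bot.mpr rfl

theorem ν_ne_bot {b : B} (hb : b ≠ 0) : P.ν b ≠ ⊥ := fun h => hb (P.ν_eq_bot.mp h)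

@[simp] theorem ν_one : P.ν 1 = 0 := by
  have := P.ν_algebraMap 1 one_ne_zero
  rwa [map_one] at this

include P in
theorem one_ne_zero' : (1 : B) ≠ 0 := by
  intro h
  have := P.ν_one
  rw [h, P.ν_zero] at this
  exact WithBot.bot_ne_zero this

theorem ν_smul {c : K} (hc : c ≠ 0) (b : B) : P.ν (c • b) = P.ν b := by
  rw [Algebra.smul_def, P.ν_mul, P.ν_algebraMap c hc, zero_add]

@[simp] theorem ν_neg (b : B) : P.ν (-b) = P.ν b := by
  have : -b = (-1 : K) • b := by simp
  rw [this, P.ν_smul (by norm_num)]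

theorem ν_sub_le (a b : B) : P.ν (a - b) ≤ max (P.ν a) (P.ν b) := by
  have := P.ν_add_le a (-b)
  rwa [P.ν_neg, ← sub_eq_add_neg] at this

theorem ν_add_eq_of_lt {a b : B} (h : P.ν a < P.ν b) : P.ν (a + b) = P.ν b := by
  apply le_antisymm
  · exact (P.ν_add_le a b).trans (max_le h.le le_rfl)
  · have h1 : P.ν b ≤ max (P.ν (a + b)) (P.ν a) := by
      have := P.ν_sub_le (a + b) a
      rwa [add_sub_cancel_left] at this
    rcases le_max_iff.mp h1 with h2 | h2
    · exact h2
    · exact absurd h (not_lt.mpr h2)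

theorem ν_add_eq_of_lt' {a b : B} (h : P.ν b < P.ν a) : P.ν (a + b) = P.ν a := by
  rw [add_comm]
  exact P.ν_add_eq_of_lt h

theorem ν_pow (a : B) (n : ℕ) : P.ν (a ^ n) = n • P.ν a := by
  induction n with
  | zero => simp
  | succ n ih => rw [pow_succ, P.ν_mul, ih, succ_nsmul]

include P in
/-- `B` has no zero divisors. -/
theorem mul_eq_zero_iff {a b : B} : a * b = 0 ↔ a = 0 ∨ b = 0 := by
  constructor
  · intro h
    have h1 : P.ν a + P.ν b = ⊥ := by rw [← P.ν_mul, h, P.ν_zero]
    rcases WithBot.add_eq_bot.mp h1 with h2 | h2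
    · exact Or.inl (P.ν_eq_bot.mp h2)
    · exact Or.inr (P.ν_eq_bot.mp h2)
  · rintro (rfl | rfl) <;> simp

theorem ν_sum_le {ι : Type*} (s : Finset ι) (g : ι → B) :
    P.ν (∑ i ∈ s, g i) ≤ s.sup fun i => P.ν (g i) := by
  classical
  induction s using Finset.induction_on with
  | empty => simp
  | insert a s ha ih =>
    rw [Finset.sum_insert ha, Finset.sup_insert]
    exact (P.ν_add_le _ _).trans (max_le_max le_rfl ih)

/-- No cancellation: if the nonzero terms have pairwise distinct pole orders, the pole order of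
the sum is the maximum. -/
theorem ν_sum_eq_sup {ι : Type*} (s : Finset ι) (g : ι → B)
    (hinj : ∀ i ∈ s, ∀ j ∈ s, g i ≠ 0 → g j ≠ 0 → P.ν (g i) = P.ν (g j) → i = j) :
    P.ν (∑ i ∈ s, g i) = s.sup fun i => P.ν (g i) := by
  classical
  induction s using Finset.induction_on with
  | empty => simp
  | insert a s ha ih =>
    have ih' := ih fun i hi j hj => hinj i (Finset.mem_insert_of_mem hi) j
      (Finset.mem_insert_of_mem hj)
    rw [Finset.sum_insert ha, Finset.sup_insert]
    by_cases hga : g a = 0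
    · rw [hga, zero_add, P.ν_zero, ih']
      simp
    · have hne : P.ν (g a) ≠ s.sup fun i => P.ν (g i) := by
        intro heq
        have hnb : (s.sup fun i => P.ν (g i)) ≠ ⊥ := heq ▸ P.ν_ne_bot hga
        have hs : s.Nonempty := by
          rcases s.eq_empty_or_nonempty with h | h
          · rw [h, Finset.sup_empty] at hnb
            exact absurd rfl hnb
          · exact h
        obtain ⟨j, hj, hjs⟩ := Finset.exists_mem_eq_sup s hs fun i => P.ν (g i)
        have hgj : g j ≠ 0 := by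
          intro h0
          rw [hjs, h0, P.ν_zero] at hnb
          exact hnb rfl
        have := hinj a (Finset.mem_insert_self a s) j (Finset.mem_insert_of_mem hj) hga hgj
          (heq.trans hjs)
        exact ha (this ▸ hj)
      rcases lt_or_gt_of_ne hne with h | h
      · rw [← ih'] at h ⊢
        rw [P.ν_add_eq_of_lt h, max_eq_right h.le]
      · rw [← ih'] at h ⊢
        rw [P.ν_add_eq_of_lt' h, max_eq_left h.le]

/-- The `ℕ`-valued pole order (`0` at `0`). -/
def nu (b : B) : ℕ := (P.ν b).unbotD 0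

theorem ν_eq_nu {b : B} (hb : b ≠ 0) : P.ν b = (P.nu b : WithBot ℕ) := by
  unfold nu
  obtain ⟨n, hn⟩ := WithBot.ne_bot_iff_exists.mp (P.ν_ne_bot hb)
  rw [← hn]
  rfl

theorem nu_eq_of_ν_eq {b : B} {n : ℕ} (h : P.ν b = n) : P.nu b = n := by
  unfold nu
  rw [h]
  rfl

@[simp] theorem nu_one : P.nu 1 = 0 := by
  unfold nu
  rw [P.ν_one]
  rfl

theorem nu_mul {a b : B} (ha : a ≠ 0) (hb : b ≠ 0) : P.nu (a * b) = P.nu a + P.nu b := by
  apply P.nu_eq_of_ν_eq
  rw [P.ν_mul, P.ν_eq_nu ha, P.ν_eq_nu hb]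
  rfl

/-- Pole order of a polynomial in an element of positive pole order. -/
theorem ν_aeval {x : B} {d : ℕ} (hx : P.ν x = d) (hd : 0 < d) {p : K[X]} (hp : p ≠ 0) :
    P.ν (aeval x p) = ((d * p.natDegree : ℕ) : WithBot ℕ) := by
  classical
  have hterm : ∀ k : ℕ, p.coeff k ≠ 0 → P.ν (p.coeff k • x ^ k) = ((d * k : ℕ) : WithBot ℕ) := by
    intro k hk
    rw [P.ν_smul hk, P.ν_pow, hx]
    rw [nsmul_eq_mul]
    push_cast
    ring
  have hterm0 : ∀ k : ℕ, p.coeff k • x ^ k ≠ 0 → p.coeff k ≠ 0 := by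
    intro k hk h0
    rw [h0, zero_smul] at hk
    exact hk rfl
  rw [aeval_eq_sum_range, P.ν_sum_eq_sup]
  · apply le_antisymm
    · apply Finset.sup_le
      intro k hk
      by_cases hck : p.coeff k = 0
      · rw [hck, zero_smul, P.ν_zero]
        exact bot_le
      · rw [hterm k hck]
        exact WithBot.coe_le_coe.mpr (Nat.mul_le_mul_left d (le_natDegree_of_ne_zero hck))
    · have hlead : p.coeff p.natDegree ≠ 0 := by
        rw [coeff_natDegree]
        exact leadingCoeff_ne_zero.mpr hp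
      rw [← hterm _ hlead]
      exact Finset.le_sup (f := fun k => P.ν (p.coeff k • x ^ k))
        (Finset.mem_range.mpr (Nat.lt_succ_self _))
  · intro i _ j _ hi hj hij
    rw [hterm i (hterm0 i hi), hterm j (hterm0 j hj)] at hij
    have := WithBot.coe_injective hij
    exact Nat.eq_of_mul_eq_mul_left hd this

theorem aeval_ne_zero {x : B} {d : ℕ} (hx : P.ν x = d) (hd : 0 < d) {p : K[X]} (hp : p ≠ 0) :
    aeval x p ≠ 0 := by
  intro h
  have := P.ν_aeval hx hd hp
  rw [h, P.ν_zero] at this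
  exact WithBot.bot_ne_coe this

/-- Elements of pole order `≤ 0` are constants. -/
theorem exists_eq_algebraMap_of_ν_le_zero {b : B} (hb : P.ν b ≤ 0) : ∃ c : K, b = algebraMap K B c := by
  by_cases hb0 : b = 0
  · exact ⟨0, by simp [hb0]⟩
  · have h0 : P.ν b = 0 := by
      rw [P.ν_eq_nu hb0] at hb ⊢
      have : P.nu b ≤ 0 := by exact_mod_cast hb
      have : P.nu b = 0 := Nat.le_zero.mp this
      rw [this]
      rfl
    obtain ⟨c, hc⟩ := P.exists_sub_lt b 1 P.one_ne_zero' (by rw [h0, P.ν_one])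
    rw [P.ν_one] at hc
    have h1 : P.ν (b - c • 1) = ⊥ := by
      by_contra hne
      obtain ⟨n, hn⟩ := WithBot.ne_bot_iff_exists.mp hne
      rw [← hn] at hc
      have : (n : WithBot ℕ) < ((0 : ℕ) : WithBot ℕ) := hc
      exact absurd (WithBot.coe_lt_coe.mp this) (Nat.not_lt_zero n)
    refine ⟨c, ?_⟩
    have := P.ν_eq_bot.mp h1
    rw [sub_eq_zero] at this
    rw [this, Algebra.smul_def, mul_one]

end PoleOrd

/-- Apéry data: `x` of pole order `d ≥ 1` and `f i` of minimal pole order `m i ≡ i mod d`. -/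
structure AperyData {K B : Type*} [Field K] [CommRing B] [Algebra K B] (P : PoleOrd K B)
    (d : ℕ) (x : B) where
  hd : 0 < d
  hx : P.ν x = d
  m : Fin d → ℕ
  f : Fin d → B
  hf : ∀ i, P.ν (f i) = m i
  hm : ∀ i, m i % d = i
  hmin : ∀ i : Fin d, ∀ b : B, b ≠ 0 → P.nu b % d = i → m i ≤ P.nu b

namespace AperyData

variable {K B : Type*} [Field K] [CommRing B] [Algebra K B] {P : PoleOrd K B} {d : ℕ} {x : B}
  (A : AperyData P d x)

theorem f_ne_zero (i : Fin d) : A.f i ≠ 0 := by
  intro h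
  have := A.hf i
  rw [h, P.ν_zero] at this
  exact WithBot.bot_ne_coe this

/-- The index `0`. -/
def zero : Fin d := ⟨0, A.hd⟩

theorem m_zero : A.m A.zero = 0 := by
  have h1 := A.hmin A.zero 1 P.one_ne_zero' (by
    rw [P.nu_one]
    simp [zero])
  rw [P.nu_one] at h1
  exact Nat.le_zero.mp h1

/-- `f 0` is a nonzero constant. -/
theorem exists_f_zero_eq : ∃ c : K, c ≠ 0 ∧ A.f A.zero = algebraMap K B c := by
  obtain ⟨c, hc⟩ := P.exists_eq_algebraMap_of_ν_le_zero (b := A.f A.zero) (by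
    rw [A.hf, A.m_zero]
    rfl)
  refine ⟨c, ?_, hc⟩
  rintro rfl
  exact A.f_ne_zero A.zero (by rw [hc, map_zero])

/-- The combination `∑ i, p_i(x) f_i`. -/
noncomputable def combo (p : Fin d → K[X]) : B := ∑ i, aeval x (p i) * A.f i

open scoped Classical in
/-- The weight of the `i`-th term. -/
noncomputable def wt (p : Fin d → K[X]) (i : Fin d) : WithBot ℕ :=
  if p i = 0 then ⊥ else ((d * (p i).natDegree + A.m i : ℕ) : WithBot ℕ)

theorem wt_of_ne {p : Fin d → K[X]} {i : Fin d} (h : p i ≠ 0) :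
    A.wt p i = ((d * (p i).natDegree + A.m i : ℕ) : WithBot ℕ) := by
  unfold wt
  rw [if_neg h]

theorem wt_of_eq {p : Fin d → K[X]} {i : Fin d} (h : p i = 0) : A.wt p i = ⊥ := by
  unfold wt
  rw [if_pos h]

theorem ν_term (p : Fin d → K[X]) (i : Fin d) :
    P.ν (aeval x (p i) * A.f i) = A.wt p i := by
  by_cases h : p i = 0
  · rw [A.wt_of_eq h, h, map_zero, zero_mul, P.ν_zero]
  · rw [A.wt_of_ne h, P.ν_mul, P.ν_aeval A.hx A.hd h, A.hf]
    rfl

theorem term_ne_zero {p : Fin d → K[X]} {i : Fin d} (h : aeval x (p i) * A.f i ≠ 0) :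
    p i ≠ 0 := by
  intro h0
  rw [h0, map_zero, zero_mul] at h
  exact h rfl

theorem wt_mod {p : Fin d → K[X]} {i : Fin d} (h : p i ≠ 0) :
    ∃ n : ℕ, A.wt p i = (n : WithBot ℕ) ∧ n % d = i := by
  refine ⟨d * (p i).natDegree + A.m i, A.wt_of_ne h, ?_⟩
  rw [Nat.mul_add_mod, A.hm]

/-- **No cancellation**: `ν (∑ p_i(x) f_i) = max_i (d deg p_i + m_i)`. -/
theorem ν_combo (p : Fin d → K[X]) : P.ν (A.combo p) = Finset.univ.sup (A.wt p) := by
  unfold combo
  rw [P.ν_sum_eq_sup]
  · congr 1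
    funext i
    exact A.ν_term p i
  · intro i _ j _ hi hj hij
    rw [A.ν_term, A.ν_term] at hij
    obtain ⟨n, hn, hni⟩ := A.wt_mod (A.term_ne_zero hi)
    obtain ⟨n', hn', hnj⟩ := A.wt_mod (A.term_ne_zero hj)
    rw [hn, hn'] at hij
    have : n = n' := WithBot.coe_injective hij
    apply Fin.ext
    rw [← hni, ← hnj, this]

theorem combo_eq_zero_iff {p : Fin d → K[X]} : A.combo p = 0 ↔ p = 0 := by
  constructor
  · intro h
    funext i
    by_contra hi
    have h1 := A.ν_combo p
    rw [h, P.ν_zero] at h1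
    have h2 : A.wt p i ≤ ⊥ := h1 ▸ Finset.le_sup (f := A.wt p) (Finset.mem_univ i)
    rw [A.wt_of_ne hi] at h2
    exact absurd (le_bot_iff.mp h2) WithBot.coe_ne_bot
  · rintro rfl
    simp [combo]

theorem combo_add (p p' : Fin d → K[X]) : A.combo (p + p') = A.combo p + A.combo p' := by
  unfold combo
  rw [← Finset.sum_add_distrib]
  refine Finset.sum_congr rfl fun i _ => ?_
  rw [Pi.add_apply, map_add, add_mul]

theorem combo_sub (p p' : Fin d → K[X]) : A.combo (p - p') = A.combo p - A.combo p' := by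
  unfold combo
  rw [← Finset.sum_sub_distrib]
  refine Finset.sum_congr rfl fun i _ => ?_
  rw [Pi.sub_apply, map_sub, sub_mul]

theorem combo_smul (q : K[X]) (p : Fin d → K[X]) :
    A.combo (q • p) = aeval x q * A.combo p := by
  unfold combo
  rw [Finset.mul_sum]
  refine Finset.sum_congr rfl fun i _ => ?_
  rw [Pi.smul_apply, smul_eq_mul, map_mul, mul_assoc]

theorem combo_single (i : Fin d) (q : K[X]) :
    A.combo (Pi.single i q) = aeval x q * A.f i := by
  classical
  unfold combo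
  rw [Finset.sum_eq_single i]
  · rw [Pi.single_eq_same]
  · intro j _ hj
    rw [Pi.single_eq_of_ne hj, map_zero, zero_mul]
  · intro h
    exact absurd (Finset.mem_univ i) h

theorem combo_injective : Function.Injective A.combo := by
  intro p p' h
  have : A.combo (p - p') = 0 := by rw [A.combo_sub, h, sub_self]
  have := A.combo_eq_zero_iff.mp this
  exact sub_eq_zero.mp this

/-- Every element of `B` is a combination. -/
theorem combo_surjective : Function.Surjective A.combo := by
  classical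
  intro b
  -- strong induction on the pole order
  suffices h : ∀ n : ℕ, ∀ b : B, P.ν b < (n : WithBot ℕ) → ∃ p, A.combo p = b by
    by_cases hb : b = 0
    · exact ⟨0, by rw [hb]; exact A.combo_eq_zero_iff.mpr rfl⟩
    · apply h (P.nu b + 1) b
      rw [P.ν_eq_nu hb]
      exact WithBot.coe_lt_coe.mpr (Nat.lt_succ_self _)
  intro n
  induction n with
  | zero =>
    intro b hb
    have : P.ν b = ⊥ := by
      by_contra hne
      obtain ⟨k, hk⟩ := WithBot.ne_bot_iff_exists.mp hne
      rw [← hk] at hb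
      exact absurd (WithBot.coe_lt_coe.mp hb) (Nat.not_lt_zero k)
    exact ⟨0, by rw [P.ν_eq_bot.mp this]; exact A.combo_eq_zero_iff.mpr rfl⟩
  | succ n ih =>
    intro b hb
    by_cases hb0 : b = 0
    · exact ⟨0, by rw [hb0]; exact A.combo_eq_zero_iff.mpr rfl⟩
    by_cases hlt : P.ν b < (n : WithBot ℕ)
    · exact ih b hlt
    -- `ν b = n`
    have hbn : P.nu b = n := by
      rw [P.ν_eq_nu hb0] at hb hlt
      have h1 : P.nu b < n + 1 := by exact_mod_cast hb
      have h2 : ¬ P.nu b < n := by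
        intro h
        exact hlt (by exact_mod_cast h)
      omega
    let i : Fin d := ⟨n % d, Nat.mod_lt _ A.hd⟩
    have hmi : A.m i ≤ n := by
      have := A.hmin i b hb0 (by rw [hbn])
      rwa [hbn] at this
    have hmod : (n - A.m i) % d = 0 := by
      have h1 : A.m i % d = n % d := A.hm i
      exact Nat.sub_mod_eq_zero_of_mod_eq h1.symm
    obtain ⟨a, ha⟩ : ∃ a, n - A.m i = d * a := ⟨(n - A.m i) / d,
      (Nat.mul_div_cancel' (Nat.dvd_of_mod_eq_zero hmod)).symm⟩
    -- the comparison element `x ^ a * f i`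
    set t : B := x ^ a * A.f i with ht
    have hνt : P.ν t = (n : WithBot ℕ) := by
      rw [ht, P.ν_mul, P.ν_pow, A.hx, A.hf, nsmul_eq_mul]
      have : n = a * d + A.m i := by
        have := Nat.sub_add_cancel hmi
        rw [ha] at this
        rw [← this]
        ring
      rw [this]
      push_cast
      rfl
    have ht0 : t ≠ 0 := by
      intro h
      rw [h, P.ν_zero] at hνt
      exact WithBot.bot_ne_coe hνt
    have hνb : P.ν b = (n : WithBot ℕ) := by rw [P.ν_eq_nu hb0, hbn]
    obtain ⟨c, hc⟩ := P.exists_sub_lt b t ht0 (by rw [hνb, hνt])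
    rw [hνt] at hc
    obtain ⟨p', hp'⟩ := ih (b - c • t) hc
    refine ⟨p' + Pi.single i (C c * X ^ a), ?_⟩
    rw [A.combo_add, hp', A.combo_single, map_mul, aeval_C, map_pow, aeval_X, ht,
      Algebra.smul_def]
    ring

/-- `B = ⊕ K[x] f_i`, as an additive equivalence. -/
noncomputable def comboHom : (Fin d → K[X]) →+ B where
  toFun := A.combo
  map_zero' := A.combo_eq_zero_iff.mpr rfl
  map_add' := A.combo_add

/-- `B = ⊕ K[x] f_i`, as an additive equivalence. -/
noncomputable def comboEquiv : (Fin d → K[X]) ≃+ B :=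
  AddEquiv.ofBijective A.comboHom ⟨A.combo_injective, A.combo_surjective⟩

@[simp] theorem comboEquiv_apply (p : Fin d → K[X]) : A.comboEquiv p = A.combo p := rfl

/-- Pole order of a nonzero combination: it is attained by one term, which dominates. -/
theorem exists_wt_eq_ν {p : Fin d → K[X]} (hp : p ≠ 0) :
    ∃ i, p i ≠ 0 ∧ P.ν (A.combo p) = ((d * (p i).natDegree + A.m i : ℕ) : WithBot ℕ) ∧
      ∀ j, p j ≠ 0 → d * (p j).natDegree + A.m j ≤ d * (p i).natDegree + A.m i := by
  have : Nonempty (Fin d) := ⟨A.zero⟩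
  obtain ⟨i, -, hi⟩ := Finset.exists_mem_eq_sup Finset.univ Finset.univ_nonempty (A.wt p)
  have hne : A.combo p ≠ 0 := fun h => hp (A.combo_eq_zero_iff.mp h)
  have hpi : p i ≠ 0 := by
    intro h0
    have := A.ν_combo p
    rw [hi, A.wt_of_eq h0] at this
    exact hne (P.ν_eq_bot.mp this)
  refine ⟨i, hpi, by rw [A.ν_combo, hi, A.wt_of_ne hpi], fun j hj => ?_⟩
  have h1 : A.wt p j ≤ A.wt p i := hi ▸ Finset.le_sup (f := A.wt p) (Finset.mem_univ j)
  rw [A.wt_of_ne hj, A.wt_of_ne hpi] at h1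
  exact WithBot.coe_le_coe.mp h1

/-! ### Structure constants -/

/-- The structure constants: `f i * f j = ∑ l, (sc i j l)(x) f l`. -/
noncomputable def sc (i j : Fin d) : Fin d → K[X] := A.comboEquiv.symm (A.f i * A.f j)

theorem combo_sc (i j : Fin d) : A.combo (A.sc i j) = A.f i * A.f j := by
  have := A.comboEquiv.apply_symm_apply (A.f i * A.f j)
  rwa [comboEquiv_apply] at this

/-- The index `i + j mod d`. -/
def addIdx (i j : Fin d) : Fin d := ⟨((i : ℕ) + j) % d, Nat.mod_lt _ A.hd⟩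

theorem sc_ne_zero (i j : Fin d) : A.sc i j ≠ 0 := by
  intro h
  have := A.combo_sc i j
  rw [h, A.combo_eq_zero_iff.mpr rfl] at this
  rcases P.mul_eq_zero_iff.mp this.symm with h1 | h1
  · exact A.f_ne_zero i h1
  · exact A.f_ne_zero j h1

/-- Degree bound for the structure constants. -/
theorem sc_bound (i j l : Fin d) (hl : A.sc i j l ≠ 0) :
    d * (A.sc i j l).natDegree + A.m l ≤ A.m i + A.m j := by
  obtain ⟨l0, _, h2, h3⟩ := A.exists_wt_eq_ν (A.sc_ne_zero i j)
  rw [A.combo_sc, P.ν_mul, A.hf, A.hf] at h2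
  have h4 : A.m i + A.m j = d * (A.sc i j l0).natDegree + A.m l0 := by
    have : ((A.m i + A.m j : ℕ) : WithBot ℕ) =
        ((d * (A.sc i j l0).natDegree + A.m l0 : ℕ) : WithBot ℕ) := by
      rw [← h2]
      rfl
    exact WithBot.coe_injective this
  rw [h4]
  exact h3 l hl

/-- The leading structure constant sits at `l = i + j mod d`, with equality in the bound. -/
theorem sc_lead (i j : Fin d) :
    A.sc i j (A.addIdx i j) ≠ 0 ∧
      d * (A.sc i j (A.addIdx i j)).natDegree + A.m (A.addIdx i j) = A.m i + A.m j := by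
  obtain ⟨l0, h1, h2, _⟩ := A.exists_wt_eq_ν (A.sc_ne_zero i j)
  rw [A.combo_sc, P.ν_mul, A.hf, A.hf] at h2
  have h4 : A.m i + A.m j = d * (A.sc i j l0).natDegree + A.m l0 := by
    have : ((A.m i + A.m j : ℕ) : WithBot ℕ) =
        ((d * (A.sc i j l0).natDegree + A.m l0 : ℕ) : WithBot ℕ) := by
      rw [← h2]
      rfl
    exact WithBot.coe_injective this
  have hl0 : l0 = A.addIdx i j := by
    apply Fin.ext
    show (l0 : ℕ) = ((i : ℕ) + j) % d
    have h5 := congrArg (· % d) h4
    simp only [Nat.mul_add_mod] at h5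
    rw [A.hm l0, Nat.add_mod, A.hm i, A.hm j] at h5
    exact h5.symm
  rw [← hl0]
  exact ⟨h1, h4.symm⟩

/-- Equality in the bound holds only at `l = i + j mod d`. -/
theorem sc_eq_iff (i j l : Fin d)
    (h : d * (A.sc i j l).natDegree + A.m l = A.m i + A.m j) : l = A.addIdx i j := by
  apply Fin.ext
  show (l : ℕ) = ((i : ℕ) + j) % d
  have h5 := congrArg (· % d) h
  simp only [Nat.mul_add_mod] at h5
  rw [A.hm l, Nat.add_mod, A.hm i, A.hm j] at h5
  exact h5

end AperyData

/-! ### Existence of Apéry data -/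

namespace PoleOrd

variable {K B : Type*} [Field K] [CommRing B] [Algebra K B] (P : PoleOrd K B)

/-- If `x` has pole order `d ≥ 1` and every residue class modulo `d` contains a pole order, Apéry
data exist. -/
theorem nonempty_aperyData {d : ℕ} (hd : 0 < d) {x : B} (hx : P.ν x = d)
    (hH : ∀ i : Fin d, ∃ b : B, b ≠ 0 ∧ P.nu b % d = i) : Nonempty (AperyData P d x) := by
  classical
  have hex : ∀ i : Fin d, ∃ n : ℕ, ∃ b : B, b ≠ 0 ∧ P.nu b = n ∧ n % d = i := by
    intro i
    obtain ⟨b, hb, hbi⟩ := hH i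
    exact ⟨P.nu b, b, hb, rfl, hbi⟩
  choose f hf using fun i => Nat.find_spec (hex i)
  refine ⟨⟨hd, hx, fun i => Nat.find (hex i), f, ?_, ?_, ?_⟩⟩
  · intro i
    rw [P.ν_eq_nu (hf i).1, (hf i).2.1]
  · intro i
    exact (hf i).2.2
  · intro i b hb hbi
    exact Nat.find_min' (hex i) ⟨b, hb, rfl, hbi⟩

end PoleOrd

end Fermat.Agent.S27x.Spec.AperyCore
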