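import Mathlib
import Fermat.Agent.Lib.RiemannRoch.RiemannRochCZ
import Fermat.Agent.Gateway.GoodRed.PlacesIntegral
import Fermat.Agent.S27x.Spec.AperyCore

/-!
# P-S27, block D2: the Weierstrass semigroup at a place (RR-lib instance of the Apery model)

`K` algebraically closed of characteristic zero, `F / K` a function field (entry ticket:
`x₀ : F` transcendental with `F / K(x₀)` finite), `P : Place K F`.

* `regularOff P : Subalgebra K F`: the functions regular outside `P`;
* `poleOrd P f = -ord_P f` (as a natural number) and its calculus on `regularOff P`;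
* `poleNumbers P`: the Weierstrass semigroup; its complement has exactly `genusFF K F` elements;
* for `x ∈ regularOff P` with pole order `d ≥ 1`: `x` is transcendental, `[F : K(x)] = d`,
  `P` is the only pole of `x`, and `regularOff P` is the integral closure of `K[x]` in `F`;
* nonvanishing of discriminants of `K(x)`-bases of `F`.
-/

set_option autoImplicit false
set_option linter.unusedSectionVars false
set_option linter.style.haveILetI false

noncomputable section

open AlgebraicCurve IntermediateField Polynomial Module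

namespace Fermat.Agent.S27x.Spec.AperyRR

open Fermat.Agent.Lib.RiemannRoch

variable {K F : Type*} [Field K] [Field F] [Algebra K F]

/-! ### Functions regular outside `P` -/

/-- The `K`-algebra of functions regular outside the place `P`. -/
def regularOff (P : Place K F) : Subalgebra K F where
  carrier := {f | ∀ v : Place K F, v ≠ P → f ∈ v.toValuationSubring}
  mul_mem' := fun ha hb v hv => mul_mem (ha v hv) (hb v hv)
  add_mem' := fun ha hb v hv => add_mem (ha v hv) (hb v hv)
  algebraMap_mem' := fun a v _ => v.algebraMap_mem' a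

theorem mem_regularOff {P : Place K F} {f : F} :
    f ∈ regularOff P ↔ ∀ v : Place K F, v ≠ P → f ∈ v.toValuationSubring := Iff.rfl

theorem mem_regularOff_iff_ord {P : Place K F} {f : F} :
    f ∈ regularOff P ↔ ∀ v : Place K F, v ≠ P → 0 ≤ v.ord f := by
  rcases eq_or_ne f 0 with rfl | hf
  · simp
  · exact forall₂_congr fun v _ => (Fermat.Agent.S24.ZP.ord_nonneg_iff v hf).symm

/-- `L(mP)` consists of the functions regular outside `P` with pole order at most `m`. -/
theorem mem_riemannRochSpace_single_iff {P : Place K F} {m : ℤ} {f : F} :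
    f ∈ riemannRochSpace (Finsupp.single P m) ↔
      f ∈ regularOff P ∧ (f = 0 ∨ -m ≤ P.ord f) := by
  classical
  rw [mem_riemannRochSpace_iff, mem_regularOff_iff_ord]
  constructor
  · intro h
    refine ⟨fun v hv => ?_, ?_⟩
    · rcases h v with rfl | h'
      · simp
      · rw [Finsupp.single_apply, if_neg (Ne.symm hv)] at h'
        simpa using h'
    · have := h P
      rwa [Finsupp.single_eq_same] at this
  · rintro ⟨h1, h2⟩ v
    by_cases hv : v = P
    · subst hv
      rwa [Finsupp.single_eq_same]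
    · right
      rw [Finsupp.single_apply, if_neg (Ne.symm hv)]
      simpa using h1 v hv

/-- The pole order at `P`, as a natural number. -/
def poleOrd (P : Place K F) (f : F) : ℕ := (-(P.ord f)).toNat


theorem poleOrd_zero (P : Place K F) : poleOrd P (0 : F) = 0 := by simp [poleOrd]

theorem poleOrd_one (P : Place K F) : poleOrd P (1 : F) = 0 := by simp [poleOrd]

theorem poleOrd_algebraMap (P : Place K F) (a : K) : poleOrd P (algebraMap K F a) = 0 := by
  simp [poleOrd, Fermat.Agent.S24.ZP.ord_algebraMap]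

section Ticket

variable [IsAlgClosed K] [CharZero K] {x₀ : F} (hx₀ : Transcendental K x₀)
  [FiniteDimensional K⟮x₀⟯ F]
include hx₀

/-- A function without poles is constant. -/
theorem exists_algebraMap_eq_of_forall_ord_nonneg {f : F}
    (hf : ∀ v : Place K F, 0 ≤ v.ord f) : ∃ a : K, f = algebraMap K F a := by
  haveI := hasPrincipalDivisors_cz hx₀
  haveI : ∀ v : Place K F, v.FiniteResidue := finiteResidue_cz hx₀
  haveI := nonempty_place_cz hx₀
  have hmem : f ∈ riemannRochSpace (0 : Divisor K F) := by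
    rw [mem_riemannRochSpace_iff]
    intro v
    right
    simpa using hf v
  obtain ⟨a, ha⟩ := Fermat.Agent.S24.PD.exists_algebraMap_eq_of_isAlgebraic
    (isAlgebraic_of_mem_zero hmem)
  exact ⟨a, ha.symm⟩

/-- A nonzero function regular outside `P` has nonpositive order at `P`. -/
theorem ord_nonpos_of_mem_regularOff {P : Place K F} {f : F} (hf : f ∈ regularOff P)
    (hf0 : f ≠ 0) : P.ord f ≤ 0 := by
  by_contra hpos
  push Not at hpos
  have hall : ∀ v : Place K F, 0 ≤ v.ord f := by
    intro v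
    by_cases hv : v = P
    · subst hv; exact hpos.le
    · exact mem_regularOff_iff_ord.mp hf v hv
  obtain ⟨a, rfl⟩ := exists_algebraMap_eq_of_forall_ord_nonneg hx₀ hall
  rw [Fermat.Agent.S24.ZP.ord_algebraMap] at hpos
  exact lt_irrefl _ hpos

theorem ord_eq_neg_poleOrd {P : Place K F} {f : F} (hf : f ∈ regularOff P) (hf0 : f ≠ 0) :
    P.ord f = -(poleOrd P f : ℤ) := by
  have := ord_nonpos_of_mem_regularOff hx₀ hf hf0
  rw [poleOrd, Int.toNat_of_nonneg (by omega)]
  ring


theorem poleOrd_mul {P : Place K F} {f g : F} (hf : f ∈ regularOff P) (hg : g ∈ regularOff P)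
    (hf0 : f ≠ 0) (hg0 : g ≠ 0) : poleOrd P (f * g) = poleOrd P f + poleOrd P g := by
  have h1 := ord_eq_neg_poleOrd hx₀ hf hf0
  have h2 := ord_eq_neg_poleOrd hx₀ hg hg0
  have h3 := ord_eq_neg_poleOrd hx₀ (mul_mem hf hg) (mul_ne_zero hf0 hg0)
  rw [P.ord_mul hf0 hg0] at h3
  omega

theorem poleOrd_pow {P : Place K F} {f : F} (hf : f ∈ regularOff P) (n : ℕ) :
    poleOrd P (f ^ n) = n * poleOrd P f := by
  rcases eq_or_ne f 0 with rfl | hf0
  · rcases Nat.eq_zero_or_pos n with rfl | hn
    · simp [poleOrd_one]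
    · simp [zero_pow hn.ne', poleOrd_zero]
  have h1 := ord_eq_neg_poleOrd hx₀ hf hf0
  have h3 := ord_eq_neg_poleOrd hx₀ (pow_mem hf n) (pow_ne_zero n hf0)
  rw [Fermat.Agent.S24.ZP.ord_pow, h1] at h3
  have : ((poleOrd P (f ^ n) : ℕ) : ℤ) = (n : ℤ) * (poleOrd P f : ℤ) := by linarith
  exact_mod_cast this

theorem poleOrd_add_le {P : Place K F} {f g : F} (hf : f ∈ regularOff P) (hg : g ∈ regularOff P) :
    poleOrd P (f + g) ≤ max (poleOrd P f) (poleOrd P g) := by
  rcases eq_or_ne f 0 with rfl | hf0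
  · simp
  rcases eq_or_ne g 0 with rfl | hg0
  · simp
  rcases eq_or_ne (f + g) 0 with h0 | hfg0
  · simp [h0, poleOrd_zero]
  have h1 := ord_eq_neg_poleOrd hx₀ hf hf0
  have h2 := ord_eq_neg_poleOrd hx₀ hg hg0
  have h3 := ord_eq_neg_poleOrd hx₀ (add_mem hf hg) hfg0
  have h4 := Fermat.Agent.S24.ZP.ord_add_ge P hf0 hg0 hfg0
  rw [h1, h2, h3] at h4
  rcases min_le_iff.mp h4 with h | h
  · exact le_max_of_le_left (by omega)
  · exact le_max_of_le_right (by omega)

/-- If the pole orders differ, the pole order of the sum is the larger one. -/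
theorem poleOrd_add_eq_of_lt {P : Place K F} {f g : F} (hf : f ∈ regularOff P)
    (hg : g ∈ regularOff P) (hg0 : g ≠ 0) (h : poleOrd P f < poleOrd P g) :
    poleOrd P (f + g) = poleOrd P g := by
  rcases eq_or_ne f 0 with rfl | hf0
  · simp
  have h1 := ord_eq_neg_poleOrd hx₀ hf hf0
  have h2 := ord_eq_neg_poleOrd hx₀ hg hg0
  have hlt : P.ord g < P.ord f := by omega
  have h5 := Fermat.Agent.S24.ZP.ord_add_eq_of_lt P hf0 hlt hg0
  have hfg0 : f + g ≠ 0 := by
    intro h0
    have : f = -g := by linear_combination h0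
    rw [this, Fermat.Agent.S24.ZP.ord_neg] at hlt
    exact lt_irrefl _ hlt
  have h3 := ord_eq_neg_poleOrd hx₀ (add_mem hf hg) hfg0
  rw [add_comm] at h5
  omega

/-- **Equal pole orders**: a `K`-linear combination lowers the pole order (the residue field at
`P` is `K`). -/
theorem exists_sub_smul_lower {P : Place K F} {f g : F} (hf0 : f ≠ 0) (hg0 : g ≠ 0)
    (h : P.ord f = P.ord g) :
    ∃ c : K, c ≠ 0 ∧ (f - c • g = 0 ∨ P.ord f < P.ord (f - c • g)) := by
  have hu0 : f / g ≠ 0 := div_ne_zero hf0 hg0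
  have hord : P.ord (f / g) = 0 := by
    rw [Fermat.Agent.S24.ZP.ord_div P hf0 hg0, h, sub_self]
  have hu : f / g ∈ P.toValuationSubring :=
    (Fermat.Agent.S24.ZP.ord_nonneg_iff P hu0).mp hord.ge
  obtain ⟨c, hc⟩ := Fermat.Agent.S24.PD.exists_const_sub_ord_pos hx₀ P hu
  have hfc : f - c • g = (f / g - algebraMap K F c) * g := by
    rw [Algebra.smul_def]
    field_simp
  have hc0 : c ≠ 0 := by
    rintro rfl
    rcases hc with hc | hc
    · rw [map_zero] at hc
      exact hu0 hc
    · rw [map_zero, sub_zero, hord] at hc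
      exact lt_irrefl _ hc
  refine ⟨c, hc0, ?_⟩
  rcases hc with hc | hc
  · left
    rw [hfc, hc, sub_self, zero_mul]
  · right
    have hne : f / g - algebraMap K F c ≠ 0 := by
      intro h0
      rw [h0] at hc
      simp at hc
    rw [hfc, P.ord_mul hne hg0, h]
    omega

/-! ### The spaces `L(mP)` -/

theorem mem_riemannRochSpace_single_iff_poleOrd {P : Place K F} {m : ℕ} {f : F} :
    f ∈ riemannRochSpace (Finsupp.single P (m : ℤ)) ↔
      f ∈ regularOff P ∧ poleOrd P f ≤ m := by
  rw [mem_riemannRochSpace_single_iff]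
  constructor
  · rintro ⟨h1, h2⟩
    refine ⟨h1, ?_⟩
    rcases h2 with rfl | h2
    · simp [poleOrd_zero]
    · rcases eq_or_ne f 0 with rfl | hf0
      · simp [poleOrd_zero]
      have := ord_eq_neg_poleOrd hx₀ h1 hf0
      omega
  · rintro ⟨h1, h2⟩
    refine ⟨h1, ?_⟩
    rcases eq_or_ne f 0 with rfl | hf0
    · left; rfl
    · right
      have := ord_eq_neg_poleOrd hx₀ h1 hf0
      omega

theorem finite_riemannRochSpace_cz (D : Divisor K F) : Module.Finite K (riemannRochSpace D) :=
  (riemann_cz hx₀ D).1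

/-- `l(mP)`. -/
def ellP (P : Place K F) (m : ℕ) : ℕ := finrank K (riemannRochSpace (Finsupp.single P (m : ℤ)))

omit hx₀ in
theorem single_le_single {P : Place K F} {m n : ℤ} (h : m ≤ n) :
    (Finsupp.single P m : Divisor K F) ≤ Finsupp.single P n := by
  classical
  intro v
  rw [Finsupp.single_apply, Finsupp.single_apply]
  split_ifs
  · exact h
  · exact le_rfl

theorem ellP_mono (P : Place K F) {m n : ℕ} (h : m ≤ n) : ellP P m ≤ ellP P n := by
  haveI := finite_riemannRochSpace_cz hx₀ (Finsupp.single P (n : ℤ))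
  have hle : (Finsupp.single P (m : ℤ) : Divisor K F) ≤ Finsupp.single P (n : ℤ) :=
    single_le_single (by exact_mod_cast h)
  exact Submodule.finrank_mono fun _ hf v => (hf v).trans (WithZero.exp_le_exp.mpr (hle v))

theorem ellP_zero (P : Place K F) : ellP P 0 = 1 := by
  haveI := hasPrincipalDivisors_cz hx₀
  haveI : ∀ v : Place K F, v.FiniteResidue := finiteResidue_cz hx₀
  haveI := nonempty_place_cz hx₀
  have := ell_zero_eq_one (K := K) (F := F)
  rw [ellP, Nat.cast_zero, Finsupp.single_zero]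
  simpa [ell] using this

theorem ellP_succ_le (P : Place K F) (m : ℕ) : ellP P (m + 1) ≤ ellP P m + 1 := by
  haveI := hasPrincipalDivisors_cz hx₀
  haveI : ∀ v : Place K F, v.FiniteResidue := finiteResidue_cz hx₀
  haveI := nonempty_place_cz hx₀
  have h := rr_mono (K := K) (F := F)
    (single_le_single (P := P) (m := (m : ℤ)) (n := ((m + 1 : ℕ) : ℤ)) (by push_cast; omega))
  rw [rr, rr, Divisor.degree_single, Divisor.degree_single,
    Fermat.Agent.S24.PD.deg_eq_one hx₀ P] at h
  have h' : (ell (Finsupp.single P ((m + 1 : ℕ) : ℤ)) : ℤ) ≤ ell (Finsupp.single P (m : ℤ)) + 1 := by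
    push_cast at h ⊢
    linarith
  rw [ellP, ellP]
  exact_mod_cast h'

theorem ellP_eq_of_le (P : Place K F) {m : ℕ} (hm : 2 * genusFF K F ≤ m + 1) :
    (ellP P m : ℤ) = m + 1 - genusFF K F := by
  have h := ell_eq_of_degree_gt_cz hx₀ (D := Finsupp.single P (m : ℤ)) (by
    rw [Divisor.degree_single, Fermat.Agent.S24.PD.deg_eq_one hx₀ P]
    push_cast
    omega)
  rw [Divisor.degree_single, Fermat.Agent.S24.PD.deg_eq_one hx₀ P] at h
  rw [ellP, h]
  push_cast
  ring


end Ticket

/-! ### The Weierstrass semigroup -/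

/-- The Weierstrass semigroup of `P`: the pole orders of the nonzero functions regular outside
`P`. -/
def poleNumbers (P : Place K F) : Set ℕ :=
  {m | ∃ f ∈ regularOff P, f ≠ 0 ∧ poleOrd P f = m}

theorem zero_mem_poleNumbers (P : Place K F) : 0 ∈ poleNumbers P :=
  ⟨1, one_mem _, one_ne_zero, poleOrd_one P⟩

section Ticket

variable [IsAlgClosed K] [CharZero K] {x₀ : F} (hx₀ : Transcendental K x₀)
  [FiniteDimensional K⟮x₀⟯ F]
include hx₀

theorem add_mem_poleNumbers {P : Place K F} {m n : ℕ} (hm : m ∈ poleNumbers P)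
    (hn : n ∈ poleNumbers P) : m + n ∈ poleNumbers P := by
  obtain ⟨f, hf, hf0, rfl⟩ := hm
  obtain ⟨g, hg, hg0, rfl⟩ := hn
  exact ⟨f * g, mul_mem hf hg, mul_ne_zero hf0 hg0, poleOrd_mul hx₀ hf hg hf0 hg0⟩

theorem mem_poleNumbers_iff_ord {P : Place K F} {m : ℕ} :
    m ∈ poleNumbers P ↔ ∃ f ∈ regularOff P, f ≠ 0 ∧ P.ord f = -(m : ℤ) := by
  constructor
  · rintro ⟨f, hf, hf0, rfl⟩
    exact ⟨f, hf, hf0, ord_eq_neg_poleOrd hx₀ hf hf0⟩
  · rintro ⟨f, hf, hf0, h⟩
    refine ⟨f, hf, hf0, ?_⟩
    have := ord_eq_neg_poleOrd hx₀ hf hf0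
    omega

theorem succ_mem_poleNumbers_iff (P : Place K F) (m : ℕ) :
    m + 1 ∈ poleNumbers P ↔ ellP P (m + 1) = ellP P m + 1 := by
  haveI := finite_riemannRochSpace_cz hx₀ (Finsupp.single P ((m + 1 : ℕ) : ℤ))
  have hle : riemannRochSpace (Finsupp.single P (m : ℤ)) ≤
      riemannRochSpace (Finsupp.single P ((m + 1 : ℕ) : ℤ)) := by
    have hle' : (Finsupp.single P (m : ℤ) : Divisor K F) ≤ Finsupp.single P ((m + 1 : ℕ) : ℤ) :=
      single_le_single (by push_cast; omega)
    exact fun _ hf v => (hf v).trans (WithZero.exp_le_exp.mpr (hle' v))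
  constructor
  · rintro ⟨f, hf, hf0, hord⟩
    have h1 : f ∈ riemannRochSpace (Finsupp.single P ((m + 1 : ℕ) : ℤ)) :=
      (mem_riemannRochSpace_single_iff_poleOrd hx₀).mpr ⟨hf, hord.le⟩
    have h2 : f ∉ riemannRochSpace (Finsupp.single P (m : ℤ)) := by
      intro h
      have := ((mem_riemannRochSpace_single_iff_poleOrd hx₀).mp h).2
      omega
    have hlt : riemannRochSpace (Finsupp.single P (m : ℤ)) <
        riemannRochSpace (Finsupp.single P ((m + 1 : ℕ) : ℤ)) :=
      lt_of_le_of_ne hle fun heq => h2 (heq ▸ h1)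
    have h3 := Submodule.finrank_lt_finrank_of_lt hlt
    have h4 := ellP_succ_le hx₀ P m
    rw [ellP, ellP] at *
    omega
  · intro h
    have hne : riemannRochSpace (Finsupp.single P (m : ℤ)) ≠
        riemannRochSpace (Finsupp.single P ((m + 1 : ℕ) : ℤ)) := by
      intro heq
      rw [ellP, ellP, heq] at h
      omega
    obtain ⟨f, hf1, hf2⟩ := SetLike.exists_of_lt (lt_of_le_of_ne hle hne)
    obtain ⟨hfB, hord⟩ := (mem_riemannRochSpace_single_iff_poleOrd hx₀).mp hf1
    have hnot : ¬ poleOrd P f ≤ m := fun hc =>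
      hf2 ((mem_riemannRochSpace_single_iff_poleOrd hx₀).mpr ⟨hfB, hc⟩)
    refine ⟨f, hfB, ?_, by omega⟩
    rintro rfl
    exact hnot (by simp [poleOrd_zero])

/-- Every `m ≥ 2g` is a pole number. -/
theorem mem_poleNumbers_of_le (P : Place K F) {m : ℕ} (hm : 2 * genusFF K F ≤ m) :
    m ∈ poleNumbers P := by
  rcases Nat.eq_zero_or_pos m with rfl | hpos
  · exact zero_mem_poleNumbers P
  obtain ⟨n, rfl⟩ := Nat.exists_eq_succ_of_ne_zero hpos.ne'
  rw [succ_mem_poleNumbers_iff hx₀]
  have h1 := ellP_eq_of_le hx₀ P (m := n) (by omega)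
  have h2 := ellP_eq_of_le hx₀ P (m := n + 1) (by omega)
  have : (ellP P (n + 1) : ℤ) = ellP P n + 1 := by
    rw [h1, h2]; push_cast; ring
  exact_mod_cast this

open Classical in
/-- The gaps of `P` up to `M`. -/
def gapsUpTo (P : Place K F) (M : ℕ) : Finset ℕ :=
  (Finset.range (M + 1)).filter fun m => m ∉ poleNumbers P

omit hx₀ in
theorem mem_gapsUpTo {P : Place K F} {M m : ℕ} :
    m ∈ gapsUpTo P M ↔ m ≤ M ∧ m ∉ poleNumbers P := by
  classical
  rw [gapsUpTo, Finset.mem_filter, Finset.mem_range, Nat.lt_succ_iff]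

theorem card_gapsUpTo (P : Place K F) (M : ℕ) :
    ((gapsUpTo P M).card : ℤ) = M + 1 - ellP P M := by
  classical
  induction M with
  | zero =>
    have : gapsUpTo P 0 = ∅ := by
      ext m
      rw [mem_gapsUpTo]
      simp only [Nat.le_zero, Finset.notMem_empty, iff_false, not_and, not_not]
      rintro rfl
      exact zero_mem_poleNumbers P
    rw [this, ellP_zero hx₀]
    simp
  | succ M ih =>
    have hstep : gapsUpTo P (M + 1) =
        if M + 1 ∈ poleNumbers P then gapsUpTo P M else insert (M + 1) (gapsUpTo P M) := by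
      ext m
      split_ifs with h
      · rw [mem_gapsUpTo, mem_gapsUpTo]
        constructor
        · rintro ⟨h1, h2⟩
          refine ⟨?_, h2⟩
          rcases Nat.lt_or_ge M m with hlt | hge
          · have : m = M + 1 := by omega
            exact absurd (this ▸ h) h2
          · exact hge
        · rintro ⟨h1, h2⟩
          exact ⟨by omega, h2⟩
      · rw [Finset.mem_insert, mem_gapsUpTo, mem_gapsUpTo]
        constructor
        · rintro ⟨h1, h2⟩
          rcases Nat.lt_or_ge M m with hlt | hge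
          · left; omega
          · right; exact ⟨hge, h2⟩
        · rintro (rfl | ⟨h1, h2⟩)
          · exact ⟨le_rfl, h⟩
          · exact ⟨by omega, h2⟩
    rw [hstep]
    split_ifs with h
    · rw [ih, (succ_mem_poleNumbers_iff hx₀ P M).mp h]
      push_cast
      ring
    · have hnot : M + 1 ∉ gapsUpTo P M := by
        rw [mem_gapsUpTo]
        omega
      rw [Finset.card_insert_of_notMem hnot]
      have h1 := ellP_succ_le hx₀ P M
      have h2 : ellP P M ≤ ellP P (M + 1) := ellP_mono hx₀ P (Nat.le_succ M)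
      have h3 : ellP P (M + 1) ≠ ellP P M + 1 := fun hc =>
        h ((succ_mem_poleNumbers_iff hx₀ P M).mpr hc)
      have h4 : ellP P (M + 1) = ellP P M := by omega
      rw [h4]
      push_cast
      rw [ih]
      ring

/-- **The number of Weierstrass gaps is the genus.** -/
theorem compl_poleNumbers_eq (P : Place K F) :
    (poleNumbers P)ᶜ = ↑(gapsUpTo P (2 * genusFF K F)) := by
  ext m
  rw [Set.mem_compl_iff, Finset.mem_coe, mem_gapsUpTo]
  constructor
  · intro h
    refine ⟨?_, h⟩
    by_contra hlt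
    exact h (mem_poleNumbers_of_le hx₀ P (by omega))
  · exact fun h => h.2

theorem finite_compl_poleNumbers (P : Place K F) : (poleNumbers P)ᶜ.Finite := by
  rw [compl_poleNumbers_eq hx₀]
  exact Finset.finite_toSet _

theorem ncard_compl_poleNumbers (P : Place K F) :
    (poleNumbers P)ᶜ.ncard = genusFF K F := by
  rw [compl_poleNumbers_eq hx₀, Set.ncard_coe_finset]
  have h1 := card_gapsUpTo hx₀ P (2 * genusFF K F)
  have h2 := ellP_eq_of_le hx₀ P (m := 2 * genusFF K F) (by omega)
  rw [h2] at h1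
  have : ((gapsUpTo P (2 * genusFF K F)).card : ℤ) = genusFF K F := by
    rw [h1]; push_cast; ring
  exact_mod_cast this


/-- There is a positive pole number (e.g. `2g + 1`). -/
theorem exists_pos_mem_poleNumbers (P : Place K F) : ∃ d : ℕ, 0 < d ∧ d ∈ poleNumbers P :=
  ⟨2 * genusFF K F + 1, by omega, mem_poleNumbers_of_le hx₀ P (by omega)⟩

/-! ### A function with a single pole -/

section PoleFunction

variable {P : Place K F} {x : F} {d : ℕ} (hxB : x ∈ regularOff P) (hd : 0 < d)
  (hxd : poleOrd P x = d)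
include hxB hd hxd

omit hx₀ hxB in
theorem ne_zero_of_poleOrd : x ≠ 0 := by
  rintro rfl
  rw [poleOrd_zero] at hxd
  omega

theorem ord_eq_neg_of_poleOrd : P.ord x = -(d : ℤ) := by
  rw [ord_eq_neg_poleOrd hx₀ hxB (ne_zero_of_poleOrd hd hxd), hxd]

theorem transcendental_of_poleOrd : Transcendental K x := by
  refine Fermat.Agent.S24.PDiv.transcendental_of_notMem_range ?_
  rintro ⟨a, rfl⟩
  have := ord_eq_neg_of_poleOrd hx₀ hxB hd hxd
  rw [Fermat.Agent.S24.ZP.ord_algebraMap] at this
  omega

theorem finiteDimensional_of_poleOrd : FiniteDimensional K⟮x⟯ F :=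
  Fermat.Agent.S24.PDiv.finiteDimensional_adjoin_simple_of_transcendental hx₀
    (transcendental_of_poleOrd hx₀ hxB hd hxd)

/-- `P` is the only pole of `x`. -/
theorem ord_neg_iff_of_poleOrd (v : Place K F) : v.ord x < 0 ↔ v = P := by
  constructor
  · intro h
    by_contra hv
    have := mem_regularOff_iff_ord.mp hxB v hv
    omega
  · rintro rfl
    rw [ord_eq_neg_of_poleOrd hx₀ hxB hd hxd]
    omega

theorem ord_nonneg_iff_of_poleOrd (v : Place K F) : 0 ≤ v.ord x ↔ v ≠ P := by
  rw [← not_lt, ord_neg_iff_of_poleOrd hx₀ hxB hd hxd]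

/-- `[F : K(x)] = d`. -/
theorem finrank_of_poleOrd : finrank K⟮x⟯ F = d := by
  haveI := finiteDimensional_of_poleOrd hx₀ hxB hd hxd
  obtain ⟨inst, hsum⟩ := Fermat.Agent.S24.PDiv.sum_ord_poles x
    (transcendental_of_poleOrd hx₀ hxB hd hxd)
  have hP : P.ord x < 0 := (ord_neg_iff_of_poleOrd hx₀ hxB hd hxd P).mpr rfl
  have huniv : (Finset.univ : Finset {v : Place K F // v.ord x < 0}) = {⟨P, hP⟩} := by
    rw [Finset.eq_singleton_iff_unique_mem]
    refine ⟨Finset.mem_univ _, fun v _ => Subtype.ext ?_⟩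
    exact (ord_neg_iff_of_poleOrd hx₀ hxB hd hxd v.1).mp v.2
  rw [huniv, Finset.sum_singleton, ord_eq_neg_of_poleOrd hx₀ hxB hd hxd, neg_neg] at hsum
  exact_mod_cast hsum.symm

/-- `regularOff P` is the integral closure of `K[x]` in `F`. -/
theorem mem_regularOff_iff_isIntegral (f : F) :
    f ∈ regularOff P ↔ IsIntegral (Algebra.adjoin K {x}) f := by
  haveI := finiteDimensional_of_poleOrd hx₀ hxB hd hxd
  haveI : CharZero K⟮x⟯ := charZero_of_injective_algebraMap (algebraMap K K⟮x⟯).injective
  haveI : Algebra.IsSeparable K⟮x⟯ F := Algebra.IsAlgebraic.isSeparable_of_perfectField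
  rw [Fermat.Agent.Gateway.GoodRed.PlacesIntegral.isIntegral_iff_forall_ord_nonneg x
    (transcendental_of_poleOrd hx₀ hxB hd hxd), mem_regularOff_iff_ord]
  exact forall_congr' fun v => by rw [ord_nonneg_iff_of_poleOrd hx₀ hxB hd hxd]

end PoleFunction

/-! ### The `PoleOrd` structure on `regularOff P` and the Apery data -/

open Fermat.Agent.S27x.Spec.AperyCore

open Classical in
/-- The pole order function `-ord_P` on the functions regular outside `P`, as a `PoleOrd`. -/
def poleOrdRR (P : Place K F) : PoleOrd K (regularOff P) where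
  ν b := if b = 0 then ⊥ else ((poleOrd P (b : F) : ℕ) : WithBot ℕ)
  ν_eq_bot := by
    intro b
    by_cases hb : b = 0
    · simp [hb]
    · simp [hb]
  ν_mul := by
    intro a b
    by_cases ha : a = 0
    · simp [ha]
    by_cases hb : b = 0
    · simp [hb]
    have hab : a * b ≠ 0 := mul_ne_zero ha hb
    rw [if_neg ha, if_neg hb, if_neg hab]
    have ha' : (a : F) ≠ 0 := fun h => ha (Subtype.ext h)
    have hb' : (b : F) ≠ 0 := fun h => hb (Subtype.ext h)
    have := poleOrd_mul hx₀ a.2 b.2 ha' hb'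
    rw [Subalgebra.coe_mul, this]
    rfl
  ν_add_le := by
    intro a b
    by_cases hab : a + b = 0
    · simp [hab]
    by_cases ha : a = 0
    · simp [ha]
    by_cases hb : b = 0
    · simp [hb]
    rw [if_neg ha, if_neg hb, if_neg hab]
    have := poleOrd_add_le hx₀ a.2 b.2
    rw [Subalgebra.coe_add]
    rcases le_max_iff.mp this with h | h
    · exact le_max_of_le_left (WithBot.coe_le_coe.mpr h)
    · exact le_max_of_le_right (WithBot.coe_le_coe.mpr h)
  ν_algebraMap := by
    intro c hc
    have hne : algebraMap K (regularOff P) c ≠ 0 := by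
      intro h
      exact hc ((algebraMap K (regularOff P)).injective (by rw [h, map_zero]))
    rw [if_neg hne]
    have : ((algebraMap K (regularOff P) c : regularOff P) : F) = algebraMap K F c := rfl
    rw [this, poleOrd_algebraMap]
    rfl
  exists_sub_lt := by
    intro a b hb hν
    have ha : a ≠ 0 := by
      intro h
      rw [if_pos h, if_neg hb] at hν
      exact WithBot.bot_ne_coe hν
    rw [if_neg ha, if_neg hb] at hν
    have hν' : poleOrd P (a : F) = poleOrd P (b : F) := WithBot.coe_injective hν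
    have ha' : (a : F) ≠ 0 := fun h => ha (Subtype.ext h)
    have hb' : (b : F) ≠ 0 := fun h => hb (Subtype.ext h)
    have h1 := ord_eq_neg_poleOrd hx₀ a.2 ha'
    have h2 := ord_eq_neg_poleOrd hx₀ b.2 hb'
    obtain ⟨c, -, hc⟩ := exists_sub_smul_lower hx₀ (P := P) ha' hb' (by rw [h1, h2, hν'])
    refine ⟨c, ?_⟩
    rw [if_neg hb]
    by_cases h0 : a - c • b = 0
    · rw [if_pos h0]
      exact WithBot.bot_lt_coe _
    · rw [if_neg h0]
      have h0' : ((a - c • b : regularOff P) : F) ≠ 0 := fun h => h0 (Subtype.ext h)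
      have hcoe : ((a - c • b : regularOff P) : F) = (a : F) - c • (b : F) := rfl
      have h3 := ord_eq_neg_poleOrd hx₀ (a - c • b).2 h0'
      rcases hc with hc | hc
      · exact absurd (hcoe.trans hc) h0'
      · rw [← hcoe] at hc
        have hlt : poleOrd P ((a - c • b : regularOff P) : F) < poleOrd P (b : F) := by
          rw [← hν']
          omega
        exact WithBot.coe_lt_coe.mpr hlt

theorem poleOrdRR_ν_of_ne (P : Place K F) {b : regularOff P} (hb : b ≠ 0) :
    (poleOrdRR hx₀ P).ν b = ((poleOrd P (b : F) : ℕ) : WithBot ℕ) := by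
  exact if_neg hb

theorem poleOrdRR_nu (P : Place K F) (b : regularOff P) :
    (poleOrdRR hx₀ P).nu b = poleOrd P (b : F) := by
  by_cases hb : b = 0
  · subst hb
    rw [PoleOrd.nu, PoleOrd.ν_zero]
    simp [poleOrd_zero]
  · exact PoleOrd.nu_eq_of_ν_eq _ (poleOrdRR_ν_of_ne hx₀ P hb)

theorem mem_poleNumbers_iff_nu {P : Place K F} {m : ℕ} :
    m ∈ poleNumbers P ↔ ∃ b : regularOff P, b ≠ 0 ∧ (poleOrdRR hx₀ P).nu b = m := by
  constructor
  · rintro ⟨f, hf, hf0, h⟩
    exact ⟨⟨f, hf⟩, fun h0 => hf0 (congrArg Subtype.val h0), by rw [poleOrdRR_nu]; exact h⟩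
  · rintro ⟨b, hb, h⟩
    rw [poleOrdRR_nu] at h
    exact ⟨b, b.2, fun h0 => hb (Subtype.ext h0), h⟩

/-- Every residue class modulo `d` contains a pole number. -/
theorem exists_nu_mod (P : Place K F) {d : ℕ} (hd : 0 < d) (i : Fin d) :
    ∃ b : regularOff P, b ≠ 0 ∧ (poleOrdRR hx₀ P).nu b % d = i := by
  have hmem : (i : ℕ) + d * (2 * genusFF K F) ∈ poleNumbers P :=
    mem_poleNumbers_of_le hx₀ P (by nlinarith [i.2])
  obtain ⟨b, hb, h⟩ := (mem_poleNumbers_iff_nu hx₀).mp hmem
  refine ⟨b, hb, ?_⟩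
  rw [h, Nat.add_mul_mod_self_left, Nat.mod_eq_of_lt i.2]

/-- **Apery data exist** for every `x` regular outside `P` with pole order `d ≥ 1`. -/
theorem nonempty_aperyData (P : Place K F) {d : ℕ} (hd : 0 < d) (x : regularOff P)
    (hx : poleOrd P (x : F) = d) : Nonempty (AperyData (poleOrdRR hx₀ P) d x) := by
  have hx0 : x ≠ 0 := by
    rintro rfl
    rw [ZeroMemClass.coe_zero, poleOrd_zero] at hx
    omega
  refine PoleOrd.nonempty_aperyData _ hd ?_ fun i => exists_nu_mod hx₀ P hd i
  rw [poleOrdRR_ν_of_ne hx₀ P hx0, hx]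

/-- For every positive pole number `d` there are `x` and Apery data. -/
theorem exists_aperyData (P : Place K F) {d : ℕ} (hd : 0 < d) (hdH : d ∈ poleNumbers P) :
    ∃ x : regularOff P, poleOrd P (x : F) = d ∧ Nonempty (AperyData (poleOrdRR hx₀ P) d x) := by
  obtain ⟨f, hf, -, h⟩ := hdH
  exact ⟨⟨f, hf⟩, h, nonempty_aperyData hx₀ P hd ⟨f, hf⟩ h⟩

end Ticket

end Fermat.Agent.S27x.Spec.AperyRR
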