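import Mathlib
import Fermat.Agent.S27x.Spec.AperyCore

/-!
# P-S27 block D2/D3: weighted algebras `⊕ k[x] e_i` are domains (helper32)

`WtAlg k R d x` : `R = ⊕_{i : Fin d} k[x] e_i` (unique expansions), weights `m i ≡ i mod d`,
`e 0 = 1`, structure constants `s i j l ∈ k[X]` with `d * deg (s i j l) + m l ≤ m i + m j` and
equality (in particular `s ≠ 0`) at `l = i + j mod d`.

Main results: the weighted degree `νbar (∑ p_i(x) e_i) = max_i (d * deg p_i + m_i)` is multiplicative
(`WtAlg.νbar_mul`), so `R` is a domain (`WtAlg.isDomain`) and `νbar` is a pole-order function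
(`WtAlg.poleOrd : PoleOrd k R`; no hypothesis on `k`), for which `e` is again a system of Apéry
elements (`WtAlg.aperyData`).  Conversely Apéry data with `f 0 = 1` give a weighted algebra
(`AperyData.wtAlg`).
-/

set_option autoImplicit false

namespace Fermat.Agent.S27x.Spec.AperyRed

open Polynomial
open Fermat.Agent.S27x.Spec.AperyCore

/-- A weighted algebra `R = ⊕ k[x] e_i`. -/
structure WtAlg (k R : Type*) [Field k] [CommRing R] [Algebra k R] (d : ℕ) (x : R) where
  hd : 0 < d
  m : Fin d → ℕ
  hm : ∀ i, m i % d = i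
  e : Fin d → R
  e_zero : e ⟨0, hd⟩ = 1
  m_zero : m ⟨0, hd⟩ = 0
  s : Fin d → Fin d → Fin d → k[X]
  bij : Function.Bijective fun p : Fin d → k[X] => ∑ i, aeval x (p i) * e i
  mul_e : ∀ i j, e i * e j = ∑ l, aeval x (s i j l) * e l
  s_bound : ∀ i j l, s i j l ≠ 0 → d * (s i j l).natDegree + m l ≤ m i + m j
  s_lead : ∀ i j, s i j ⟨((i : ℕ) + j) % d, Nat.mod_lt _ hd⟩ ≠ 0 ∧
    d * (s i j ⟨((i : ℕ) + j) % d, Nat.mod_lt _ hd⟩).natDegree +
      m ⟨((i : ℕ) + j) % d, Nat.mod_lt _ hd⟩ = m i + m j

namespace WtAlg

variable {k R : Type*} [Field k] [CommRing R] [Algebra k R] {d : ℕ} {x : R} (A : WtAlg k R d x)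

/-- The index `0`. -/
def zero : Fin d := ⟨0, A.hd⟩

/-- The index `i + j mod d`. -/
def addIdx (i j : Fin d) : Fin d := ⟨((i : ℕ) + j) % d, Nat.mod_lt _ A.hd⟩

/-- The combination `∑ i, p_i(x) e_i`. -/
noncomputable def combo (p : Fin d → k[X]) : R := ∑ i, aeval x (p i) * A.e i

theorem combo_add (p p' : Fin d → k[X]) : A.combo (p + p') = A.combo p + A.combo p' := by
  unfold combo
  rw [← Finset.sum_add_distrib]
  refine Finset.sum_congr rfl fun i _ => ?_
  rw [Pi.add_apply, map_add, add_mul]

theorem combo_zero : A.combo 0 = 0 := by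
  unfold combo
  simp

theorem combo_smul_const (c : k) (p : Fin d → k[X]) :
    A.combo (fun i => C c * p i) = c • A.combo p := by
  unfold combo
  rw [Finset.smul_sum]
  refine Finset.sum_congr rfl fun i _ => ?_
  rw [map_mul, aeval_C, Algebra.smul_def, mul_assoc]

/-- The expansion of an element. -/
noncomputable def expand : R ≃ (Fin d → k[X]) := (Equiv.ofBijective _ A.bij).symm

theorem combo_expand (r : R) : A.combo (A.expand r) = r :=
  (Equiv.ofBijective _ A.bij).apply_symm_apply r

theorem expand_combo (p : Fin d → k[X]) : A.expand (A.combo p) = p :=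
  (Equiv.ofBijective _ A.bij).symm_apply_apply p

theorem expand_add (r r' : R) : A.expand (r + r') = A.expand r + A.expand r' := by
  apply A.bij.1
  show A.combo _ = A.combo _
  rw [A.combo_expand, A.combo_add, A.combo_expand, A.combo_expand]

theorem expand_zero : A.expand 0 = 0 := by
  apply A.bij.1
  show A.combo _ = A.combo _
  rw [A.combo_expand, A.combo_zero]

theorem expand_eq_zero_iff {r : R} : A.expand r = 0 ↔ r = 0 := by
  constructor
  · intro h
    rw [← A.combo_expand r, h, A.combo_zero]
  · rintro rfl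
    exact A.expand_zero

open scoped Classical in
/-- The weight of the `i`-th term. -/
noncomputable def wt (p : Fin d → k[X]) (i : Fin d) : WithBot ℕ :=
  if p i = 0 then ⊥ else ((d * (p i).natDegree + A.m i : ℕ) : WithBot ℕ)

theorem wt_of_ne {p : Fin d → k[X]} {i : Fin d} (h : p i ≠ 0) :
    A.wt p i = ((d * (p i).natDegree + A.m i : ℕ) : WithBot ℕ) := by
  unfold wt
  rw [if_neg h]

theorem wt_of_eq {p : Fin d → k[X]} {i : Fin d} (h : p i = 0) : A.wt p i = ⊥ := by
  unfold wt
  rw [if_pos h]

/-- The weighted degree of a tuple. -/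
noncomputable def W (p : Fin d → k[X]) : WithBot ℕ := Finset.univ.sup (A.wt p)

theorem W_eq_bot_iff {p : Fin d → k[X]} : A.W p = ⊥ ↔ p = 0 := by
  unfold W
  rw [Finset.sup_eq_bot_iff]
  constructor
  · intro h
    funext i
    by_contra hi
    have := h i (Finset.mem_univ i)
    rw [A.wt_of_ne hi] at this
    exact WithBot.coe_ne_bot this
  · rintro rfl i _
    exact A.wt_of_eq rfl

theorem W_le {p : Fin d → k[X]} {N : ℕ}
    (h : ∀ i, p i ≠ 0 → d * (p i).natDegree + A.m i ≤ N) : A.W p ≤ (N : WithBot ℕ) := by
  unfold W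
  apply Finset.sup_le
  intro i _
  by_cases hi : p i = 0
  · rw [A.wt_of_eq hi]
    exact bot_le
  · rw [A.wt_of_ne hi]
    exact WithBot.coe_le_coe.mpr (h i hi)

theorem W_lt {p : Fin d → k[X]} {N : ℕ}
    (h : ∀ i, p i ≠ 0 → d * (p i).natDegree + A.m i < N) : A.W p < (N : WithBot ℕ) := by
  rcases Nat.eq_zero_or_pos N with hN | hN
  · have hp : p = 0 := by
      funext i
      by_contra hi
      have := h i hi
      omega
    rw [A.W_eq_bot_iff.mpr hp]
    exact WithBot.bot_lt_coe N
  · have h1 : A.W p ≤ ((N - 1 : ℕ) : WithBot ℕ) := A.W_le fun i hi => by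
      have := h i hi
      omega
    refine lt_of_le_of_lt h1 (WithBot.coe_lt_coe.mpr ?_)
    simp only [Nat.cast_id]
    omega

theorem le_W {p : Fin d → k[X]} {i : Fin d} (hi : p i ≠ 0) :
    ((d * (p i).natDegree + A.m i : ℕ) : WithBot ℕ) ≤ A.W p := by
  rw [← A.wt_of_ne hi]
  exact Finset.le_sup (f := A.wt p) (Finset.mem_univ i)

/-- The leading index of a nonzero tuple: the weight is attained exactly once. -/
theorem exists_lead {p : Fin d → k[X]} (hp : p ≠ 0) :
    ∃ i0, p i0 ≠ 0 ∧ A.W p = ((d * (p i0).natDegree + A.m i0 : ℕ) : WithBot ℕ) ∧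
      ∀ j, j ≠ i0 → p j ≠ 0 →
        d * (p j).natDegree + A.m j < d * (p i0).natDegree + A.m i0 := by
  have : Nonempty (Fin d) := ⟨A.zero⟩
  obtain ⟨i0, -, hi0⟩ := Finset.exists_mem_eq_sup Finset.univ Finset.univ_nonempty (A.wt p)
  have hpi : p i0 ≠ 0 := by
    intro h0
    have h1 : A.W p = ⊥ := by
      unfold W
      rw [hi0, A.wt_of_eq h0]
    exact hp (A.W_eq_bot_iff.mp h1)
  have hW : A.W p = ((d * (p i0).natDegree + A.m i0 : ℕ) : WithBot ℕ) := by
    unfold W
    rw [hi0, A.wt_of_ne hpi]
  refine ⟨i0, hpi, hW, fun j hj hpj => ?_⟩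
  have h1 := A.le_W hpj
  rw [hW] at h1
  have h2 := WithBot.coe_le_coe.mp h1
  rcases Nat.lt_or_ge (d * (p j).natDegree + A.m j) (d * (p i0).natDegree + A.m i0) with h | h
  · exact h
  · exfalso
    have h3 : d * (p j).natDegree + A.m j = d * (p i0).natDegree + A.m i0 := le_antisymm h2 h
    have h4 := congrArg (· % d) h3
    simp only [Nat.mul_add_mod] at h4
    rw [A.hm, A.hm] at h4
    exact hj (Fin.ext h4)

/-- The product of two tuples. -/
noncomputable def prod (p q : Fin d → k[X]) : Fin d → k[X] :=
  fun l => ∑ i, ∑ j, p i * q j * A.s i j l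

theorem combo_mul (p q : Fin d → k[X]) : A.combo p * A.combo q = A.combo (A.prod p q) := by
  unfold combo prod
  rw [Finset.sum_mul_sum]
  have h1 : ∀ i j : Fin d, aeval x (p i) * A.e i * (aeval x (q j) * A.e j) =
      ∑ l, aeval x (p i * q j * A.s i j l) * A.e l := by
    intro i j
    have : aeval x (p i) * A.e i * (aeval x (q j) * A.e j) =
        aeval x (p i) * aeval x (q j) * (A.e i * A.e j) := by ring
    rw [this, A.mul_e, Finset.mul_sum]
    refine Finset.sum_congr rfl fun l _ => ?_
    rw [map_mul, map_mul]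
    ring
  simp_rw [h1]
  rw [Finset.sum_congr rfl fun i _ => Finset.sum_comm]
  rw [Finset.sum_comm]
  refine Finset.sum_congr rfl fun l _ => ?_
  rw [map_sum, Finset.sum_mul]
  refine Finset.sum_congr rfl fun i _ => ?_
  rw [map_sum, Finset.sum_mul]

/-- Degree bound for one summand of the product. -/
theorem summand_bound {p q : Fin d → k[X]} {i j l : Fin d} {a b : ℕ}
    (ha : d * (p i).natDegree + A.m i ≤ a) (hb : d * (q j).natDegree + A.m j ≤ b)
    (h : p i * q j * A.s i j l ≠ 0) :
    d * (p i * q j * A.s i j l).natDegree + A.m l ≤ a + b := by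
  have hp : p i ≠ 0 := fun h0 => h (by rw [h0, zero_mul, zero_mul])
  have hq : q j ≠ 0 := fun h0 => h (by rw [h0, mul_zero, zero_mul])
  have hs : A.s i j l ≠ 0 := fun h0 => h (by rw [h0, mul_zero])
  rw [natDegree_mul (mul_ne_zero hp hq) hs, natDegree_mul hp hq]
  have := A.s_bound i j l hs
  nlinarith

/-- **Multiplicativity of the weighted degree** on tuples. -/
theorem W_prod {p q : Fin d → k[X]} (hp : p ≠ 0) (hq : q ≠ 0) :
    A.W (A.prod p q) = A.W p + A.W q := by
  classical
  obtain ⟨i0, hpi0, hWp, hpl⟩ := A.exists_lead hp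
  obtain ⟨j0, hqj0, hWq, hql⟩ := A.exists_lead hq
  set a := d * (p i0).natDegree + A.m i0 with ha
  set b := d * (q j0).natDegree + A.m j0 with hb
  have hpa : ∀ i, p i ≠ 0 → d * (p i).natDegree + A.m i ≤ a := by
    intro i hi
    by_cases hii : i = i0
    · rw [hii]
    · exact (hpl i hii hi).le
  have hqb : ∀ j, q j ≠ 0 → d * (q j).natDegree + A.m j ≤ b := by
    intro j hj
    by_cases hjj : j = j0
    · rw [hjj]
    · exact (hql j hjj hj).le
  rw [hWp, hWq]
  apply le_antisymm
  · -- upper bound
    have : ((a : WithBot ℕ) + (b : WithBot ℕ)) = ((a + b : ℕ) : WithBot ℕ) := rfl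
    rw [this]
    apply A.W_le
    intro l hl
    -- every summand has degree at most `(a + b - m l) / d`
    have hex : ∃ i j, p i * q j * A.s i j l ≠ 0 := by
      by_contra hne
      push Not at hne
      apply hl
      unfold prod
      exact Finset.sum_eq_zero fun i _ => Finset.sum_eq_zero fun j _ => hne i j
    obtain ⟨i1, j1, h1⟩ := hex
    have hml : A.m l ≤ a + b := by
      have hp1 : p i1 ≠ 0 := fun h0 => h1 (by rw [h0, zero_mul, zero_mul])
      have hq1 : q j1 ≠ 0 := fun h0 => h1 (by rw [h0, mul_zero, zero_mul])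
      have := A.summand_bound (hpa i1 hp1) (hqb j1 hq1) h1
      omega
    have hdeg : (A.prod p q l).natDegree ≤ (a + b - A.m l) / d := by
      unfold prod
      apply natDegree_sum_le_of_forall_le
      intro i _
      apply natDegree_sum_le_of_forall_le
      intro j _
      by_cases h : p i * q j * A.s i j l = 0
      · rw [h, natDegree_zero]
        exact Nat.zero_le _
      · have hp1 : p i ≠ 0 := fun h0 => h (by rw [h0, zero_mul, zero_mul])
        have hq1 : q j ≠ 0 := fun h0 => h (by rw [h0, mul_zero, zero_mul])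
        have := A.summand_bound (hpa i hp1) (hqb j hq1) h
        rw [Nat.le_div_iff_mul_le A.hd, mul_comm]
        omega
    have := Nat.div_mul_le_self (a + b - A.m l) d
    calc d * (A.prod p q l).natDegree + A.m l
        ≤ d * ((a + b - A.m l) / d) + A.m l := by
          exact Nat.add_le_add_right (Nat.mul_le_mul_left d hdeg) _
      _ ≤ (a + b - A.m l) + A.m l := by
          rw [mul_comm]
          exact Nat.add_le_add_right this _
      _ = a + b := Nat.sub_add_cancel hml
  · -- lower bound: the coefficient of `e_{l0}` has the expected degree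
    set l0 := A.addIdx i0 j0 with hl0
    obtain ⟨hs0, hs1⟩ := A.s_lead i0 j0
    change A.s i0 j0 l0 ≠ 0 at hs0
    change d * (A.s i0 j0 l0).natDegree + A.m l0 = A.m i0 + A.m j0 at hs1
    set T0 := p i0 * q j0 * A.s i0 j0 l0 with hT0
    have hT0ne : T0 ≠ 0 := mul_ne_zero (mul_ne_zero hpi0 hqj0) hs0
    set D0 := T0.natDegree with hD0
    have hD0eq : d * D0 + A.m l0 = a + b := by
      rw [hD0, hT0, natDegree_mul (mul_ne_zero hpi0 hqj0) hs0, natDegree_mul hpi0 hqj0]
      nlinarith
    -- the other summands have smaller degree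
    have hother : ∀ i j, (i, j) ≠ (i0, j0) → (p i * q j * A.s i j l0).coeff D0 = 0 := by
      intro i j hij
      by_cases h : p i * q j * A.s i j l0 = 0
      · rw [h, coeff_zero]
      · apply coeff_eq_zero_of_natDegree_lt
        have hp1 : p i ≠ 0 := fun h0 => h (by rw [h0, zero_mul, zero_mul])
        have hq1 : q j ≠ 0 := fun h0 => h (by rw [h0, mul_zero, zero_mul])
        have hlt : d * (p i).natDegree + A.m i + (d * (q j).natDegree + A.m j) < a + b := by
          by_cases hii : i = i0
          · have hjj : j ≠ j0 := by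
              intro hjj
              exact hij (by rw [hii, hjj])
            have h1 := hql j hjj hq1
            have h2 := hpa i hp1
            omega
          · have h1 := hpl i hii hp1
            have h2 := hqb j hq1
            omega
        have hb' := A.summand_bound (le_refl _) (le_refl _) h
        have : d * (p i * q j * A.s i j l0).natDegree < d * D0 := by omega
        exact Nat.lt_of_mul_lt_mul_left this
    have hcoeff : (A.prod p q l0).coeff D0 = T0.coeff D0 := by
      unfold prod
      rw [finsetSum_coeff]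
      simp_rw [finsetSum_coeff]
      rw [Finset.sum_eq_single i0]
      · rw [Finset.sum_eq_single j0]
        · intro j _ hj
          exact hother i0 j (fun h => hj (Prod.ext_iff.mp h).2)
        · intro h
          exact absurd (Finset.mem_univ j0) h
      · intro i _ hi
        exact Finset.sum_eq_zero fun j _ => hother i j (fun h => hi (Prod.ext_iff.mp h).1)
      · intro h
        exact absurd (Finset.mem_univ i0) h
    have hne : (A.prod p q l0).coeff D0 ≠ 0 := by
      rw [hcoeff, hD0, coeff_natDegree]
      exact leadingCoeff_ne_zero.mpr hT0ne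
    have hne0 : A.prod p q l0 ≠ 0 := by
      intro h0
      rw [h0, coeff_zero] at hne
      exact hne rfl
    have hge : D0 ≤ (A.prod p q l0).natDegree := le_natDegree_of_ne_zero hne
    have h1 := A.le_W hne0
    refine le_trans ?_ h1
    have : ((a : WithBot ℕ) + (b : WithBot ℕ)) = ((a + b : ℕ) : WithBot ℕ) := rfl
    rw [this]
    apply WithBot.coe_le_coe.mpr
    have := Nat.mul_le_mul_left d hge
    simp only [Nat.cast_id]
    omega

/-- The weighted degree on `R`. -/
noncomputable def νbar (r : R) : WithBot ℕ := A.W (A.expand r)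

theorem νbar_eq_bot_iff {r : R} : A.νbar r = ⊥ ↔ r = 0 := by
  unfold νbar
  rw [A.W_eq_bot_iff, A.expand_eq_zero_iff]

theorem νbar_combo (p : Fin d → k[X]) : A.νbar (A.combo p) = A.W p := by
  unfold νbar
  rw [A.expand_combo]

/-- **The weighted degree is multiplicative.** -/
theorem νbar_mul (r r' : R) : A.νbar (r * r') = A.νbar r + A.νbar r' := by
  by_cases hr : r = 0
  · rw [hr, zero_mul, A.νbar_eq_bot_iff.mpr rfl, WithBot.bot_add]
  by_cases hr' : r' = 0
  · rw [hr', mul_zero, A.νbar_eq_bot_iff.mpr rfl, WithBot.add_bot]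
  have h1 : A.expand r ≠ 0 := fun h => hr (A.expand_eq_zero_iff.mp h)
  have h2 : A.expand r' ≠ 0 := fun h => hr' (A.expand_eq_zero_iff.mp h)
  have h3 : r * r' = A.combo (A.prod (A.expand r) (A.expand r')) := by
    rw [← A.combo_mul, A.combo_expand, A.combo_expand]
  rw [h3, A.νbar_combo, A.W_prod h1 h2]
  rfl

include A in
/-- `R` has no zero divisors. -/
theorem mul_eq_zero_iff {r r' : R} : r * r' = 0 ↔ r = 0 ∨ r' = 0 := by
  constructor
  · intro h
    have h1 : A.νbar r + A.νbar r' = ⊥ := by rw [← A.νbar_mul, h, A.νbar_eq_bot_iff.mpr rfl]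
    rcases WithBot.add_eq_bot.mp h1 with h2 | h2
    · exact Or.inl (A.νbar_eq_bot_iff.mp h2)
    · exact Or.inr (A.νbar_eq_bot_iff.mp h2)
  · rintro (rfl | rfl) <;> simp

include A in
theorem one_ne_zero' : (1 : R) ≠ 0 := by
  classical
  intro h
  -- `combo (single 0 1) = e 0 = 1 = 0` contradicts injectivity
  have h1 : A.combo (Pi.single A.zero 1) = 1 := by
    unfold combo
    rw [Finset.sum_eq_single A.zero]
    · rw [Pi.single_eq_same, map_one, one_mul]
      exact A.e_zero
    · intro j _ hj
      rw [Pi.single_eq_of_ne hj, map_zero, zero_mul]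
    · intro h
      exact absurd (Finset.mem_univ _) h
  have h2 : (Pi.single A.zero 1 : Fin d → k[X]) = 0 := by
    apply A.bij.1
    show A.combo _ = A.combo _
    rw [h1, A.combo_zero, h]
  have := congrFun h2 A.zero
  rw [Pi.single_eq_same, Pi.zero_apply] at this
  exact one_ne_zero this

include A in
/-- **`R` is a domain.** -/
theorem isDomain : IsDomain R := by
  have : Nontrivial R := ⟨⟨1, 0, A.one_ne_zero'⟩⟩
  have : NoZeroDivisors R := ⟨fun h => A.mul_eq_zero_iff.mp h⟩
  exact NoZeroDivisors.to_isDomain R

theorem νbar_add_le (r r' : R) : A.νbar (r + r') ≤ max (A.νbar r) (A.νbar r') := by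
  unfold νbar
  rw [A.expand_add]
  unfold W
  apply Finset.sup_le
  intro i _
  set p := A.expand r
  set q := A.expand r'
  by_cases h : (p + q) i = 0
  · rw [A.wt_of_eq h]
    exact bot_le
  · rw [A.wt_of_ne h]
    have hdeg : ((p + q) i).natDegree ≤ max (p i).natDegree (q i).natDegree := natDegree_add_le _ _
    rcases le_max_iff.mp hdeg with h1 | h1
    · by_cases hp : p i = 0
      · -- then `(p + q) i = q i`
        have : (p + q) i = q i := by rw [Pi.add_apply, hp, zero_add]
        rw [this] at h ⊢
        exact le_max_of_le_right (by rw [← A.wt_of_ne h]; exact Finset.le_sup (f := A.wt q) (Finset.mem_univ i))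
      · refine le_max_of_le_left (le_trans ?_ (A.le_W hp))
        exact WithBot.coe_le_coe.mpr (Nat.add_le_add_right (Nat.mul_le_mul_left d h1) _)
    · by_cases hq : q i = 0
      · have : (p + q) i = p i := by rw [Pi.add_apply, hq, add_zero]
        rw [this] at h ⊢
        exact le_max_of_le_left (by rw [← A.wt_of_ne h]; exact Finset.le_sup (f := A.wt p) (Finset.mem_univ i))
      · refine le_max_of_le_right (le_trans ?_ (A.le_W hq))
        exact WithBot.coe_le_coe.mpr (Nat.add_le_add_right (Nat.mul_le_mul_left d h1) _)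

theorem expand_algebraMap [DecidableEq (Fin d)] (c : k) :
    A.expand (algebraMap k R c) = Pi.single A.zero (C c) := by
  apply A.bij.1
  show A.combo _ = A.combo _
  rw [A.combo_expand]
  unfold combo
  rw [Finset.sum_eq_single A.zero]
  · rw [Pi.single_eq_same, aeval_C]
    show _ = _ * A.e ⟨0, A.hd⟩
    rw [A.e_zero, mul_one]
  · intro j _ hj
    rw [Pi.single_eq_of_ne hj, map_zero, zero_mul]
  · intro h
    exact absurd (Finset.mem_univ _) h

theorem νbar_algebraMap {c : k} (hc : c ≠ 0) : A.νbar (algebraMap k R c) = 0 := by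
  classical
  unfold νbar
  rw [A.expand_algebraMap]
  apply le_antisymm
  · have : (0 : WithBot ℕ) = ((0 : ℕ) : WithBot ℕ) := rfl
    rw [this]
    apply A.W_le
    intro i hi
    by_cases h : i = A.zero
    · rw [h, Pi.single_eq_same, natDegree_C]
      show d * 0 + A.m ⟨0, A.hd⟩ ≤ 0
      rw [A.m_zero, mul_zero]
    · rw [Pi.single_eq_of_ne h] at hi
      exact absurd rfl hi
  · have h1 : (Pi.single A.zero (C c) : Fin d → k[X]) A.zero ≠ 0 := by
      rw [Pi.single_eq_same]
      exact C_ne_zero.mpr hc
    have := A.le_W h1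
    refine le_trans ?_ this
    exact WithBot.coe_le_coe.mpr (Nat.zero_le _)

theorem expand_smul_sub (r r' : R) (c : k) :
    A.expand (r - c • r') = fun i => A.expand r i - C c * A.expand r' i := by
  apply A.bij.1
  show A.combo _ = A.combo _
  rw [A.combo_expand]
  have h1 : (fun i => A.expand r i - C c * A.expand r' i) =
      A.expand r + fun i => C (-c) * A.expand r' i := by
    funext i
    rw [Pi.add_apply, C_neg]
    ring
  rw [h1, A.combo_add, A.combo_smul_const, A.combo_expand, A.combo_expand, neg_smul,
    sub_eq_add_neg]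

/-- One-dimensional jumps: no hypothesis on `k` is needed. -/
theorem exists_sub_lt (r r' : R) (hr' : r' ≠ 0) (h : A.νbar r = A.νbar r') :
    ∃ c : k, A.νbar (r - c • r') < A.νbar r' := by
  have hq : A.expand r' ≠ 0 := fun h0 => hr' (A.expand_eq_zero_iff.mp h0)
  have hp : A.expand r ≠ 0 := by
    intro h0
    have h1 : A.νbar r = ⊥ := by unfold νbar; rw [A.W_eq_bot_iff]; exact h0
    rw [h1] at h
    exact hq (A.W_eq_bot_iff.mp h.symm)
  set p := A.expand r with hpdef
  set q := A.expand r' with hqdef
  obtain ⟨i0, hpi0, hWp, hpl⟩ := A.exists_lead hp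
  obtain ⟨j0, hqj0, hWq, hql⟩ := A.exists_lead hq
  have hn : d * (p i0).natDegree + A.m i0 = d * (q j0).natDegree + A.m j0 := by
    have : A.W p = A.W q := h
    rw [hWp, hWq] at this
    exact WithBot.coe_injective this
  have hij : i0 = j0 := by
    have h4 := congrArg (· % d) hn
    simp only [Nat.mul_add_mod] at h4
    rw [A.hm, A.hm] at h4
    exact Fin.ext h4
  subst hij
  have hdeg : (p i0).natDegree = (q i0).natDegree := by
    have : d * (p i0).natDegree = d * (q i0).natDegree := by omega
    exact Nat.eq_of_mul_eq_mul_left A.hd this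
  set c : k := (p i0).leadingCoeff / (q i0).leadingCoeff with hc
  have hlq : (q i0).leadingCoeff ≠ 0 := leadingCoeff_ne_zero.mpr hqj0
  have hlp : (p i0).leadingCoeff ≠ 0 := leadingCoeff_ne_zero.mpr hpi0
  have hc0 : c ≠ 0 := div_ne_zero hlp hlq
  refine ⟨c, ?_⟩
  show A.W (A.expand (r - c • r')) < A.W q
  rw [A.expand_smul_sub, hWq, ← hpdef, ← hqdef]
  apply A.W_lt
  intro i hi
  have hCq : ∀ j, (C c * q j).natDegree = (q j).natDegree := fun j => natDegree_C_mul hc0
  by_cases hii : i = i0
  · subst hii
    have hd1 : (p i).degree = (C c * q i).degree := by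
      rw [degree_eq_natDegree hpi0, degree_eq_natDegree (mul_ne_zero (C_ne_zero.mpr hc0) hqj0),
        hCq, hdeg]
    have hl1 : (p i).leadingCoeff = (C c * q i).leadingCoeff := by
      rw [leadingCoeff_mul, leadingCoeff_C, hc, div_mul_cancel₀ _ hlq]
    have hlt := degree_sub_lt_left hd1 hpi0 hl1
    have hlt' : (p i - C c * q i).natDegree < (p i).natDegree :=
      natDegree_lt_natDegree hi hlt
    have := (Nat.mul_lt_mul_left A.hd).mpr hlt'
    omega
  · have hle : (p i - C c * q i).natDegree ≤ max (p i).natDegree (q i).natDegree := by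
      have := natDegree_sub_le (p i) (C c * q i)
      rwa [hCq] at this
    by_cases hp0 : p i = 0
    · have hq0 : q i ≠ 0 := by
        intro hq0
        apply hi
        show p i - C c * q i = 0
        rw [hp0, hq0, mul_zero, sub_zero]
      have h1 := hql i hii hq0
      have h2 : (p i - C c * q i).natDegree ≤ (q i).natDegree := by
        have : max (p i).natDegree (q i).natDegree = (q i).natDegree := by
          rw [hp0, natDegree_zero]
          exact max_eq_right (Nat.zero_le _)
        exact hle.trans_eq this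
      have := Nat.mul_le_mul_left d h2
      omega
    · have h1 := hpl i hii hp0
      by_cases hq0 : q i = 0
      · have h2 : (p i - C c * q i).natDegree ≤ (p i).natDegree := by
          have : max (p i).natDegree (q i).natDegree = (p i).natDegree := by
            rw [hq0, natDegree_zero]
            exact max_eq_left (Nat.zero_le _)
          exact hle.trans_eq this
        have := Nat.mul_le_mul_left d h2
        omega
      · have h3 := hql i hii hq0
        rcases le_max_iff.mp hle with h2 | h2
        · have := Nat.mul_le_mul_left d h2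
          omega
        · have := Nat.mul_le_mul_left d h2
          omega

/-- The weighted degree is a pole-order function on `R`. -/
noncomputable def poleOrd : PoleOrd k R where
  ν := A.νbar
  ν_eq_bot := A.νbar_eq_bot_iff
  ν_mul := A.νbar_mul
  ν_add_le := A.νbar_add_le
  ν_algebraMap := fun _ hc => A.νbar_algebraMap hc
  exists_sub_lt := A.exists_sub_lt

@[simp] theorem poleOrd_ν (r : R) : A.poleOrd.ν r = A.νbar r := rfl

theorem νbar_term (i : Fin d) {q : k[X]} (hq : q ≠ 0) :
    A.νbar (aeval x q * A.e i) = ((d * q.natDegree + A.m i : ℕ) : WithBot ℕ) := by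
  classical
  have h1 : aeval x q * A.e i = A.combo (Pi.single i q) := by
    unfold combo
    rw [Finset.sum_eq_single i]
    · rw [Pi.single_eq_same]
    · intro j _ hj
      rw [Pi.single_eq_of_ne hj, map_zero, zero_mul]
    · intro h
      exact absurd (Finset.mem_univ i) h
  rw [h1, A.νbar_combo]
  apply le_antisymm
  · apply A.W_le
    intro j hj
    by_cases hji : j = i
    · rw [hji, Pi.single_eq_same]
    · rw [Pi.single_eq_of_ne hji] at hj
      exact absurd rfl hj
  · have h2 : (Pi.single i q : Fin d → k[X]) i ≠ 0 := by rwa [Pi.single_eq_same]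
    have := A.le_W h2
    rwa [Pi.single_eq_same] at this

theorem νbar_e (i : Fin d) : A.νbar (A.e i) = (A.m i : WithBot ℕ) := by
  have := A.νbar_term i (q := 1) one_ne_zero
  rw [map_one, one_mul, natDegree_one, mul_zero, zero_add] at this
  exact this

theorem νbar_x : A.νbar x = (d : WithBot ℕ) := by
  have := A.νbar_term A.zero (q := X) X_ne_zero
  rw [aeval_X, natDegree_X, mul_one] at this
  have h0 : A.e A.zero = 1 := A.e_zero
  have h1 : A.m A.zero = 0 := A.m_zero
  rw [h0, mul_one, h1, add_zero] at this
  exact this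

/-- The `e i` are Apéry elements for the weighted degree. -/
noncomputable def aperyData : AperyData A.poleOrd d x where
  hd := A.hd
  hx := A.νbar_x
  m := A.m
  f := A.e
  hf := A.νbar_e
  hm := A.hm
  hmin := by
    intro i b hb hbi
    have hq : A.expand b ≠ 0 := fun h0 => hb (A.expand_eq_zero_iff.mp h0)
    obtain ⟨i0, hpi0, hW, -⟩ := A.exists_lead hq
    have h1 : A.poleOrd.nu b = d * (A.expand b i0).natDegree + A.m i0 :=
      A.poleOrd.nu_eq_of_ν_eq hW
    rw [h1, Nat.mul_add_mod, A.hm] at hbi
    have : i0 = i := Fin.ext hbi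
    rw [h1, this]
    exact Nat.le_add_left _ _

end WtAlg

/-! ### From Apéry data to weighted algebras -/

section OfApery

variable {K B : Type*} [Field K] [CommRing B] [Algebra K B] {P : PoleOrd K B} {d : ℕ} {x : B}

open scoped Classical in
/-- Normalisation of Apéry data: replace the constant `f 0` by `1`. -/
noncomputable def normalize (A : AperyData P d x) : AperyData P d x where
  hd := A.hd
  hx := A.hx
  m := A.m
  f := Function.update A.f A.zero 1
  hf := by
    intro i
    by_cases h : i = A.zero
    · rw [h, Function.update_self, P.ν_one, A.m_zero]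
      rfl
    · rw [Function.update_of_ne h]
      exact A.hf i
  hm := A.hm
  hmin := A.hmin

theorem normalize_f_zero (A : AperyData P d x) : (normalize A).f (normalize A).zero = 1 := by
  classical
  show Function.update A.f A.zero 1 A.zero = 1
  rw [Function.update_self]

theorem normalize_f_of_ne (A : AperyData P d x) {i : Fin d} (h : i ≠ A.zero) :
    (normalize A).f i = A.f i := by
  classical
  show Function.update A.f A.zero 1 i = A.f i
  rw [Function.update_of_ne h]

theorem normalize_m (A : AperyData P d x) : (normalize A).m = A.m := rfl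

/-- Apéry data with `f 0 = 1` give a weighted algebra (with `s = sc`). -/
noncomputable def wtAlg (A : AperyData P d x) (h1 : A.f A.zero = 1) : WtAlg K B d x where
  hd := A.hd
  m := A.m
  hm := A.hm
  e := A.f
  e_zero := h1
  m_zero := A.m_zero
  s := A.sc
  bij := ⟨A.combo_injective, A.combo_surjective⟩
  mul_e i j := (A.combo_sc i j).symm
  s_bound := A.sc_bound
  s_lead := A.sc_lead

@[simp] theorem wtAlg_e (A : AperyData P d x) (h1 : A.f A.zero = 1) : (wtAlg A h1).e = A.f := rfl
@[simp] theorem wtAlg_m (A : AperyData P d x) (h1 : A.f A.zero = 1) : (wtAlg A h1).m = A.m := rfl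
@[simp] theorem wtAlg_s (A : AperyData P d x) (h1 : A.f A.zero = 1) : (wtAlg A h1).s = A.sc := rfl

/-- The weighted degree of the weighted algebra of Apéry data is the original pole order. -/
theorem wtAlg_νbar (A : AperyData P d x) (h1 : A.f A.zero = 1) (b : B) :
    (wtAlg A h1).νbar b = P.ν b := by
  obtain ⟨p, rfl⟩ := A.combo_surjective b
  have h2 : A.combo p = (wtAlg A h1).combo p := rfl
  rw [h2, (wtAlg A h1).νbar_combo, ← h2, A.ν_combo]
  rfl

end OfApery

end Fermat.Agent.S27x.Spec.AperyRed
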