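import Mathlib
import Fermat.Agent.S27x.Spec.AperyRR
import Fermat.Agent.S27x.Spec.AperyRed
import Fermat.Agent.S27x.Spec.GaussNorm.Model

/-!
# P-S27 block D2 -> D3 bridge: Apery data give a weighted model

* abstract part (`B` a `K`-subalgebra of a field `F`, `P : PoleOrd K B`, `A : AperyData P d x`):
  `weights A : Weights (Fin d)`, `isStructConst A`, `coe_combo`, `wdeg_eq_nu`, and
  `isModel A h1 hfrac : IsModel (weights A) x f A.zero A.sc` (`h1 : A.f A.zero = 1`,
  `hfrac : F = Frac B`);
* ticket part (`K` algebraically closed of characteristic zero, `F / K` a function field,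
  `P : Place K F`, `x` regular outside `P` with pole order `d ≥ 1`): `F = Frac (regularOff P)`,
  the model, `ord_P (ev u) = - wdeg u`, and the two integrality inputs of the D3 hints:
  `hB` (integral over `K[x]` implies in `⊕ K[x] f_i`) and `hB'` (integral over `K[1/x]` implies
  of the form `x^{-N} ev u` with `wdeg u ≤ N d`).
-/

set_option autoImplicit false
set_option linter.unusedSectionVars false
set_option linter.style.haveILetI false

noncomputable section

open Polynomial

namespace Fermat.Agent.S27x.Spec.AperyModel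

open Fermat.Agent.S27x.Spec.AperyCore Fermat.Agent.S27x.Spec.GaussNorm

/-! ### Abstract part -/

section Weights

variable {K B : Type*} [Field K] [CommRing B] [Algebra K B] {P : PoleOrd K B} {d : ℕ} {x : B}
  (A : AperyData P d x)

/-- The weights `(d, m)` of Apéry data. -/
def weights : Weights (Fin d) where
  d := d
  d_pos := A.hd
  m := A.m
  m_inj := by
    intro a b i j h
    have h5 := congrArg (· % d) h
    simp only [Nat.mul_add_mod] at h5
    rw [A.hm i, A.hm j] at h5
    exact Fin.ext h5

@[simp] theorem weights_d : (weights A).d = d := rfl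

@[simp] theorem weights_m : (weights A).m = A.m := rfl

/-- The structure constants of Apéry data are weighted. -/
theorem isStructConst : IsStructConst (weights A) A.sc where
  deg_le := fun i j l hl => A.sc_bound i j l hl
  top := fun i j => ⟨A.addIdx i j,
    isUnit_iff_ne_zero.mpr (leadingCoeff_ne_zero.mpr (A.sc_lead i j).1), (A.sc_lead i j).2⟩

/-- The weighted degree of a nonzero tuple is the pole order of its combination. -/
theorem wdeg_eq_nu {u : Fin d → K[X]} (hu : u ≠ 0) :
    (weights A).wdeg u = P.nu (A.combo u) := by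
  obtain ⟨i, hi, hν, hmax⟩ := A.exists_wt_eq_ν hu
  rw [P.nu_eq_of_ν_eq hν]
  apply le_antisymm
  · rw [Weights.wdeg_le_iff]
    exact hmax
  · exact (weights A).le_wdeg hi

end Weights

section Abstract

variable {K F : Type*} [Field K] [Field F] [Algebra K F] {B : Subalgebra K F}
  {P : PoleOrd K B} {d : ℕ} {x : B} (A : AperyData P d x)

/-- The combination, read in the ambient field. -/
theorem coe_combo (u : Fin d → K[X]) :
    ((A.combo u : B) : F) = ev (x : F) (fun i => (A.f i : F)) u := by
  show B.val (∑ i, aeval x (u i) * A.f i) = ∑ i, aeval (x : F) (u i) * (A.f i : F)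
  rw [map_sum]
  refine Finset.sum_congr rfl fun i _ => ?_
  rw [map_mul, ← Polynomial.aeval_algHom_apply]
  rfl

/-- **Apéry data give a weighted model** (as soon as `f 0 = 1` and `F = Frac B`). -/
theorem isModel (h1 : A.f A.zero = 1)
    (hfrac : ∀ z : F, ∃ b1 b2 : B, b2 ≠ 0 ∧ z * (b2 : F) = (b1 : F)) :
    IsModel (weights A) (x : F) (fun i => (A.f i : F)) A.zero A.sc where
  m_zero := A.m_zero
  f_one := by
    show ((A.f A.zero : B) : F) = 1
    rw [h1]
    rfl
  sc := isStructConst A
  mul := fun i j => by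
    have h := congrArg (fun b : B => (b : F)) (A.combo_sc i j)
    simp only [coe_combo] at h
    rw [Subalgebra.coe_mul] at h
    exact h.symm
  indep := fun p hp => by
    rw [← coe_combo] at hp
    exact A.combo_eq_zero_iff.mp (Subtype.ext hp)
  frac := fun z => by
    obtain ⟨b1, b2, hb2, h⟩ := hfrac z
    obtain ⟨p, hp⟩ := A.combo_surjective b1
    obtain ⟨q, hq⟩ := A.combo_surjective b2
    refine ⟨p, q, ?_, ?_⟩
    · rintro rfl
      apply hb2
      rw [← hq]
      exact A.combo_eq_zero_iff.mpr rfl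
    · rw [← coe_combo, ← coe_combo, hp, hq, h]

end Abstract

/-! ### The ticket part: function fields over an algebraically closed field of char. zero -/

section Ticket

open AlgebraicCurve IntermediateField Fermat.Agent.S27x.Spec.AperyRR
open Fermat.Agent.Lib.RiemannRoch

variable {K F : Type*} [Field K] [Field F] [Algebra K F] [IsAlgClosed K] [CharZero K]
  {x₀ : F} (hx₀ : Transcendental K x₀) [FiniteDimensional K⟮x₀⟯ F]
  {P : Place K F} {d : ℕ} (hd : 0 < d) (x : regularOff P) (hx : poleOrd P (x : F) = d)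
include hx₀ hd hx

/-- `F` is the fraction field of the ring of functions regular outside `P`. -/
theorem exists_frac (z : F) :
    ∃ b1 b2 : regularOff P, b2 ≠ 0 ∧ z * (b2 : F) = (b1 : F) := by
  haveI := finiteDimensional_of_poleOrd hx₀ x.2 hd hx
  haveI := Fermat.Agent.Gateway.GoodRed.PlacesIntegral.isFractionRing_integralClosure_of_finite
    (k := K) (E := F) (x : F)
  obtain ⟨a, b, hb, hab⟩ := IsFractionRing.div_surjective
    (A := integralClosure (Algebra.adjoin K {(x : F)}) F) z
  have hb0 : b ≠ 0 := nonZeroDivisors.ne_zero hb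
  have hb0' : (b : F) ≠ 0 := fun h => hb0 (Subtype.ext h)
  refine ⟨⟨(a : F), (mem_regularOff_iff_isIntegral hx₀ x.2 hd hx _).mpr a.2⟩,
    ⟨(b : F), (mem_regularOff_iff_isIntegral hx₀ x.2 hd hx _).mpr b.2⟩, ?_, ?_⟩
  · intro h
    exact hb0' (congrArg Subtype.val h)
  · show z * (b : F) = (a : F)
    rw [← hab]
    show algebraMap _ F a / algebraMap _ F b * (b : F) = (a : F)
    have h1 : algebraMap (integralClosure (Algebra.adjoin K {(x : F)}) F) F a = (a : F) := rfl
    have h2 : algebraMap (integralClosure (Algebra.adjoin K {(x : F)}) F) F b = (b : F) := rfl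
    rw [h1, h2, div_mul_cancel₀ _ hb0']

variable (A : AperyData (poleOrdRR hx₀ P) d x)

/-- **The weighted model over `K`** attached to normalised Apéry data at `P`. -/
theorem isModel_of_ticket (h1 : A.f A.zero = 1) :
    IsModel (weights A) (x : F) (fun i => (A.f i : F)) A.zero A.sc :=
  isModel A h1 (exists_frac hx₀ hd x hx)

/-- The order at `P` of a combination is minus its weighted degree. -/
theorem ord_ev {u : Fin d → K[X]} (hu : u ≠ 0) :
    P.ord (ev (x : F) (fun i => (A.f i : F)) u) = -((weights A).wdeg u : ℤ) := by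
  have hne : A.combo u ≠ 0 := fun h => hu (A.combo_eq_zero_iff.mp h)
  have hne' : ((A.combo u : regularOff P) : F) ≠ 0 := fun h => hne (Subtype.ext h)
  rw [← coe_combo, ord_eq_neg_poleOrd hx₀ (A.combo u).2 hne', wdeg_eq_nu A hu, poleOrdRR_nu]

/-- Input `hB` of the D3 hints: the functions integral over `K[x]` are the combinations. -/
theorem exists_eq_ev_of_isIntegral {g : F} (hg : IsIntegral (Algebra.adjoin K {(x : F)}) g) :
    ∃ u : Fin d → K[X], g = ev (x : F) (fun i => (A.f i : F)) u := by
  have hgB : g ∈ regularOff P := (mem_regularOff_iff_isIntegral hx₀ x.2 hd hx g).mpr hg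
  obtain ⟨u, hu⟩ := A.combo_surjective ⟨g, hgB⟩
  refine ⟨u, ?_⟩
  rw [← coe_combo, hu]

/-- Converse of `hB`: the combinations are integral over `K[x]`. -/
theorem isIntegral_ev (u : Fin d → K[X]) :
    IsIntegral (Algebra.adjoin K {(x : F)}) (ev (x : F) (fun i => (A.f i : F)) u) := by
  rw [← coe_combo]
  exact (mem_regularOff_iff_isIntegral hx₀ x.2 hd hx _).mp (A.combo u).2

/-- Input `hB'` of the D3 hints: a function integral over `K[1/x]` is `x^{-N} ev u` with
`wdeg u ≤ N d`. -/
theorem exists_eq_inv_pow_mul_ev_of_isIntegral {g : F}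
    (hg : IsIntegral (Algebra.adjoin K {(x : F)⁻¹}) g) :
    ∃ (N : ℕ) (u : Fin d → K[X]), (weights A).wdeg u ≤ N * (weights A).d ∧
      g = (x : F)⁻¹ ^ N * ev (x : F) (fun i => (A.f i : F)) u := by
  classical
  rcases eq_or_ne g 0 with rfl | hg0
  · refine ⟨0, 0, ?_, ?_⟩
    · rw [Weights.wdeg_zero]
      exact Nat.zero_le _
    · rw [ev_zero, mul_zero]
  have hx0 : (x : F) ≠ 0 := ne_zero_of_poleOrd hd hx
  have hxP : P.ord (x : F) = -(d : ℤ) := ord_eq_neg_of_poleOrd hx₀ x.2 hd hx
  -- the places where `1/x` is regular are regular for `g`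
  have hreg : ∀ v : Place K F, v.ord (x : F) ≤ 0 → 0 ≤ v.ord g := by
    intro v hv
    have h1 : (x : F)⁻¹ ∈ v.toValuationSubring := by
      rw [← Fermat.Agent.S24.ZP.ord_nonneg_iff v (inv_ne_zero hx0), v.ord_inv]
      omega
    have := Fermat.Agent.S24.ZP.integralClosure_le_place (x : F)⁻¹ v h1 ⟨g, hg⟩
    exact (Fermat.Agent.S24.ZP.ord_nonneg_iff v hg0).mpr this
  -- the divisor of `x`
  haveI := hasPrincipalDivisors_cz hx₀
  obtain ⟨D, hD, -⟩ := HasPrincipalDivisors.exists_divisor (K := K) (x : F) hx0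
  set N : ℕ := ∑ v ∈ D.support, (-(v.ord g)).toNat with hN
  have hNle : ∀ v : Place K F, 0 < v.ord (x : F) → -(v.ord g) ≤ (N : ℤ) := by
    intro v hv
    have hmem : v ∈ D.support := by
      rw [Finsupp.mem_support_iff, hD v]
      omega
    have h1 : (-(v.ord g)).toNat ≤ N :=
      Finset.single_le_sum (f := fun v : Place K F => (-(v.ord g)).toNat)
        (fun _ _ => Nat.zero_le _) hmem
    have h2 : -(v.ord g) ≤ ((-(v.ord g)).toNat : ℤ) := Int.self_le_toNat _
    have h3 : (((-(v.ord g)).toNat : ℕ) : ℤ) ≤ (N : ℤ) := by exact_mod_cast h1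
    omega
  have hpow0 : (x : F) ^ N ≠ 0 := pow_ne_zero N hx0
  have hb0 : (x : F) ^ N * g ≠ 0 := mul_ne_zero hpow0 hg0
  have hord : ∀ v : Place K F, v.ord ((x : F) ^ N * g) = N * v.ord (x : F) + v.ord g := by
    intro v
    rw [v.ord_mul hpow0 hg0, Fermat.Agent.S24.ZP.ord_pow]
  have hbB : (x : F) ^ N * g ∈ regularOff P := by
    rw [mem_regularOff_iff_ord]
    intro v hv
    rw [hord v]
    have hvx : 0 ≤ v.ord (x : F) := (ord_nonneg_iff_of_poleOrd hx₀ x.2 hd hx v).mpr hv
    rcases hvx.lt_or_eq with hpos | hzero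
    · have h1 := hNle v hpos
      have h2 : (N : ℤ) * 1 ≤ (N : ℤ) * v.ord (x : F) :=
        mul_le_mul_of_nonneg_left (by omega) (Int.natCast_nonneg N)
      omega
    · have := hreg v (by omega)
      rw [← hzero, mul_zero, zero_add]
      exact this
  obtain ⟨u, hu⟩ := A.combo_surjective ⟨(x : F) ^ N * g, hbB⟩
  have hu0 : u ≠ 0 := by
    rintro rfl
    rw [A.combo_eq_zero_iff.mpr rfl] at hu
    exact hb0 (congrArg Subtype.val hu).symm
  have hev : ev (x : F) (fun i => (A.f i : F)) u = (x : F) ^ N * g := by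
    rw [← coe_combo, hu]
  refine ⟨N, u, ?_, ?_⟩
  · have h1 := ord_ev hx₀ hd x hx A hu0
    rw [hev, hord P, hxP] at h1
    have h2 := hreg P (by omega)
    have h3 : ((weights A).wdeg u : ℤ) ≤ (N : ℤ) * (d : ℤ) := by
      have : (N : ℤ) * -(d : ℤ) = -((N : ℤ) * (d : ℤ)) := by ring
      omega
    rw [weights_d]
    exact_mod_cast h3
  · rw [hev, inv_pow, ← mul_assoc, inv_mul_cancel₀ hpow0, one_mul]

end Ticket

/-! ### Packaged form -/

section Packaged

open AlgebraicCurve IntermediateField Fermat.Agent.S27x.Spec.AperyRR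

variable {K F : Type*} [Field K] [Field F] [Algebra K F]

/-- A weighted model of the function field `F / K` at the place `P`: a function `x` whose only
pole is `P`, of order `d`, a `K[x]`-basis `f` of the ring of functions regular outside `P` with
weighted structure constants `PK`, and the dictionary with integrality over `K[x]`, `K[1/x]`. -/
structure ModelAt (P : Place K F) (d : ℕ) where
  /-- the coordinate: a function whose only pole is `P` -/
  x : F
  /-- the weights -/
  W : Weights (Fin d)
  /-- the `K[x]`-basis -/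
  f : Fin d → F
  /-- the index of `1` -/
  i₀ : Fin d
  /-- the structure constants -/
  PK : Fin d → Fin d → Fin d → K[X]
  W_d : W.d = d
  model : IsModel W x f i₀ PK
  pole_iff : ∀ v : Place K F, v.ord x < 0 ↔ v = P
  ord_x : P.ord x = -(d : ℤ)
  transc : Transcendental K x
  fin : FiniteDimensional K⟮x⟯ F
  finrank_eq : Module.finrank K⟮x⟯ F = d
  ord_ev : ∀ u : Fin d → K[X], u ≠ 0 → P.ord (ev x f u) = -(W.wdeg u : ℤ)
  integral_iff : ∀ g : F, IsIntegral (Algebra.adjoin K {x}) g ↔ ∃ u : Fin d → K[X], g = ev x f u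
  integral_inv : ∀ g : F, IsIntegral (Algebra.adjoin K {x⁻¹}) g →
    ∃ (N : ℕ) (u : Fin d → K[X]), W.wdeg u ≤ N * W.d ∧ g = x⁻¹ ^ N * ev x f u

variable [IsAlgClosed K] [CharZero K] {x₀ : F} (hx₀ : Transcendental K x₀)
  [FiniteDimensional K⟮x₀⟯ F]
include hx₀

/-- Every positive pole number `d` of `P` carries a weighted model. -/
theorem nonempty_modelAt (P : Place K F) {d : ℕ} (hd : 0 < d) (hdH : d ∈ poleNumbers P) :
    Nonempty (ModelAt P d) := by
  obtain ⟨x, hx, ⟨A0⟩⟩ := exists_aperyData hx₀ P hd hdH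
  have h1 := Fermat.Agent.S27x.Spec.AperyRed.normalize_f_zero A0
  set A := Fermat.Agent.S27x.Spec.AperyRed.normalize A0 with hA
  exact ⟨{
    x := (x : F)
    W := weights A
    f := fun i => (A.f i : F)
    i₀ := A.zero
    PK := A.sc
    W_d := rfl
    model := isModel_of_ticket hx₀ hd x hx A h1
    pole_iff := ord_neg_iff_of_poleOrd hx₀ x.2 hd hx
    ord_x := ord_eq_neg_of_poleOrd hx₀ x.2 hd hx
    transc := transcendental_of_poleOrd hx₀ x.2 hd hx
    fin := finiteDimensional_of_poleOrd hx₀ x.2 hd hx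
    finrank_eq := finrank_of_poleOrd hx₀ x.2 hd hx
    ord_ev := fun u hu => ord_ev hx₀ hd x hx A hu
    integral_iff := fun g => ⟨fun hg => exists_eq_ev_of_isIntegral hx₀ hd x hx A hg, by
      rintro ⟨u, rfl⟩
      exact isIntegral_ev hx₀ hd x hx A u⟩
    integral_inv := fun g hg => exists_eq_inv_pow_mul_ev_of_isIntegral hx₀ hd x hx A hg }⟩

/-- **Every place carries a weighted model** (with `d = 2g + 1`, say). -/
theorem exists_modelAt (P : Place K F) : ∃ d : ℕ, 0 < d ∧ Nonempty (ModelAt P d) := by
  obtain ⟨d, hd, hdH⟩ := exists_pos_mem_poleNumbers hx₀ P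
  exact ⟨d, hd, nonempty_modelAt hx₀ P hd hdH⟩

end Packaged

end Fermat.Agent.S27x.Spec.AperyModel
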