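import Fermat.Agent.S27x.Spec.Adm
import Fermat.Agent.S27x.Spec.AperyModel
import Fermat.Agent.S27x.Spec.GaussNorm.Residue

/-!
# P-S27 block D (D8, helper95): from the Apéry model over `K` to the integral model over `A`

For a weighted model `M : ModelAt P d` of `F / K` (block D2, helper32/helper35) the conditions
(A1) "all coefficients of the structure constants lie in `A`" and (A2) "the top leading
coefficients are units of `A`" hold for every sufficiently general admissible valuation ring `A`
(`ev_integralCond`).  Under them `gaussData M hc : GaussNorm.AperyData A F (Fin d)` is the input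
of block D3 (helper2), and `gaussRedSetup M hc h` is the resulting `Gateway.C0.RedSetup`.
-/

set_option autoImplicit false
set_option linter.unusedSectionVars false

noncomputable section

open Polynomial IsLocalRing AlgebraicCurve

namespace Fermat.Agent.S27x.Spec

open Fermat.Agent.S27x.Spec.GaussNorm Fermat.Agent.S27x.Spec.AperyModel

variable {K F : Type*} [Field K] [Field F] [Algebra K F] {P : Place K F} {d : ℕ}

/-- Conditions (A1) + (A2) of the design: the structure constants of the model have coefficients
in `A`, the top ones have unit leading coefficient. -/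
def IntegralCond (M : ModelAt P d) (A : ValuationSubring K) : Prop :=
  (∀ i j l n, (M.PK i j l).coeff n ∈ A) ∧
    ∀ i j, ∃ l, A.valuation (M.PK i j l).leadingCoeff = 1 ∧
      M.W.d * (M.PK i j l).natDegree + M.W.m l = M.W.m i + M.W.m j

/-- (A1) + (A2) hold for every sufficiently general admissible valuation ring. -/
theorem ev_integralCond (k : Type*) [Field k] [Algebra k K] (M : ModelAt P d) :
    Ev k (fun (A : ValuationSubring K) _ => IntegralCond M A) := by
  refine Ev.and ?_ ?_
  · refine Ev.forall_finite fun i => Ev.forall_finite fun j => Ev.forall_finite fun l => ?_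
    exact ev_coeff_mem (M.PK i j l)
  · refine Ev.forall_finite fun i => Ev.forall_finite fun j => ?_
    obtain ⟨l, hl, hdeg⟩ := M.model.sc.top i j
    refine (ev_valuation_eq_one (k := k) hl.ne_zero).mono fun A _ hA => ⟨l, hA, hdeg⟩

section gauss

variable (M : ModelAt P d) {A : ValuationSubring K} (hc : IntegralCond M A)

/-- The integral Apéry model over `A` (input of block D3). -/
def gaussData : AperyData A F (Fin d) :=
  AperyData.ofK A M.W M.x M.f M.i₀ M.PK M.model hc.1 hc.2

@[simp] theorem gaussData_W : (gaussData M hc).W = M.W := rfl
@[simp] theorem gaussData_x : (gaussData M hc).x = M.x := rfl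
@[simp] theorem gaussData_f : (gaussData M hc).f = M.f := rfl
@[simp] theorem gaussData_i₀ : (gaussData M hc).i₀ = M.i₀ := rfl

theorem gaussData_P_map (i j l : Fin d) :
    ((gaussData M hc).P i j l).map (algebraMap A K) = M.PK i j l :=
  AperyData.ofK_P_map A M.W M.x M.f M.i₀ M.PK M.model hc.1 hc.2 i j l

variable {k : Type*} [Field k] [Algebra k K] (h : Adm k A)

/-- The residue field of the Gauss valuation ring, as a `k`-algebra. -/
@[reducible] def gaussAlgebra : Algebra k (gaussData M hc).κ :=
  (gaussData M hc).resAlgebra h.π h.π_surj

/-- The `Gateway.C0.RedSetup` of the integral model. -/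
def gaussRedSetup :
    letI := gaussAlgebra M hc h
    Fermat.Agent.Gateway.C0.RedSetup A (gaussData M hc).O k (gaussData M hc).κ :=
  letI := gaussAlgebra M hc h
  (gaussData M hc).redSetup ((gaussData M hc).resAlgebra_compat h.π h.π_surj) h.π_surj
    h.rank_one h.exists_ne_zero

/-- The reduced model `B0bar = ⊕ k[x̄] f̄_i`. -/
theorem gaussModelb :
    letI := gaussAlgebra M hc h
    IsModel M.W (gaussData M hc).xb (gaussData M hc).fb M.i₀
      (fun i j l => ((gaussData M hc).P i j l).map h.π) :=
  letI := gaussAlgebra M hc h
  (gaussData M hc).modelb ((gaussData M hc).resAlgebra_compat h.π h.π_surj) h.π_surj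

end gauss

end Fermat.Agent.S27x.Spec
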