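import Fermat.Agent.S27x.Spec.Model
import Fermat.Agent.S27x.Spec.StepModel

/-!
# P-S27 block D (D8, helper95): assembly of the specialisation step (T1)

`t1Trans_of_blocks : NormalProp → LiftProp → T1Trans`, where

* `NormalProp` (block D4): for every weighted model `M : ModelAt P d` of `F / K`, every
  sufficiently general admissible valuation ring `A` gives a reduction `κ` which is NORMAL:
  every element of `κ` integral over `k[x̄]` is `ev x̄ f̄ ū` (T-norm), and the genus does not drop.
* `LiftProp` (block D7): for every good model the specialisation map `Model.sp` is surjective on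
  `n`-torsion.

Everything else (D1, D2, D3, D5, D6) is already consumed here.
-/

set_option autoImplicit false
set_option linter.unusedSectionVars false
set_option linter.style.haveILetI false

noncomputable section

open Polynomial IsLocalRing IntermediateField Module AlgebraicCurve

namespace Fermat.Agent.S27x.Spec

open Fermat.Agent.S27x.Spec.GaussNorm Fermat.Agent.S27x.Spec.AperyModel
  Fermat.Agent.S27x.Contract

universe u v

/-- The output of block D4 for one integral Apéry model: the reduction is normal (T-norm) and the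
genus does not drop. -/
structure NormalOut {K : Type u} [Field K] {A : ValuationSubring K} {F : Type v} [Field F]
    [Algebra K F] {ι : Type*} [Fintype ι] (D : AperyData A F ι) (k : Type u) [Field k]
    [Algebra k D.κ] : Prop where
  tnorm : ∀ b : D.κ, IsIntegral (Algebra.adjoin k {D.xb}) b → ∃ u : ι → k[X], b = ev D.xb D.fb u
  genus_le : genusFF K F ≤ genusFF k D.κ

/-- **Block D4**, in the form consumed by D8. -/
def NormalProp : Prop :=
  ∀ (K : Type u) [Field K] [IsAlgClosed K] [CharZero K] (k : Type u) [Field k] [IsAlgClosed k]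
    [CharZero k] [Algebra k K] (F : Type v) [Field F] [Algebra K F] (P : Place K F) (d : ℕ)
    (M : ModelAt P d),
    Ev k (fun (A : ValuationSubring K) (h : Adm k A) => ∀ hc : IntegralCond M A,
      letI := gaussAlgebra M hc h
      NormalOut (gaussData M hc) k)

/-- **Block D7**, in the form consumed by D8: the specialisation map of a good model is surjective
on `n`-torsion. -/
def LiftProp : Prop :=
  ∀ (K : Type u) [Field K] [IsAlgClosed K] [CharZero K] (A : ValuationSubring K)
    (F : Type v) [Field F] [Algebra K F] (ι : Type) [Fintype ι]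
    (D : AperyData A F ι) (_hcard : Fintype.card ι = D.W.d)
    (k : Type u) [Field k] [IsAlgClosed k] [CharZero k] [Algebra k D.κ]
    (π : A →+* k) (hc : D.Compat π) (hπ : Function.Surjective π)
    (hr : ∀ x ∈ maximalIdeal A, ∀ c : A, c ≠ 0 → ∃ j : ℕ, c ∣ x ^ j)
    (hne : ∃ ϖ ∈ maximalIdeal A, ϖ ≠ 0)
    (_hB : ∀ g : F, IsIntegral (Algebra.adjoin K {D.x}) g → ∃ u : ι → K[X], g = ev D.x D.f u)
    (_hB' : ∀ g : F, IsIntegral (Algebra.adjoin K {D.x⁻¹}) g →
      ∃ (N : ℕ) (u : ι → K[X]), D.W.wdeg u ≤ N * D.W.d ∧ g = D.x⁻¹ ^ N * ev D.x D.f u)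
    (hN : NormalOut D k),
    ∀ n : ℕ, 0 < n → ∀ c' ∈ Pic0.torsion k D.κ n,
      ∃ c ∈ Pic0.torsion K F n, Model.sp D hc hπ hr hne hN.genus_le c = c'

/-- **Block D, assembled**: the specialisation step for transcendental `t`. -/
theorem t1Trans_of_blocks (hD4 : NormalProp.{u, v}) (hD7 : LiftProp.{u, v}) : T1Trans.{u, v} := by
  refine t1Trans_of_ev fun K _ _ _ k _ t F _ _ _ _ ht halg => ?_
  -- the generic fibre is a function field of one variable
  obtain ⟨x₀, hx₀, hfin, -⟩ :=
    Fermat.Agent.S27x.Glue.exists_transcendental_finiteDimensional (K := K) (F := F)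
  haveI := hfin
  haveI : CharZero k := algebraRat.charZero k
  -- a place and a weighted model at it
  obtain ⟨P⟩ := Fermat.Agent.Lib.RiemannRoch.nonempty_place_cz hx₀
  obtain ⟨d, -, ⟨M⟩⟩ := exists_modelAt hx₀ P
  -- the conditions on `A`
  refine ((ev_integralCond k M).and (hD4 K k F P d M)).mono fun A h hh => ?_
  obtain ⟨hc, hN⟩ := hh
  letI := gaussAlgebra M hc h
  have hN' := hN hc
  have hcp := (gaussData M hc).resAlgebra_compat h.π h.π_surj
  have hB : ∀ g : F, IsIntegral (Algebra.adjoin K {(gaussData M hc).x}) g →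
      ∃ u : Fin d → K[X], g = ev (gaussData M hc).x (gaussData M hc).f u :=
    fun g hg => (M.integral_iff g).mp hg
  have hB' : ∀ g : F, IsIntegral (Algebra.adjoin K {(gaussData M hc).x⁻¹}) g →
      ∃ (N : ℕ) (u : Fin d → K[X]), (gaussData M hc).W.wdeg u ≤ N * (gaussData M hc).W.d ∧
        g = (gaussData M hc).x⁻¹ ^ N * ev (gaussData M hc).x (gaussData M hc).f u :=
    fun g hg => M.integral_inv g hg
  exact Model.outcome (gaussData M hc) hcp h.π_surj h.rank_one h.exists_ne_zero hB hB'
    hN'.genus_le
    (hD7 K A F (Fin d) (gaussData M hc) (by rw [gaussData_W, M.W_d, Fintype.card_fin]) k h.π hcp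
      h.π_surj h.rank_one h.exists_ne_zero hB hB' hN')

end Fermat.Agent.S27x.Spec
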