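/-
P-S27, G4 foundation (helper94): extension of places with residue control.

Main results (Mathlib only):
* `exists_valuationSubring_ringHom_extends`: Chevalley's place extension theorem. For a subring
  `R` of a field `K` and a ring hom `φ : R →+* Ω` into an algebraically closed field there is a
  valuation subring `O ⊇ R` of `K` and `f : O →+* Ω` extending `φ` whose kernel is the maximal
  ideal of `O`.
-/
import Mathlib

set_option autoImplicit false

namespace Fermat.Agent.S27x.Spec

open Polynomial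

variable {K Ω : Type*} [Field K] [Field Ω]

/-- A subring of `K × Ω` is *functional* if it is the graph of a map from a subset of `K`. -/
def IsFunctional (G : Subring (K × Ω)) : Prop := ∀ x ∈ G, x.1 = 0 → x.2 = 0

lemma IsFunctional.snd_eq {G : Subring (K × Ω)} (hG : IsFunctional G) {x y : K × Ω}
    (hx : x ∈ G) (hy : y ∈ G) (h : x.1 = y.1) : x.2 = y.2 := by
  have := hG (x - y) (G.sub_mem hx hy) (by simp [h])
  simpa [sub_eq_zero] using this

lemma IsFunctional.fst_ne_zero {G : Subring (K × Ω)} (hG : IsFunctional G) {x : K × Ω}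
    (hx : x ∈ G) (h : x.2 ≠ 0) : x.1 ≠ 0 := fun h0 => h (hG x hx h0)

/-- the graph of a ring hom defined on a subring -/
def graph (R : Subring K) (φ : R →+* Ω) : Subring (K × Ω) :=
  (R.subtype.prod φ).range

lemma mem_graph {R : Subring K} {φ : R →+* Ω} {x : K × Ω} :
    x ∈ graph R φ ↔ ∃ r : R, (r : K) = x.1 ∧ φ r = x.2 := by
  unfold graph
  rw [RingHom.mem_range]
  constructor
  · rintro ⟨r, rfl⟩; exact ⟨r, rfl, rfl⟩
  · rintro ⟨r, h1, h2⟩; exact ⟨r, Prod.ext h1 h2⟩

lemma isFunctional_graph (R : Subring K) (φ : R →+* Ω) : IsFunctional (graph R φ) := by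
  intro x hx h0
  obtain ⟨r, h1, h2⟩ := mem_graph.mp hx
  have : r = 0 := Subtype.ext (h1.trans h0)
  rw [← h2, this, map_zero]

lemma isFunctional_sSup_of_chain {c : Set (Subring (K × Ω))} (hc : IsChain (· ≤ ·) c)
    (hne : c.Nonempty) (h : ∀ G ∈ c, IsFunctional G) : IsFunctional (sSup c) := by
  intro x hx h0
  obtain ⟨G, hGc, hxG⟩ := (Subring.mem_sSup_of_directedOn hne hc.directedOn).mp hx
  exact h G hGc x hxG h0

lemma exists_maximal_functional (G₀ : Subring (K × Ω)) (h₀ : IsFunctional G₀) :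
    ∃ G, G₀ ≤ G ∧ Maximal (IsFunctional (K := K) (Ω := Ω)) G := by
  refine zorn_le_nonempty₀ {G | IsFunctional G} ?_ G₀ h₀
  intro c hcs hc y hy
  exact ⟨sSup c, isFunctional_sSup_of_chain hc ⟨y, hy⟩ fun G hG => hcs hG,
    fun z hz => le_sSup hz⟩

/-- first coordinate hom on a subring of `K × Ω` -/
def c1 (G : Subring (K × Ω)) : G →+* K := (RingHom.fst K Ω).comp G.subtype

/-- second coordinate hom on a subring of `K × Ω` -/
def c2 (G : Subring (K × Ω)) : G →+* Ω := (RingHom.snd K Ω).comp G.subtype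

@[simp] lemma c1_apply (G : Subring (K × Ω)) (g : G) : c1 G g = (g : K × Ω).1 := rfl
@[simp] lemma c2_apply (G : Subring (K × Ω)) (g : G) : c2 G g = (g : K × Ω).2 := rfl

lemma c1_injective {G : Subring (K × Ω)} (hG : IsFunctional G) : Function.Injective (c1 G) := by
  intro g h e
  exact Subtype.ext (Prod.ext e (hG.snd_eq g.2 h.2 e))

/-- **Extension lemma.** Adjoining a point `(x, ω)` to a functional subring keeps it functional as
soon as every polynomial relation satisfied by `x` is satisfied by `ω`. -/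
lemma isFunctional_adjoin {G : Subring (K × Ω)} (x : K) (ω : Ω)
    (H : ∀ p : G[X], p.eval₂ (c1 G) x = 0 → p.eval₂ (c2 G) ω = 0) :
    IsFunctional (Algebra.adjoin G {((x, ω) : K × Ω)}).toSubring := by
  intro y hy h0
  rw [Subalgebra.mem_toSubring, Algebra.adjoin_singleton_eq_range_aeval] at hy
  obtain ⟨p, rfl⟩ := hy
  have e1 : (aeval ((x, ω) : K × Ω) p).1 = p.eval₂ (c1 G) x := by
    have := Polynomial.hom_eval₂ p (algebraMap G (K × Ω)) (RingHom.fst K Ω) (x, ω)
    rw [aeval_def]
    exact this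
  have e2 : (aeval ((x, ω) : K × Ω) p).2 = p.eval₂ (c2 G) ω := by
    have := Polynomial.hom_eval₂ p (algebraMap G (K × Ω)) (RingHom.snd K Ω) (x, ω)
    rw [aeval_def]
    exact this
  change (aeval ((x, ω) : K × Ω) p).2 = 0
  rw [e2]
  exact H p (by rw [← e1]; exact h0)

lemma mem_of_maximal {G : Subring (K × Ω)} (hG : Maximal (IsFunctional (K := K) (Ω := Ω)) G)
    (x : K) (ω : Ω) (H : ∀ p : G[X], p.eval₂ (c1 G) x = 0 → p.eval₂ (c2 G) ω = 0) :
    ((x, ω) : K × Ω) ∈ G := by
  have h1 : G ≤ (Algebra.adjoin G {((x, ω) : K × Ω)}).toSubring :=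
    fun g hg => (Algebra.adjoin G {((x, ω) : K × Ω)}).algebraMap_mem ⟨g, hg⟩
  have h2 := hG.eq_of_le (isFunctional_adjoin x ω H) h1
  rw [h2]
  exact Algebra.subset_adjoin rfl

/-- In a maximal functional subring, elements with nonzero second coordinate are invertible. -/
lemma inv_mem_of_maximal {G : Subring (K × Ω)} (hG : Maximal (IsFunctional (K := K) (Ω := Ω)) G)
    {g : K × Ω} (hg : g ∈ G) (h2 : g.2 ≠ 0) : ((g.1⁻¹, g.2⁻¹) : K × Ω) ∈ G := by
  have h1 : g.1 ≠ 0 := hG.prop.fst_ne_zero hg h2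
  refine mem_of_maximal hG _ _ fun p hp => ?_
  let _ : Invertible (g.1⁻¹) := invertibleOfNonzero (inv_ne_zero h1)
  let _ : Invertible (g.2⁻¹) := invertibleOfNonzero (inv_ne_zero h2)
  have i1 : ⅟(g.1⁻¹) = g.1 := by rw [invOf_eq_inv, inv_inv]
  have i2 : ⅟(g.2⁻¹) = g.2 := by rw [invOf_eq_inv, inv_inv]
  -- evaluate the reversed polynomial at `g` inside `G`
  have k1 := Polynomial.eval₂_reverse_mul_pow (c1 G) (g.1⁻¹) p
  have k2 := Polynomial.eval₂_reverse_mul_pow (c2 G) (g.2⁻¹) p
  rw [i1] at k1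
  rw [i2] at k2
  rw [hp] at k1
  have z1 : p.reverse.eval₂ (c1 G) g.1 = 0 := by
    rcases mul_eq_zero.mp k1 with h | h
    · exact h
    · exact absurd h (pow_ne_zero _ (inv_ne_zero h1))
  have z2 : p.reverse.eval₂ (c2 G) g.2 = 0 := by
    have a1 := Polynomial.eval₂_at_apply (p := p.reverse) (c1 G) (⟨g, hg⟩ : G)
    have a2 := Polynomial.eval₂_at_apply (p := p.reverse) (c2 G) (⟨g, hg⟩ : G)
    rw [c1_apply] at a1
    rw [c2_apply] at a2
    rw [a2]
    exact hG.prop _ (p.reverse.eval (⟨g, hg⟩ : G)).2 (a1.symm.trans z1)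
  rw [← k2, z2, zero_mul]

lemma ker_c2_isMaximal {G : Subring (K × Ω)}
    (hG : Maximal (IsFunctional (K := K) (Ω := Ω)) G) : (RingHom.ker (c2 G)).IsMaximal := by
  rw [Ideal.isMaximal_iff]
  refine ⟨fun h => ?_, fun J g _ hg hgJ => ?_⟩
  · rw [RingHom.mem_ker, map_one] at h
    exact one_ne_zero h
  · rw [RingHom.mem_ker, c2_apply] at hg
    have hmem := inv_mem_of_maximal hG g.2 hg
    have h1 : (g : K × Ω).1 ≠ 0 := hG.prop.fst_ne_zero g.2 hg
    have : (1 : G) = (⟨_, hmem⟩ : G) * g := by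
      apply Subtype.ext
      apply Prod.ext
      · simp [inv_mul_cancel₀ h1]
      · simp [inv_mul_cancel₀ hg]
    rw [this]
    exact J.mul_mem_left _ hgJ

/-- A proper ideal of `κ[X]` has a common root in any algebraically closed extension. -/
lemma exists_common_root {κ : Type*} [Field κ] [IsAlgClosed Ω] (ι : κ →+* Ω) (𝔟 : Ideal κ[X])
    (hb : 𝔟 ≠ ⊤) : ∃ ω : Ω, ∀ q ∈ 𝔟, (q.map ι).IsRoot ω := by
  let d := Submodule.IsPrincipal.generator 𝔟
  have hd : Ideal.span {d} = 𝔟 := Ideal.span_singleton_generator 𝔟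
  have hdu : ¬ IsUnit d := fun h => hb (by rw [← hd]; exact Ideal.span_singleton_eq_top.mpr h)
  have hroot : ∃ ω : Ω, (d.map ι).IsRoot ω := by
    by_cases h0 : d = 0
    · exact ⟨0, by rw [h0, Polynomial.map_zero]; exact Polynomial.eval_zero⟩
    · refine IsAlgClosed.exists_root _ ?_
      rw [Polynomial.degree_map]
      intro hdeg
      exact hdu (Polynomial.isUnit_iff_degree_eq_zero.mpr hdeg)
  obtain ⟨ω, hω⟩ := hroot
  refine ⟨ω, fun q hq => ?_⟩
  rw [← hd, Ideal.mem_span_singleton] at hq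
  exact hω.dvd (Polynomial.map_dvd ι hq)

/-- **Root lemma.** If no relation of `x` over `G` reduces to `1`, the relations of `x` have a
common root in the algebraically closed field `Ω`. -/
lemma exists_root_of_maximal [IsAlgClosed Ω] {G : Subring (K × Ω)}
    (hG : Maximal (IsFunctional (K := K) (Ω := Ω)) G) (x : K)
    (hx : ∀ P : G[X], P.eval₂ (c1 G) x = 0 → P.map (c2 G) ≠ 1) :
    ∃ ω : Ω, ∀ p : G[X], p.eval₂ (c1 G) x = 0 → p.eval₂ (c2 G) ω = 0 := by
  classical
  have hmax := ker_c2_isMaximal hG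
  let 𝔪 := RingHom.ker (c2 G)
  let ι : (G ⧸ 𝔪) →+* Ω := RingHom.kerLift (c2 G)
  have hι : ι.comp (Ideal.Quotient.mk 𝔪) = c2 G := by
    ext g; rfl
  let Ix : Ideal G[X] := RingHom.ker (Polynomial.eval₂RingHom (c1 G) x)
  let 𝔟 : Ideal (G ⧸ 𝔪)[X] := Ix.map (Polynomial.mapRingHom (Ideal.Quotient.mk 𝔪))
  have hsurj : Function.Surjective (Polynomial.mapRingHom (Ideal.Quotient.mk 𝔪)) :=
    Polynomial.map_surjective _ Ideal.Quotient.mk_surjective
  have hb : 𝔟 ≠ ⊤ := by
    intro htop
    have h1 : (1 : (G ⧸ 𝔪)[X]) ∈ 𝔟 := by rw [htop]; trivial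
    obtain ⟨P, hP, hP1⟩ := (Ideal.mem_map_iff_of_surjective _ hsurj).mp h1
    refine hx P ?_ ?_
    · simpa [Ix, RingHom.mem_ker] using hP
    · have : (P.map (Ideal.Quotient.mk 𝔪)).map ι = 1 := by
        rw [show P.map (Ideal.Quotient.mk 𝔪) = 1 from hP1, Polynomial.map_one]
      rwa [Polynomial.map_map, hι] at this
  obtain ⟨ω, hω⟩ := @exists_common_root Ω _ (G ⧸ 𝔪) (Ideal.Quotient.field 𝔪) _ ι 𝔟 hb
  refine ⟨ω, fun p hp => ?_⟩
  have hpI : p ∈ Ix := by simpa [Ix, RingHom.mem_ker] using hp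
  have hmem : Polynomial.mapRingHom (Ideal.Quotient.mk 𝔪) p ∈ 𝔟 := Ideal.mem_map_of_mem _ hpI
  have h3 := hω _ hmem
  rw [Polynomial.coe_mapRingHom, Polynomial.map_map, hι] at h3
  rw [Polynomial.eval₂_eq_eval_map]
  exact h3

/-- the domain of definition of a functional subring -/
def dom (G : Subring (K × Ω)) : Subring K := G.map (RingHom.fst K Ω)

lemma mem_dom {G : Subring (K × Ω)} {a : K} : a ∈ dom G ↔ ∃ ω : Ω, ((a, ω) : K × Ω) ∈ G := by
  unfold dom
  rw [Subring.mem_map]
  constructor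
  · rintro ⟨g, hg, rfl⟩; exact ⟨g.2, hg⟩
  · rintro ⟨ω, h⟩; exact ⟨(a, ω), h, rfl⟩

/-- `G → dom G` -/
def toDom (G : Subring (K × Ω)) : G →+* dom G :=
  (c1 G).codRestrict (dom G) fun g => mem_dom.mpr ⟨(g : K × Ω).2, g.2⟩

@[simp] lemma coe_toDom (G : Subring (K × Ω)) (g : G) : (toDom G g : K) = (g : K × Ω).1 := rfl

lemma toDom_bijective {G : Subring (K × Ω)} (hG : IsFunctional G) :
    Function.Bijective (toDom G) := by
  constructor
  · intro g h e
    exact c1_injective hG (congrArg Subtype.val e)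
  · rintro ⟨a, ha⟩
    obtain ⟨ω, h⟩ := mem_dom.mp ha
    exact ⟨⟨_, h⟩, rfl⟩

/-- the ring isomorphism `G ≃ dom G` of a functional subring -/
noncomputable def domEquiv {G : Subring (K × Ω)} (hG : IsFunctional G) : G ≃+* dom G :=
  RingEquiv.ofBijective (toDom G) (toDom_bijective hG)

/-- the ring hom `dom G → Ω` whose graph is `G` -/
noncomputable def placeHom {G : Subring (K × Ω)} (hG : IsFunctional G) : dom G →+* Ω :=
  (c2 G).comp (domEquiv hG).symm.toRingHom

lemma placeHom_toDom {G : Subring (K × Ω)} (hG : IsFunctional G) (g : G) :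
    placeHom hG (toDom G g) = (g : K × Ω).2 := by
  change c2 G ((domEquiv hG).symm (domEquiv hG g)) = _
  rw [RingEquiv.symm_apply_apply, c2_apply]

lemma placeHom_apply {G : Subring (K × Ω)} (hG : IsFunctional G) {a : K} {ω : Ω}
    (h : ((a, ω) : K × Ω) ∈ G) : placeHom hG ⟨a, mem_dom.mpr ⟨ω, h⟩⟩ = ω :=
  placeHom_toDom hG ⟨_, h⟩

lemma mem_of_placeHom_eq {G : Subring (K × Ω)} (hG : IsFunctional G) (a : dom G) :
    (((a : K), placeHom hG a) : K × Ω) ∈ G := by
  obtain ⟨g, rfl⟩ := (toDom_bijective hG).2 a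
  rw [placeHom_toDom]
  exact g.2

lemma isUnit_iff_placeHom_ne_zero {G : Subring (K × Ω)}
    (hG : Maximal (IsFunctional (K := K) (Ω := Ω)) G) (a : dom G) :
    IsUnit a ↔ placeHom hG.prop a ≠ 0 := by
  constructor
  · intro h
    exact (h.map (placeHom hG.prop)).ne_zero
  · intro h
    have hmem := mem_of_placeHom_eq hG.prop a
    have hinv := inv_mem_of_maximal hG hmem h
    have h1 : (a : K) ≠ 0 := hG.prop.fst_ne_zero hmem h
    refine isUnit_iff_exists_inv.mpr ⟨⟨(a : K)⁻¹, mem_dom.mpr ⟨_, hinv⟩⟩, ?_⟩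
    apply Subtype.ext
    simp [mul_inv_cancel₀ h1]

lemma isLocalRing_dom {G : Subring (K × Ω)}
    (hG : Maximal (IsFunctional (K := K) (Ω := Ω)) G) : IsLocalRing (dom G) := by
  refine IsLocalRing.of_nonunits_add fun a b ha hb => ?_
  rw [mem_nonunits_iff, isUnit_iff_placeHom_ne_zero hG, not_not] at ha hb ⊢
  rw [map_add, ha, hb, add_zero]

lemma mem_maximalIdeal_dom_iff {G : Subring (K × Ω)}
    (hG : Maximal (IsFunctional (K := K) (Ω := Ω)) G) (a : dom G) :
    letI := isLocalRing_dom hG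
    a ∈ IsLocalRing.maximalIdeal (dom G) ↔ placeHom hG.prop a = 0 := by
  letI := isLocalRing_dom hG
  rw [IsLocalRing.mem_maximalIdeal, mem_nonunits_iff, isUnit_iff_placeHom_ne_zero hG, not_not]

/-- the local subring attached to a maximal functional subring -/
def domLocal {G : Subring (K × Ω)}
    (hG : Maximal (IsFunctional (K := K) (Ω := Ω)) G) : LocalSubring K :=
  @LocalSubring.mk K _ (dom G) (isLocalRing_dom hG)

lemma isMax_domLocal [IsAlgClosed Ω] {G : Subring (K × Ω)}
    (hG : Maximal (IsFunctional (K := K) (Ω := Ω)) G) : IsMax (domLocal hG) := by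
  intro 𝔅 hle
  obtain ⟨h, hloc⟩ := hle
  suffices hB : 𝔅.toSubring ≤ dom G by
    have : domLocal hG = 𝔅 := LocalSubring.toSubring_injective (le_antisymm h hB)
    exact this ▸ le_rfl
  intro x hxB
  letI : IsLocalRing (dom G) := isLocalRing_dom hG
  have hloc' : IsLocalHom (Subring.inclusion (show dom G ≤ 𝔅.toSubring from h)) := hloc
  have hx : ∀ P : G[X], P.eval₂ (c1 G) x = 0 → P.map (c2 G) ≠ 1 := by
    intro P hP0 hP1
    let ψ : G →+* 𝔅.toSubring := (Subring.inclusion (show dom G ≤ 𝔅.toSubring from h)).comp (toDom G)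
    let xB : 𝔅.toSubring := ⟨x, hxB⟩
    have hE0 : P.eval₂ ψ xB = 0 := by
      apply Subtype.ext
      have := Polynomial.hom_eval₂ P ψ 𝔅.toSubring.subtype xB
      rw [Subring.subtype_apply] at this
      rw [this]
      exact hP0
    have hcoeff : ∀ i, ψ ((P - 1).coeff i) ∈ IsLocalRing.maximalIdeal 𝔅.toSubring := by
      intro i
      have h0 : c2 G ((P - 1).coeff i) = 0 := by
        have : (P - 1).map (c2 G) = 0 := by rw [Polynomial.map_sub, hP1, Polynomial.map_one, sub_self]
        have := congrArg (fun q => q.coeff i) this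
        rw [Polynomial.coeff_map] at this
        simpa using this
      have h1 : toDom G ((P - 1).coeff i) ∈ IsLocalRing.maximalIdeal (dom G) := by
        rw [mem_maximalIdeal_dom_iff hG, placeHom_toDom]
        exact h0
      rw [IsLocalRing.mem_maximalIdeal] at h1 ⊢
      exact (map_mem_nonunits_iff
        (Subring.inclusion (show dom G ≤ 𝔅.toSubring from h)) _).mpr h1
    have hE1 : (P - 1).eval₂ ψ xB ∈ IsLocalRing.maximalIdeal 𝔅.toSubring := by
      rw [Polynomial.eval₂_eq_sum_range]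
      exact Ideal.sum_mem _ fun i _ => Ideal.mul_mem_right _ _ (hcoeff i)
    rw [Polynomial.eval₂_sub, hE0, Polynomial.eval₂_one, zero_sub] at hE1
    have : (1 : 𝔅.toSubring) ∈ IsLocalRing.maximalIdeal 𝔅.toSubring := by
      simpa using Ideal.neg_mem_iff _ |>.mp hE1
    exact (Ideal.ne_top_iff_one _).mp (IsLocalRing.maximalIdeal.isMaximal _).ne_top this
  obtain ⟨ω, hω⟩ := exists_root_of_maximal hG x hx
  exact mem_dom.mpr ⟨ω, mem_of_maximal hG x ω hω⟩

lemma mem_or_inv_mem_dom [IsAlgClosed Ω] {G : Subring (K × Ω)}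
    (hG : Maximal (IsFunctional (K := K) (Ω := Ω)) G) (x : K) : x ∈ dom G ∨ x⁻¹ ∈ dom G := by
  obtain ⟨O, hO⟩ := LocalSubring.exists_valuationRing_of_isMax (isMax_domLocal hG)
  have h : O.toSubring = dom G := congrArg LocalSubring.toSubring hO
  rw [← h]
  exact O.mem_or_inv_mem x

/-- the valuation subring attached to a maximal functional subring -/
def domValuationSubring [IsAlgClosed Ω] {G : Subring (K × Ω)}
    (hG : Maximal (IsFunctional (K := K) (Ω := Ω)) G) : ValuationSubring K :=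
  { dom G with mem_or_inv_mem' := mem_or_inv_mem_dom hG }

/-- **Chevalley's place extension theorem.** A ring hom from a subring `R` of a field `K` to an
algebraically closed field `Ω` extends to a valuation subring `O ⊇ R` of `K`, in such a way that
the kernel of the extension is the maximal ideal of `O` (so the residue field of `O` embeds into
`Ω`). -/
theorem exists_valuationSubring_ringHom_extends [IsAlgClosed Ω] (R : Subring K) (φ : R →+* Ω) :
    ∃ (O : ValuationSubring K) (hRO : R ≤ O.toSubring) (f : O →+* Ω),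
      (∀ r : R, f ⟨r, hRO r.2⟩ = φ r) ∧ ∀ a : O, f a = 0 ↔ a ∈ IsLocalRing.maximalIdeal O := by
  obtain ⟨G, hle, hG⟩ := exists_maximal_functional (graph R φ) (isFunctional_graph R φ)
  have hmemG : ∀ r : R, (((r : K), φ r) : K × Ω) ∈ G := fun r =>
    hle (mem_graph.mpr ⟨r, rfl, rfl⟩)
  have hRO : R ≤ (domValuationSubring hG).toSubring := fun r hr =>
    mem_dom.mpr ⟨φ ⟨r, hr⟩, hmemG ⟨r, hr⟩⟩
  refine ⟨domValuationSubring hG, hRO, placeHom hG.prop, fun r => ?_, fun a => ?_⟩
  · exact placeHom_apply hG.prop (hmemG r)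
  · exact (mem_maximalIdeal_dom_iff hG a).symm

/-- Weak Nullstellensatz: a nontrivial finitely generated algebra over an algebraically closed
field has a rational point. -/
lemma nonempty_algHom_of_finiteType (k A : Type*) [Field k] [IsAlgClosed k] [CommRing A]
    [Nontrivial A] [Algebra k A] [Algebra.FiniteType k A] : Nonempty (A →ₐ[k] k) := by
  obtain ⟨M, hM⟩ := Ideal.exists_maximal A
  letI : Field (A ⧸ M) := Ideal.Quotient.field M
  haveI : Algebra.FiniteType k (A ⧸ M) :=
    Algebra.FiniteType.of_surjective (Ideal.Quotient.mkₐ k M) (Ideal.Quotient.mkₐ_surjective k M)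
  haveI : Module.Finite k (A ⧸ M) := finite_of_finite_type_of_isJacobsonRing k (A ⧸ M)
  have hbij : Function.Bijective (algebraMap k (A ⧸ M)) :=
    IsAlgClosed.algebraMap_bijective_of_isIntegral
  let e : k ≃ₐ[k] (A ⧸ M) := AlgEquiv.ofBijective (Algebra.ofId k (A ⧸ M)) hbij
  exact ⟨e.symm.toAlgHom.comp (Ideal.Quotient.mkₐ k M)⟩

/-- **Specialisation point, `G4` shape.** `k ⊆ K` fields, `k` algebraically closed, `R ⊆ K` a
finitely generated `k`-subalgebra and `d ∈ R` nonzero. Then there is a valuation subring `O` of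
`K` containing `R` in which `d` is a unit and whose residue field is `k`: there is a ring hom
`f : O → k` which is the identity on `k` and whose kernel is the maximal ideal. -/
theorem exists_valuationSubring_of_fg {k K : Type*} [Field k] [Field K] [Algebra k K]
    [IsAlgClosed k] (R : Subalgebra k K) (hR : R.FG) (d : K) :
    ∃ (O : ValuationSubring K) (f : O →+* k), R.toSubring ≤ O.toSubring ∧ d⁻¹ ∈ O ∧
      (∀ (c : k) (hc : algebraMap k K c ∈ O), f ⟨_, hc⟩ = c) ∧
      (∀ c : k, algebraMap k K c ∈ O) ∧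
      ∀ a : O, f a = 0 ↔ a ∈ IsLocalRing.maximalIdeal O := by
  classical
  let R' : Subalgebra k K := R ⊔ Algebra.adjoin k {d⁻¹}
  have hfg : (Algebra.adjoin k ({d⁻¹} : Set K)).FG := by
    have := Subalgebra.fg_adjoin_finset (R := k) ({d⁻¹} : Finset K)
    simpa using this
  have hR' : R'.FG := hR.sup hfg
  haveI : Algebra.FiniteType k R' := (Subalgebra.fg_iff_finiteType R').mp hR'
  obtain ⟨φ⟩ := nonempty_algHom_of_finiteType k R'
  obtain ⟨O, hRO, f, hf1, hf2⟩ :=
    exists_valuationSubring_ringHom_extends (K := K) (Ω := k) R'.toSubring (φ : R' →+* k)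
  have hkO : ∀ c : k, algebraMap k K c ∈ O := fun c => hRO (R'.algebraMap_mem c)
  refine ⟨O, f, fun x hx => hRO ((le_sup_left : R ≤ R') hx), ?_, ?_, hkO, hf2⟩
  · exact hRO ((le_sup_right : Algebra.adjoin k {d⁻¹} ≤ R') (Algebra.subset_adjoin rfl))
  · intro c hc
    have := hf1 ⟨algebraMap k K c, R'.algebraMap_mem c⟩
    rw [this]
    exact φ.commutes c

/-- Every monic polynomial over a valuation subring of an algebraically closed field has all
its roots in the valuation subring. -/
lemma exists_root_mem_of_monic (O : ValuationSubring K) {f : O[X]} (hf : f.Monic) {α : K}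
    (hα : (f.map (algebraMap O K)).eval α = 0) : ∃ a : O, (a : K) = α ∧ f.IsRoot a := by
  have hint : IsIntegral O α := ⟨f, hf, by rw [← Polynomial.eval_map]; exact hα⟩
  obtain ⟨a, ha⟩ := IsIntegrallyClosed.algebraMap_eq_of_integral hint
  refine ⟨a, ha, ?_⟩
  have hinj : Function.Injective (algebraMap O K) := IsFractionRing.injective O K
  apply hinj
  rw [map_zero, ← Polynomial.eval₂_at_apply, ← Polynomial.eval_map, ha]
  exact hα

/-- A valuation subring of an algebraically closed field is henselian (no completeness needed):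
a monic polynomial splits with all roots in `O`, and the maximal ideal is prime. -/
theorem henselianLocalRing_of_isAlgClosed [IsAlgClosed K] (O : ValuationSubring K) :
    HenselianLocalRing O := by
  refine ⟨fun f hf a₀ h₁ _ => ?_⟩
  have hsplit := IsAlgClosed.splits (f.map (algebraMap O K))
  have hmon : (f.map (algebraMap O K)).Monic := hf.map _
  have hev : ((f.eval a₀ : O) : K) =
      ((f.map (algebraMap O K)).roots.map fun α => (a₀ : K) - α).prod := by
    rw [← hsplit.eval_eq_prod_roots_of_monic hmon, Polynomial.eval_map]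
    exact (Polynomial.eval₂_at_apply (algebraMap O K) a₀).symm
  by_contra hcon
  push Not at hcon
  have hone : ∀ α ∈ (f.map (algebraMap O K)).roots, O.valuation ((a₀ : K) - α) = 1 := by
    intro α hα
    obtain ⟨a, rfl, ha⟩ := exists_root_mem_of_monic O hf
      ((Polynomial.mem_roots hmon.ne_zero).mp hα)
    have h1 := hcon a ha
    rw [O.valuation_lt_one_iff] at h1
    have h2 := (O.valuation_lt_one_or_eq_one (a - a₀)).resolve_left h1
    rw [← h2, ← Valuation.map_neg]
    congr 1
    push_cast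
    ring
  have h1' : O.valuation ((f.eval a₀ : O) : K) = 1 := by
    rw [hev, map_multiset_prod, Multiset.map_map]
    refine Multiset.prod_eq_one fun x hx => ?_
    obtain ⟨α, hα, rfl⟩ := Multiset.mem_map.mp hx
    exact hone α hα
  exact (ne_of_lt ((O.valuation_lt_one_iff _).mp h₁)) h1'

/-- Residue field `= k` in the elementwise form: every element of `O` is congruent to a constant
modulo the maximal ideal. -/
theorem exists_valuationSubring_of_fg' {k K : Type*} [Field k] [Field K] [Algebra k K]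
    [IsAlgClosed k] (R : Subalgebra k K) (hR : R.FG) (d : K) :
    ∃ O : ValuationSubring K, R.toSubring ≤ O.toSubring ∧ d⁻¹ ∈ O ∧
      (∀ c : k, algebraMap k K c ∈ O) ∧
      (∀ c : k, c ≠ 0 → algebraMap k K c ∉ O.nonunits) ∧
      ∀ a ∈ O, ∃ c : k, a - algebraMap k K c ∈ O.nonunits := by
  obtain ⟨O, f, hRO, hd, hf1, hkO, hf2⟩ := exists_valuationSubring_of_fg R hR d
  refine ⟨O, hRO, hd, hkO, fun c hc hmem => ?_, fun a ha => ⟨f ⟨a, ha⟩, ?_⟩⟩
  · have h1 : (⟨_, hkO c⟩ : O) ∈ IsLocalRing.maximalIdeal O := by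
      rw [O.valuation_lt_one_iff]
      exact O.mem_nonunits_iff.mp hmem
    rw [← hf2, hf1] at h1
    exact hc h1
  · have h1 : (⟨a, ha⟩ - ⟨_, hkO (f ⟨a, ha⟩)⟩ : O) ∈ IsLocalRing.maximalIdeal O := by
      rw [← hf2, map_sub, hf1, sub_self]
    rw [O.valuation_lt_one_iff] at h1
    exact O.mem_nonunits_iff.mpr h1

end Fermat.Agent.S27x.Spec
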