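/-
P-S27 block D4, local algebra (helper94).  Mathlib only.

* `isIntegrallyClosed_adjoinRoot`: Dedekind-criterion form of "all points of the plane curve
  `Q = 0` over the closed point of a DVR are regular": `R[X]/(Q)` is integrally closed.
* `mem_span_of_isIntegral_of_isUnit_discr`: unit discriminant implies maximal order.
-/
import Mathlib

set_option autoImplicit false

namespace Fermat.Agent.S27x.Spec.NormalLocal

open Polynomial IsLocalRing

section Principal

variable {C : Type*} [CommRing C] (𝔐 : Ideal C) [𝔐.IsPrime]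

/-- If `𝔐 = (p, q)` and `q * g = p * e` with `g ∉ 𝔐`, then `𝔐` becomes principal, generated by `p`,
in the localisation at `𝔐`. -/
lemma map_eq_span_left {p q g e : C} (h𝔐 : 𝔐 = Ideal.span {p, q}) (hrel : q * g = p * e)
    (hg : g ∉ 𝔐) :
    𝔐.map (algebraMap C (Localization.AtPrime 𝔐)) =
      Ideal.span {algebraMap C (Localization.AtPrime 𝔐) p} := by
  have hu : IsUnit (algebraMap C (Localization.AtPrime 𝔐) g) :=
    IsLocalization.map_units (Localization.AtPrime 𝔐) (⟨g, hg⟩ : 𝔐.primeCompl)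
  apply le_antisymm
  · rw [Ideal.map_le_iff_le_comap]
    refine h𝔐.le.trans (Ideal.span_le.mpr ?_)
    intro x hx
    rw [SetLike.mem_coe, Ideal.mem_comap]
    rcases hx with rfl | hx
    · exact Ideal.subset_span rfl
    · rw [Set.mem_singleton_iff] at hx
      subst hx
      rw [Ideal.mem_span_singleton]
      obtain ⟨u, hu'⟩ := hu
      refine ⟨algebraMap C _ e * ↑u⁻¹, ?_⟩
      have h1 : algebraMap C (Localization.AtPrime 𝔐) x * ↑u =
          algebraMap C (Localization.AtPrime 𝔐) p * algebraMap C _ e := by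
        rw [hu', ← map_mul, ← map_mul, hrel]
      calc algebraMap C (Localization.AtPrime 𝔐) x
          = algebraMap C (Localization.AtPrime 𝔐) x * ↑u * ↑u⁻¹ := by
            rw [mul_assoc, Units.mul_inv, mul_one]
        _ = _ := by rw [h1, mul_assoc]
  · rw [Ideal.span_le]
    rintro _ rfl
    refine Ideal.mem_map_of_mem _ ?_
    rw [h𝔐]
    exact Ideal.subset_span (by simp)

/-- symmetric version of `map_eq_span_left` -/
lemma map_eq_span_right {p q g e : C} (h𝔐 : 𝔐 = Ideal.span {p, q}) (hrel : q * g = p * e)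
    (he : e ∉ 𝔐) :
    𝔐.map (algebraMap C (Localization.AtPrime 𝔐)) =
      Ideal.span {algebraMap C (Localization.AtPrime 𝔐) q} := by
  have h𝔐' : 𝔐 = Ideal.span {q, p} := by rw [h𝔐, Set.pair_comm]
  exact map_eq_span_left 𝔐 h𝔐' hrel.symm he

end Principal

section AdjoinRoot

variable {R : Type*} [CommRing R] {Q : R[X]}

/-- Taylor expansion to first order in `R[X]/(Q)`. -/
lemma mk_eq_of_eval_add (g : R[X]) (a : R) :
    AdjoinRoot.mk Q g = AdjoinRoot.of Q (g.eval a) +
      (AdjoinRoot.root Q - AdjoinRoot.of Q a) * AdjoinRoot.mk Q (g /ₘ (X - C a)) := by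
  have h := Polynomial.modByMonic_add_div g (X - C a)
  rw [Polynomial.modByMonic_X_sub_C_eq_C_eval] at h
  conv_lhs => rw [← h]
  rw [map_add, map_mul, map_sub, AdjoinRoot.mk_C, AdjoinRoot.mk_X, AdjoinRoot.mk_C]

lemma eval_divByMonic_eq_derivative (g : R[X]) (a : R) :
    (g /ₘ (X - C a)).eval a = g.derivative.eval a := by
  have h := Polynomial.modByMonic_add_div g (X - C a)
  rw [Polynomial.modByMonic_X_sub_C_eq_C_eval] at h
  have h2 := congrArg (fun p => (Polynomial.derivative p).eval a) h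
  simp only [Polynomial.derivative_add, Polynomial.derivative_C, zero_add,
    Polynomial.derivative_mul, Polynomial.derivative_sub, Polynomial.derivative_X, sub_zero,
    one_mul, Polynomial.eval_add, Polynomial.eval_mul, Polynomial.eval_sub, Polynomial.eval_X,
    Polynomial.eval_C, sub_self, zero_mul, add_zero] at h2
  exact h2

end AdjoinRoot

section Dedekind

variable {R : Type*} [CommRing R] [IsDomain R] [IsDiscreteValuationRing R]
  {k : Type*} [Field k] (ρ : R →+* k) (hρ : Function.Surjective ρ)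
  {Q : R[X]} (hQ : Q.Monic)

include hρ in
lemma ker_eq_maximalIdeal : RingHom.ker ρ = maximalIdeal R :=
  eq_maximalIdeal (RingHom.ker_isMaximal_of_surjective ρ hρ)

include hQ in
/-- a maximal ideal of `R[X]/(Q)` lies over the maximal ideal of `R` -/
lemma comap_of_eq_maximalIdeal (𝔐 : Ideal (AdjoinRoot Q)) [𝔐.IsMaximal] :
    𝔐.comap (AdjoinRoot.of Q) = maximalIdeal R := by
  have : Module.Finite R (AdjoinRoot Q) := hQ.finite_adjoinRoot
  have : Algebra.IsIntegral R (AdjoinRoot Q) := Algebra.IsIntegral.of_finite R _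
  have : (𝔐.comap (algebraMap R (AdjoinRoot Q))).IsMaximal :=
    Ideal.isMaximal_comap_of_isIntegral_of_isMaximal 𝔐
  exact eq_maximalIdeal this

include hρ hQ in
/-- polynomials with coefficients in the maximal ideal evaluate into every maximal ideal -/
lemma eval₂_root_mem_of_map_eq_zero (𝔐 : Ideal (AdjoinRoot Q)) [𝔐.IsMaximal] {P : R[X]}
    (hP : P.map ρ = 0) : P.eval₂ (AdjoinRoot.of Q) (AdjoinRoot.root Q) ∈ 𝔐 := by
  rw [Polynomial.eval₂_eq_sum_range]
  refine Ideal.sum_mem _ fun i _ => Ideal.mul_mem_right _ _ ?_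
  have h1 : ρ (P.coeff i) = 0 := by
    have := congrArg (fun p => p.coeff i) hP
    simpa [Polynomial.coeff_map] using this
  have h2 : P.coeff i ∈ 𝔐.comap (AdjoinRoot.of Q) := by
    rw [comap_of_eq_maximalIdeal hQ 𝔐, ← ker_eq_maximalIdeal ρ hρ]
    exact h1
  exact h2

include hρ hQ in
/-- every maximal ideal of `R[X]/(Q)` contains `root - a` for a lift `a` of a residue root, when
the residue polynomial splits -/
lemma exists_root_sub_mem (hsplit : (Q.map ρ).Splits) (𝔐 : Ideal (AdjoinRoot Q)) [𝔐.IsMaximal] :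
    ∃ θ : k, (Q.map ρ).IsRoot θ ∧ ∀ a : R, ρ a = θ →
      AdjoinRoot.root Q - AdjoinRoot.of Q a ∈ 𝔐 := by
  classical
  have hmon : (Q.map ρ).Monic := hQ.map ρ
  let s := (Q.map ρ).roots
  let lift : k → R := Function.surjInv hρ
  have hlift : ∀ θ, ρ (lift θ) = θ := Function.surjInv_eq hρ
  let P : R[X] := (s.map fun θ => X - C (lift θ)).prod
  have hPmap : P.map ρ = Q.map ρ := by
    rw [hsplit.eq_prod_roots_of_monic hmon]
    simp only [P, Polynomial.map_multiset_prod, Multiset.map_map]
    congr 1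
    refine Multiset.map_congr rfl fun θ _ => ?_
    simp [hlift]
  have h0 : (P - Q).map ρ = 0 := by rw [Polynomial.map_sub, hPmap, sub_self]
  have h1 := eval₂_root_mem_of_map_eq_zero ρ hρ hQ 𝔐 h0
  rw [Polynomial.eval₂_sub, AdjoinRoot.eval₂_root, sub_zero] at h1
  have h2 : P.eval₂ (AdjoinRoot.of Q) (AdjoinRoot.root Q) =
      (s.map fun θ => AdjoinRoot.root Q - AdjoinRoot.of Q (lift θ)).prod := by
    have := map_multiset_prod (Polynomial.eval₂RingHom (AdjoinRoot.of Q) (AdjoinRoot.root Q))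
      (s.map fun θ => X - C (lift θ))
    rw [Multiset.map_map] at this
    simpa [P, Polynomial.coe_eval₂RingHom] using this
  rw [h2] at h1
  obtain ⟨c, hc, hcm⟩ := (Ideal.IsPrime.multiset_prod_mem_iff_exists_mem
    (Ideal.IsMaximal.isPrime inferInstance) _).mp h1
  obtain ⟨θ, hθ, rfl⟩ := Multiset.mem_map.mp hc
  refine ⟨θ, (Polynomial.mem_roots hmon.ne_zero).mp hθ, fun a ha => ?_⟩
  have h3 : a - lift θ ∈ 𝔐.comap (AdjoinRoot.of Q) := by
    rw [comap_of_eq_maximalIdeal hQ 𝔐, ← ker_eq_maximalIdeal ρ hρ, RingHom.mem_ker, map_sub, ha,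
      hlift, sub_self]
  have h4 : AdjoinRoot.of Q (a - lift θ) ∈ 𝔐 := h3
  have : AdjoinRoot.root Q - AdjoinRoot.of Q a =
      (AdjoinRoot.root Q - AdjoinRoot.of Q (lift θ)) - AdjoinRoot.of Q (a - lift θ) := by
    rw [map_sub]; ring
  rw [this]
  exact 𝔐.sub_mem hcm h4

include hQ in
/-- a maximal ideal containing `root - a` is `(ϖ, root - a)` -/
lemma eq_span_pair (𝔐 : Ideal (AdjoinRoot Q)) [𝔐.IsMaximal] {ϖ : R} (hϖ : Irreducible ϖ) {a : R}
    (ha : AdjoinRoot.root Q - AdjoinRoot.of Q a ∈ 𝔐) :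
    𝔐 = Ideal.span {AdjoinRoot.of Q ϖ, AdjoinRoot.root Q - AdjoinRoot.of Q a} := by
  have hcomap := comap_of_eq_maximalIdeal hQ 𝔐
  have hϖm : AdjoinRoot.of Q ϖ ∈ 𝔐 := by
    have : ϖ ∈ 𝔐.comap (AdjoinRoot.of Q) := by
      rw [hcomap, hϖ.maximalIdeal_eq]; exact Ideal.mem_span_singleton_self ϖ
    exact this
  apply le_antisymm
  · intro c hc
    obtain ⟨g, rfl⟩ := AdjoinRoot.mk_surjective (g := Q) c
    rw [mk_eq_of_eval_add g a] at hc ⊢
    have h1 : AdjoinRoot.of Q (g.eval a) ∈ 𝔐 := by
      have := 𝔐.sub_mem hc (𝔐.mul_mem_right (AdjoinRoot.mk Q (g /ₘ (X - C a))) ha)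
      simpa using this
    have h2 : g.eval a ∈ maximalIdeal R := by rw [← hcomap]; exact h1
    rw [hϖ.maximalIdeal_eq, Ideal.mem_span_singleton] at h2
    obtain ⟨w, hw⟩ := h2
    refine Ideal.add_mem _ ?_ (Ideal.mul_mem_right _ _ (Ideal.subset_span (by simp)))
    rw [hw, map_mul]
    exact Ideal.mul_mem_right _ _ (Ideal.subset_span (by simp))
  · rw [Ideal.span_le]
    intro x hx
    rcases hx with rfl | hx
    · exact hϖm
    · rw [Set.mem_singleton_iff] at hx
      rw [hx]; exact ha

include hρ hQ in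
/-- **Dedekind's criterion, regular-point form.** `R` a DVR with residue map `ρ : R → k`,
`Q ∈ R[X]` monic with `R[X]/(Q)` a domain, `Q mod ϖ` split over `k`.  If every residue root `θ` has
a lift `a` with `Q'(a)` a unit (simple root) or `Q(a) ∉ 𝔪²` (the plane curve `Q = 0` is regular
at `(ϖ, θ)`), then `R[X]/(Q)` is integrally closed. -/
theorem isIntegrallyClosed_adjoinRoot [IsDomain (AdjoinRoot Q)] (hsplit : (Q.map ρ).Splits)
    (hreg : ∀ θ : k, (Q.map ρ).IsRoot θ → ∃ a : R, ρ a = θ ∧
      (Q.derivative.eval a ∉ maximalIdeal R ∨ Q.eval a ∉ maximalIdeal R ^ 2)) :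
    IsIntegrallyClosed (AdjoinRoot Q) := by
  refine IsIntegrallyClosed.of_localization_maximal fun 𝔐 _ h𝔐 => ?_
  obtain ⟨ϖ, hϖ⟩ := IsDiscreteValuationRing.exists_irreducible R
  obtain ⟨θ, hθ, hmem⟩ := exists_root_sub_mem ρ hρ hQ hsplit 𝔐
  obtain ⟨a, haθ, halt⟩ := hreg θ hθ
  have ha := hmem a haθ
  have hspan := eq_span_pair hQ 𝔐 hϖ ha
  have hcomap := comap_of_eq_maximalIdeal hQ 𝔐
  -- `Q(a) = ϖ w`
  have hQa : Q.eval a ∈ maximalIdeal R := by
    rw [← ker_eq_maximalIdeal ρ hρ, RingHom.mem_ker]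
    have h1 : (Q.map ρ).eval θ = 0 := hθ
    rw [← haθ, Polynomial.eval_map, Polynomial.eval₂_hom] at h1
    exact h1
  have hQa' := hQa
  rw [hϖ.maximalIdeal_eq, Ideal.mem_span_singleton] at hQa'
  obtain ⟨w, hw⟩ := hQa'
  -- the relation `(root - a) * G(root) = ϖ * (-w)`
  have hrel : (AdjoinRoot.root Q - AdjoinRoot.of Q a) * AdjoinRoot.mk Q (Q /ₘ (X - C a)) =
      AdjoinRoot.of Q ϖ * AdjoinRoot.of Q (-w) := by
    have h1 := mk_eq_of_eval_add (Q := Q) Q a
    rw [AdjoinRoot.mk_self, hw, map_mul] at h1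
    rw [map_neg, mul_neg]
    exact eq_neg_of_add_eq_zero_right h1.symm
  have hprinc : (maximalIdeal (Localization.AtPrime 𝔐)).IsPrincipal := by
    rw [← Localization.AtPrime.map_eq_maximalIdeal]
    rcases halt with hsimple | hsq
    · -- simple root: `G(root) ∉ 𝔐`
      have hG : AdjoinRoot.mk Q (Q /ₘ (X - C a)) ∉ 𝔐 := by
        intro hmemG
        rw [mk_eq_of_eval_add (Q /ₘ (X - C a)) a, eval_divByMonic_eq_derivative] at hmemG
        have h1 : AdjoinRoot.of Q (Q.derivative.eval a) ∈ 𝔐 := by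
          have := 𝔐.sub_mem hmemG
            (𝔐.mul_mem_right (AdjoinRoot.mk Q (Q /ₘ (X - C a) /ₘ (X - C a))) ha)
          simpa using this
        exact hsimple (by rw [← hcomap]; exact h1)
      exact ⟨_, map_eq_span_left 𝔐 hspan hrel hG⟩
    · -- `Q(a) ∉ 𝔪²`: `w` is a unit
      have hwu : IsUnit w := by
        by_contra hnu
        apply hsq
        have hwm : w ∈ maximalIdeal R := (mem_maximalIdeal w).mpr hnu
        rw [hw, pow_two]
        exact Ideal.mul_mem_mul (by rw [hϖ.maximalIdeal_eq]; exact Ideal.mem_span_singleton_self ϖ)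
          hwm
      have he : AdjoinRoot.of Q (-w) ∉ 𝔐 := by
        intro hmemw
        have : IsUnit (AdjoinRoot.of Q (-w)) := (hwu.neg).map _
        exact (Ideal.IsMaximal.isPrime inferInstance).ne_top (𝔐.eq_top_of_isUnit_mem hmemw this)
      exact ⟨_, map_eq_span_right 𝔐 hspan hrel he⟩
  have htfae := (tfae_of_isNoetherianRing_of_isLocalRing_of_isDomain
    (Localization.AtPrime 𝔐)).out 4 3
  exact (htfae.mp hprinc).1

end Dedekind

section UnitDiscr

open Matrix

variable {R L E : Type*} [CommRing R] [IsIntegrallyClosed R] [Field L] [Algebra R L]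
  [IsFractionRing R L] [Field E] [Algebra L E] [Algebra R E] [IsScalarTower R L E]
  {ι : Type*} [Fintype ι] [DecidableEq ι]

/-- **Unit discriminant ⇒ maximal order.** `R` integrally closed with fraction field `L`, `b` an
`L`-basis of the finite extension `E` consisting of `R`-integral elements whose discriminant is
(the image of) a unit of `R`.  Then every `R`-integral element of `E` lies in the `R`-span of
`b`. -/
theorem mem_span_of_isIntegral_of_isUnit_discr (b : Module.Basis ι L E)
    (hb : ∀ i, IsIntegral R (b i)) (hdisc : ∃ u : Rˣ, algebraMap R L u = Algebra.discr L b)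
    {z : E} (hz : IsIntegral R z) : z ∈ Submodule.span R (Set.range b) := by
  have : FiniteDimensional L E := Module.Basis.finiteDimensional_of_finite b
  -- the trace matrix has entries in `R`
  have hM : ∀ i j, ∃ r : R, algebraMap R L r = Algebra.trace L E (b i * b j) := fun i j =>
    IsIntegrallyClosed.isIntegral_iff.mp (Algebra.isIntegral_trace ((hb i).mul (hb j)))
  choose MR hMR using hM
  have ht : ∀ i, ∃ r : R, algebraMap R L r = Algebra.trace L E (z * b i) := fun i =>
    IsIntegrallyClosed.isIntegral_iff.mp (Algebra.isIntegral_trace (hz.mul (hb i)))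
  choose tR htR using ht
  let M : Matrix ι ι R := Matrix.of MR
  have hMmap : M.map (algebraMap R L) = Algebra.traceMatrix L b := by
    ext i j
    simp only [Matrix.map_apply, M, Matrix.of_apply, hMR, Algebra.traceMatrix_apply,
      Algebra.traceForm_apply]
  obtain ⟨u, hu⟩ := hdisc
  have hdet : M.det = u := by
    apply IsFractionRing.injective R L
    rw [hu, Algebra.discr_def, ← hMmap, ← RingHom.mapMatrix_apply, ← RingHom.map_det]
  have hunit : IsUnit M.det := hdet ▸ u.isUnit
  -- coordinates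
  have hmul : (Algebra.traceMatrix L b) *ᵥ (b.equivFun z) = fun i => algebraMap R L (tR i) := by
    rw [Algebra.traceMatrix_of_basis_mulVec]
    funext i
    exact (htR i).symm
  have hinv : (M⁻¹ * M) = 1 := Matrix.nonsing_inv_mul M hunit
  have hcoord : b.equivFun z = fun i => algebraMap R L ((M⁻¹ *ᵥ tR) i) := by
    have h1 : (M⁻¹.map (algebraMap R L)) *ᵥ ((Algebra.traceMatrix L b) *ᵥ (b.equivFun z))
        = b.equivFun z := by
      rw [Matrix.mulVec_mulVec, ← hMmap, ← Matrix.map_mul, hinv, Matrix.map_one _ (map_zero _)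
        (map_one _), Matrix.one_mulVec]
    rw [← h1, hmul]
    funext i
    rw [RingHom.map_mulVec]
    rfl
  have hz' : z = ∑ i, ((M⁻¹ *ᵥ tR) i) • b i := by
    conv_lhs => rw [← b.sum_equivFun z, hcoord]
    refine Finset.sum_congr rfl fun i _ => ?_
    rw [algebraMap_smul]
  rw [hz']
  exact Submodule.sum_mem _ fun i _ => Submodule.smul_mem _ _ (Submodule.subset_span ⟨i, rfl⟩)

end UnitDiscr

end Fermat.Agent.S27x.Spec.NormalLocal
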