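/-
P-S27 block D1 (helper94): Hensel's lemma in a valuation subring of an algebraically closed field.

* `instHenselianLocalRingValuationSubring`: instance `HenselianLocalRing ↥O`.
* `exists_multiset_eq_prod`: monic polynomials over `O` split over `O`.
* `eq_of_isRoot_of_sub_mem`: uniqueness of the lift of a simple residue root (any local ring).
* `existsUnique_isRoot_of_isUnit_derivative`: simple residue roots lift uniquely.
-/
import Fermat.Agent.S27x.Spec.PlaceExt

set_option autoImplicit false

namespace Fermat.Agent.S27x.Spec

open Polynomial IsLocalRing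

variable {K : Type*} [Field K]

/-- instance form of `henselianLocalRing_of_isAlgClosed` -/
instance instHenselianLocalRingValuationSubring [IsAlgClosed K] (O : ValuationSubring K) :
    HenselianLocalRing O := henselianLocalRing_of_isAlgClosed O

/-- A monic polynomial over a valuation subring of an algebraically closed field is a product of
linear factors over the valuation subring. -/
theorem exists_multiset_eq_prod [IsAlgClosed K] (O : ValuationSubring K) {f : O[X]}
    (hf : f.Monic) : ∃ s : Multiset O, f = (s.map fun a => X - C a).prod := by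
  classical
  have hsplit := IsAlgClosed.splits (f.map (algebraMap O K))
  have hmon : (f.map (algebraMap O K)).Monic := hf.map _
  have hmem : ∀ α ∈ (f.map (algebraMap O K)).roots, α ∈ O := by
    intro α hα
    obtain ⟨a, rfl, -⟩ := exists_root_mem_of_monic O hf ((Polynomial.mem_roots hmon.ne_zero).mp hα)
    exact a.2
  refine ⟨(f.map (algebraMap O K)).roots.pmap (fun α hα => (⟨α, hα⟩ : O)) hmem, ?_⟩
  have hinj : Function.Injective (algebraMap O K) := IsFractionRing.injective O K
  apply Polynomial.map_injective _ hinj
  rw [Polynomial.map_multiset_prod, Multiset.map_map]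
  conv_lhs => rw [hsplit.eq_prod_roots_of_monic hmon]
  congr 1
  rw [Multiset.map_pmap]
  have key : Multiset.pmap (fun a h => ((fun p => Polynomial.map (algebraMap O K) p) ∘
        fun a : O => X - C a) ⟨a, h⟩) (f.map (algebraMap O K)).roots hmem
      = Multiset.pmap (fun a (_ : a ∈ O) => (X - C a : K[X])) (f.map (algebraMap O K)).roots hmem := by
    refine Multiset.pmap_congr _ fun a _ h₁ _ => ?_
    simp only [Function.comp_apply, Polynomial.map_sub, Polynomial.map_X, Polynomial.map_C]
    rfl
  rw [key, Multiset.pmap_eq_map]

/-- Uniqueness in Hensel's lemma, valid in any local ring: two roots of `f` congruent to `a₀`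
modulo the maximal ideal coincide when `f'(a₀)` is a unit. -/
theorem eq_of_isRoot_of_sub_mem {R : Type*} [CommRing R] [IsLocalRing R] {f : R[X]} {a₀ a b : R}
    (hd : IsUnit (f.derivative.eval a₀)) (ha : f.IsRoot a) (hb : f.IsRoot b)
    (ha0 : a - a₀ ∈ maximalIdeal R) (hb0 : b - a₀ ∈ maximalIdeal R) : a = b := by
  obtain ⟨k, hk⟩ := Polynomial.binomExpansion f a (b - a)
  rw [add_sub_cancel, hb.eq_zero, ha.eq_zero, zero_add] at hk
  -- `f'(a)` is a unit
  have hda : IsUnit (f.derivative.eval a) := by
    have h1 : f.derivative.eval a - f.derivative.eval a₀ ∈ maximalIdeal R :=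
      Ideal.mem_of_dvd _ (Polynomial.sub_dvd_eval_sub a a₀ f.derivative) ha0
    by_contra hnu
    have h2 : f.derivative.eval a ∈ maximalIdeal R := (mem_maximalIdeal _).mpr hnu
    have h3 : f.derivative.eval a₀ ∈ maximalIdeal R := by
      have := (maximalIdeal R).sub_mem h2 h1
      simpa using this
    exact (mem_maximalIdeal _).mp h3 hd
  have hba : b - a ∈ maximalIdeal R := by
    have := (maximalIdeal R).sub_mem hb0 ha0
    simpa using this
  have hu : IsUnit (f.derivative.eval a + k * (b - a)) := by
    by_contra hnu
    have h2 : f.derivative.eval a + k * (b - a) ∈ maximalIdeal R := (mem_maximalIdeal _).mpr hnu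
    have h3 : f.derivative.eval a ∈ maximalIdeal R := by
      have := (maximalIdeal R).sub_mem h2 ((maximalIdeal R).mul_mem_left k hba)
      simpa using this
    exact (mem_maximalIdeal _).mp h3 hda
  have h0 : (f.derivative.eval a + k * (b - a)) * (b - a) = 0 := by
    rw [hk]; ring
  have : b - a = 0 := (hu.mul_right_eq_zero).mp h0
  exact (sub_eq_zero.mp this).symm

/-- **Hensel with uniqueness** in a valuation subring of an algebraically closed field. -/
theorem existsUnique_isRoot_of_isUnit_derivative [IsAlgClosed K] (O : ValuationSubring K)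
    {f : O[X]} (hf : f.Monic) (a₀ : O) (h₁ : f.eval a₀ ∈ maximalIdeal O)
    (h₂ : IsUnit (f.derivative.eval a₀)) :
    ∃! a : O, f.IsRoot a ∧ a - a₀ ∈ maximalIdeal O := by
  obtain ⟨a, ha, ha0⟩ := HenselianLocalRing.is_henselian f hf a₀ h₁ h₂
  exact ⟨a, ⟨ha, ha0⟩, fun b hb => (eq_of_isRoot_of_sub_mem h₂ ha hb.1 ha0 hb.2).symm⟩

end Fermat.Agent.S27x.Spec
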