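import Fermat.Agent.S27x.Spec.GaussNorm.Core
import Fermat.Agent.S27x.Spec.GaussNorm.Model
import Fermat.Agent.S27x.Spec.GaussNorm.ModelDegree
import Fermat.Agent.S27x.Spec.GaussNorm.ModelIntegral
import Fermat.Agent.S27x.Spec.GaussNorm.ModelInfinity
import Fermat.Agent.S27x.Spec.GaussNorm.Ring
import Fermat.Agent.S27x.Spec.GaussNorm.Residue
import Fermat.Agent.S27x.Spec.GaussNorm.Hints

/-!
# P-S27 block D3: Gauss norm and reduction of an integral Apéry model (summary)

Input: `D : AperyData A F ι` (`Ring.lean`; constructor `AperyData.ofK` from structure constants over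
`K` with coefficients in `A` and unit top leading coefficients), a field `k`, a surjection
`π : A →+* k`.  Output, all in namespace `Fermat.Agent.S27x.Spec.GaussNorm.AperyData`:

* `D.O : ValuationSubring F` (Gauss valuation ring), `D.mem_O_iff` (`B ∩ O = ⊕ A[x] f_i`),
  `D.valuation_evA_lt_one_iff`, `D.scal`, `D.x_mem`, `D.x_inv_mem`, `D.f_mem`;
* `D.κ`, `D.res`, `D.xb`, `D.fb`, `D.resAlgebra π hπ : Algebra k D.κ`, `D.resAlgebra_compat`;
* `D.modelb hc hπ : IsModel D.W D.xb D.fb D.i₀ P̄` (the reduction is a weighted model over `k`: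
  a domain, `x̄` transcendental, `κ = Frac`), `D.res_ev`, `D.exists_lift`;
* `D.redSetup hc hπ rank_one exists_ne_zero : Gateway.C0.RedSetup A D.O k D.κ`;
* `D.hdeg`, `D.hint1`, `D.hint2`, `D.hcart` : the hypotheses of
  `Gateway.C0.exists_const_mul_pow_of_res_eq_one`;
* for the place at infinity of the reduction use `(D.modelb hc hπ).inftyPlace` (`ModelInfinity`).

`exists_reduction` packages everything with the canonical algebra structure.
-/

set_option autoImplicit false
set_option linter.style.haveILetI false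

namespace Fermat.Agent.S27x.Spec.GaussNorm

open Polynomial IsLocalRing IntermediateField Module

variable {K : Type*} [Field K] {A : ValuationSubring K} {F : Type*} [Field F] [Algebra K F]
  {ι : Type*} [Fintype ι]

/-- **Block D3, packaged.**  For an integral Apéry model `D` and a residue map `π : A → k` there is
a `k`-algebra structure on the residue field `D.κ` of the Gauss valuation ring such that
`(D.xb, D.fb)` is a weighted model with the reduced structure constants, `D.O` carries a
`RedSetup`, and the hypotheses `hdeg`, `hint1`, `hint2`, `hcart` of GATEWAY C0 hold. -/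
theorem AperyData.exists_reduction (D : AperyData A F ι) {k : Type*} [Field k] (π : A →+* k)
    (hπ : Function.Surjective π)
    (rank_one : ∀ x ∈ maximalIdeal A, ∀ c : A, c ≠ 0 → ∃ j : ℕ, c ∣ x ^ j)
    (exists_ne_zero : ∃ ϖ ∈ maximalIdeal A, ϖ ≠ 0)
    (hB : ∀ g : F, IsIntegral (Algebra.adjoin K {D.x}) g → ∃ u : ι → K[X], g = ev D.x D.f u)
    (hB' : ∀ g : F, IsIntegral (Algebra.adjoin K {D.x⁻¹}) g →
      ∃ (N : ℕ) (u : ι → K[X]), D.W.wdeg u ≤ N * D.W.d ∧ g = D.x⁻¹ ^ N * ev D.x D.f u) :
    ∃ (_ : Algebra k D.κ) (R : Fermat.Agent.Gateway.C0.RedSetup A D.O k D.κ),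
      R.π = π ∧ R.res = D.res ∧ D.Compat π ∧
      IsModel D.W D.xb D.fb D.i₀ (fun i j l => (D.P i j l).map π) ∧
      Transcendental k D.xb ∧
      finrank k⟮D.xb⟯ D.κ = finrank K⟮D.x⟯ F ∧
      (∀ (g : F) (hg : g ∈ D.O), IsIntegral (Algebra.adjoin K {D.x}) g →
        IsIntegral (Algebra.adjoin k {D.xb}) (R.res ⟨g, hg⟩)) ∧
      (∀ (g : F) (hg : g ∈ D.O), IsIntegral (Algebra.adjoin K {D.x⁻¹}) g →
        IsIntegral (Algebra.adjoin k {D.xb⁻¹}) (R.res ⟨g, hg⟩)) ∧
      (∀ V : Submodule K F, FiniteDimensional K V → (R.lat V).FG) := by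
  letI := D.resAlgebra π hπ
  have hc : D.Compat π := D.resAlgebra_compat π hπ
  refine ⟨D.resAlgebra π hπ, D.redSetup hc hπ rank_one exists_ne_zero, rfl, rfl, hc,
    D.modelb hc hπ, D.transcendental_xb hc hπ, D.finrank_eq_finrank hc hπ, ?_, ?_, ?_⟩
  · intro g hg hint
    exact D.hint1 hc hπ hB g hg hint
  · intro g hg hint
    exact D.hint2 hc hπ hB' g hg hint
  · intro V hV
    exact D.hcart _ V hV

end Fermat.Agent.S27x.Spec.GaussNorm
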