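import Fermat.Agent.S27x.Glue.SeparatingElement
import Fermat.Agent.Lib.RiemannRoch.FunctionFieldRR

/-!
# P-S27 block D (D8, helper95): a separably generated function field of one variable is a curve

`x : F` transcendental over `K`, `F / K(x)` finite separable  ⇒  `IsCurveOver K F` and
`Algebra.EssFiniteType K F` (the converse is `Glue.exists_transcendental_finiteDimensional`).
This is how the reduction `κ / k` of block D becomes a curve in the sense of the Prelude.
-/

set_option autoImplicit false
set_option linter.style.haveILetI false

noncomputable section

open IntermediateField KaehlerDifferential AlgebraicCurve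

namespace Fermat.Agent.S27x.Spec

variable {K F : Type*} [Field K] [Field F] [Algebra K F]

/-- `Ω[F⁄K]` has rank one when `F / K(x)` is separable algebraic and `x` is transcendental. -/
theorem finrank_kaehler_eq_one_of_isSeparable {x : F} (hx : Transcendental K x)
    [Algebra.IsSeparable K⟮x⟯ F] : Module.finrank F Ω[F⁄K] = 1 := by
  have hb : AlgebraicIndependent K (fun _ : Unit => x) :=
    (algebraicIndependent_unique_type_iff (ι := Unit) (x := fun _ : Unit => x)).mpr hx
  have hrange : Set.range (fun _ : Unit => x) = {x} := by
    ext y; simp [eq_comm]
  haveI : Algebra.IsSeparable (IntermediateField.adjoin K (Set.range (fun _ : Unit => x))) F := by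
    rw [hrange]; infer_instance
  simpa using Fermat.Agent.S27x.Glue.finrank_kaehler_eq_card_of_isSeparable (K := K) (F := F) hb

/-- A separably generated function field of one variable is a curve. -/
theorem isCurveOver_of_isSeparable {x : F} (hx : Transcendental K x)
    [FiniteDimensional K⟮x⟯ F] [Algebra.IsSeparable K⟮x⟯ F] : IsCurveOver K F :=
  { toHasPrincipalDivisors := Fermat.Agent.Lib.RiemannRoch.FunctionFieldRR.hasPrincipalDivisors hx
    finiteResidue := fun v =>
      (Fermat.Agent.Lib.RiemannRoch.FunctionFieldRR.finiteResidue x v).finite
    kaehler_free_rank_one :=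
      ⟨Module.Free.of_divisionRing F _, finrank_kaehler_eq_one_of_isSeparable hx⟩ }

/-- A function field of one variable is essentially of finite type. -/
theorem essFiniteType_of_finiteDimensional (x : F) [FiniteDimensional K⟮x⟯ F] :
    Algebra.EssFiniteType K F := by
  haveI : Algebra.EssFiniteType K K⟮x⟯ :=
    IntermediateField.essFiniteType_iff.mpr
      (IntermediateField.fg_adjoin_of_finite (Set.finite_singleton x))
  exact Algebra.EssFiniteType.comp K K⟮x⟯ F

end Fermat.Agent.S27x.Spec
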