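import Fermat.Agent.S27x.Spec.Adm
import Fermat.Agent.S27x.Spec.ContractT

/-!
# P-S27 block D (D8, helper95): the frame of the assembly of (T1)

* `natCard_torsion_eq_of_hom` : an additive map `sp : Pic0 K F →+ Pic0 k κ` which is injective on
  `n`-torsion (D6) and hits every `n`-torsion class from an `n`-torsion class (D7) gives
  `#Pic⁰(F)[n] = #Pic⁰(κ)[n]`.
* `Outcome K F k` : the conclusion of block D for one curve `F/K`: a curve `κ/k` (in the universe
  of `F`) of the same genus with the same torsion counts.
* `countOK_of_outcome` : `Outcome` + the count for `κ/k` gives the count for `F/K`.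
* `t1Trans_of_ev` : if for every curve `F/K` the `Outcome` holds for every sufficiently general
  admissible valuation ring (`Ev`), then `T1Trans` holds.
-/

set_option autoImplicit false

noncomputable section

namespace Fermat.Agent.S27x.Spec

open AlgebraicCurve Fermat.Agent.S27x.Contract

universe u v

section card

variable {K F k κ : Type*} [Field K] [Field F] [Algebra K F] [Field k] [Field κ] [Algebra k κ]

/-- injective on `n`-torsion + surjective on `n`-torsion ⇒ equal cardinalities. -/
theorem natCard_torsion_eq_of_hom (sp : Pic0 K F →+ Pic0 k κ) (n : ℕ)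
    (hinj : ∀ c ∈ Pic0.torsion K F n, sp c = 0 → c = 0)
    (hsurj : ∀ c' ∈ Pic0.torsion k κ n, ∃ c ∈ Pic0.torsion K F n, sp c = c') :
    Nat.card (Pic0.torsion K F n) = Nat.card (Pic0.torsion k κ n) := by
  have hmap : ∀ c ∈ Pic0.torsion K F n, sp c ∈ Pic0.torsion k κ n := by
    intro c hc
    rw [Pic0.mem_torsion] at hc ⊢
    rw [← map_zsmul, hc, map_zero]
  let φ : Pic0.torsion K F n → Pic0.torsion k κ n := fun c => ⟨sp c, hmap c c.2⟩
  have hφ : Function.Bijective φ := by
    constructor
    · intro c c' hcc'
      have h1 : sp (c : Pic0 K F) = sp (c' : Pic0 K F) := congrArg Subtype.val hcc'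
      have h2 : ((c : Pic0 K F) - c') = 0 :=
        hinj _ ((Pic0.torsion K F n).sub_mem c.2 c'.2) (by rw [map_sub, h1, sub_self])
      exact Subtype.ext (sub_eq_zero.mp h2)
    · rintro ⟨c', hc'⟩
      obtain ⟨c, hc, hcc'⟩ := hsurj c' hc'
      exact ⟨⟨c, hc⟩, Subtype.ext hcc'⟩
  exact Nat.card_congr (Equiv.ofBijective φ hφ)

end card

/-- The conclusion of block D for one curve `F/K`: a curve `κ/k` in the universe of `F` with the
same genus and the same torsion counts. -/
def Outcome (K : Type u) (F : Type v) (k : Type u) [Field K] [Field F] [Algebra K F] [Field k] :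
    Prop :=
  ∃ (κ : Type v) (_ : Field κ) (_ : Algebra k κ), IsCurveOver k κ ∧ Algebra.EssFiniteType k κ ∧
    genusFF k κ = genusFF K F ∧
    ∀ n : ℕ, 0 < n → Nat.card (Pic0.torsion K F n) = Nat.card (Pic0.torsion k κ n)

theorem countOK_of_outcome {K : Type u} {F : Type v} {k : Type u} [Field K] [Field F] [Algebra K F]
    [Field k] (hk : CountOKOver.{u, v} k) (h : Outcome K F k) : CountOK K F := by
  obtain ⟨κ, _, _, hcurve, hess, hg, hn⟩ := h
  intro n hn0
  rw [hn n hn0, hk κ n hn0, hg]

/-- **Frame of (T1)**: it suffices to produce the `Outcome` for every sufficiently general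
admissible valuation ring of `K` over `k`. -/
theorem t1Trans_of_ev
    (H : ∀ (K : Type u) [Field K] [IsAlgClosed K] [CharZero K]
      (k : IntermediateField ℚ K) [IsAlgClosed k] (t : K)
      (F : Type v) [Field F] [Algebra K F] [IsCurveOver K F] [Algebra.EssFiniteType K F],
      Transcendental k t → Algebra.IsAlgebraic (IntermediateField.adjoin k {t}) K →
        Ev k (fun (_ : ValuationSubring K) _ => Outcome K F k)) :
    T1Trans.{u, v} := by
  intro K _ _ _ k _ t ht halg hk F _ _ _ _
  obtain ⟨A, h, hout⟩ := (H K k t F ht halg).exists ht halg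
  exact countOK_of_outcome hk hout

end Fermat.Agent.S27x.Spec
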