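import Fermat.Agent.S27x.Spec.GaussNorm
import Fermat.Agent.S27x.Spec.Deuring.Pic
import Fermat.Agent.S27x.Spec.Inj
import Fermat.Agent.S27x.Spec.CurveOfSep
import Fermat.Agent.S27x.Spec.StepCore

/-!
# P-S27 block D (D8, helper95): the good model and what it gives

Setting: `D : GaussNorm.AperyData A F ι` (block D3, helper2), a residue map `π : A →+* k` with a
compatible `k`-algebra structure on the residue field `D.κ` of the Gauss valuation ring, `A` of
rank one and not a field, and the two dictionary facts `hB`, `hB'` of block D2 (helper32).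

ONE further input, from block D4: the genus does not drop, `genusFF K F ≤ genusFF k D.κ`.  Then

* `redSetup` : the `Gateway.C0.RedSetup`,
* `hyp` : helper59's `Deuring.Hyp` (so `Deuring.sp`, `spDiv`, `spPic0`, `genus_eq` apply),
* `goodFacts` : helper92's `Inj.GoodFacts` for the Apéry coordinate `x`,
* `isCurveOver_κ`, `essFiniteType_κ` : the reduction is a curve over `k`,
* `sp` (`:= Deuring.spPic0`) `: Pic0 K F →+ Pic0 k D.κ` and `sp_injOn_torsion`,
* `outcome` : if moreover `sp` is surjective on `n`-torsion for all `n > 0` (block D7), then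
  `Outcome K F k` (block D8's target).
-/

set_option autoImplicit false
set_option linter.unusedSectionVars false
set_option linter.style.haveILetI false

noncomputable section

open Polynomial IsLocalRing IntermediateField Module AlgebraicCurve

namespace Fermat.Agent.S27x.Spec.Model

open Fermat.Agent.S27x.Spec.GaussNorm Fermat.Agent.Gateway.C0 Fermat.Agent.S27x.Spec

universe u v w

variable {K : Type u} [Field K] [IsAlgClosed K] [CharZero K] {A : ValuationSubring K}
  {F : Type v} [Field F] [Algebra K F] {ι : Type*} [Fintype ι]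
  (D : AperyData A F ι) {k : Type w} [Field k] [IsAlgClosed k] [CharZero k] [Algebra k D.κ]
  {π : A →+* k} (hc : D.Compat π) (hπ : Function.Surjective π)
  (hr : ∀ x ∈ maximalIdeal A, ∀ c : A, c ≠ 0 → ∃ j : ℕ, c ∣ x ^ j)
  (hne : ∃ ϖ ∈ maximalIdeal A, ϖ ≠ 0)

include hc hπ in
/-- the reduction is a function field of one variable over `k`, separably generated -/
theorem isSeparable_κ : Algebra.IsSeparable k⟮D.xb⟯ D.κ := by
  haveI := D.finiteDimensional_k hc hπ
  infer_instance

include hc hπ in
/-- **The reduction is a curve over `k`.** -/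
theorem isCurveOver_κ : IsCurveOver k D.κ := by
  haveI := D.finiteDimensional_k hc hπ
  haveI := isSeparable_κ D hc hπ
  exact isCurveOver_of_isSeparable (D.transcendental_xb hc hπ)

include hc hπ in
theorem essFiniteType_κ : Algebra.EssFiniteType k D.κ := by
  haveI := D.finiteDimensional_k hc hπ
  exact essFiniteType_of_finiteDimensional D.xb

/-- The reduction setup (abbreviation of `D.redSetup`). -/
abbrev redSetup : RedSetup A D.O k D.κ := D.redSetup hc hπ hr hne

variable (hB : ∀ g : F, IsIntegral (Algebra.adjoin K {D.x}) g → ∃ u : ι → K[X], g = ev D.x D.f u)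
  (hB' : ∀ g : F, IsIntegral (Algebra.adjoin K {D.x⁻¹}) g →
    ∃ (N : ℕ) (u : ι → K[X]), D.W.wdeg u ≤ N * D.W.d ∧ g = D.x⁻¹ ^ N * ev D.x D.f u)
  (hgenus : genusFF K F ≤ genusFF k D.κ)

include hgenus in
/-- helper59's standing hypotheses of the reduction of divisors. -/
theorem hyp : Deuring.Hyp (redSetup D hc hπ hr hne) where
  res_surj := D.res_surjective
  cart := D.hcart _
  genus_le := hgenus
  ff := ⟨D.x, D.model.transcendental, D.finiteDimensional_K⟩
  ffb := ⟨D.xb, D.transcendental_xb hc hπ, D.finiteDimensional_k hc hπ⟩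

include hB hB' hgenus in
/-- helper92's five good reduction facts for the Apéry coordinate. -/
theorem goodFacts : Inj.GoodFacts (redSetup D hc hπ hr hne) D.x D.x_mem D.xb where
  int_x := D.hint1 hc hπ hB
  int_x_inv := D.hint2 hc hπ hB'
  deg_le := D.hdeg hc hπ
  genus_le := hgenus
  cartesian := D.hcart _

/-- The specialisation map on divisor classes of degree zero. -/
def sp : Pic0 K F →+ Pic0 k D.κ := Deuring.spPic0 (hyp D hc hπ hr hne hgenus)

include hc hπ hr hne hgenus in
/-- the genus is preserved -/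
theorem genus_eq : genusFF k D.κ = genusFF K F := Deuring.genus_eq (hyp D hc hπ hr hne hgenus)

theorem sp_mem_torsion {n : ℕ} {c : Pic0 K F} (h : c ∈ Pic0.torsion K F n) :
    sp D hc hπ hr hne hgenus c ∈ Pic0.torsion k D.κ n :=
  Deuring.spPic0_mem_torsion _ h

include hB hB' in
/-- **(D6)**: the specialisation map is injective on `n`-torsion, `n > 0`. -/
theorem sp_eq_zero {n : ℕ} (hn : 0 < n) {c : Pic0 K F} (hcn : c ∈ Pic0.torsion K F n)
    (h0 : sp D hc hπ hr hne hgenus c = 0) : c = 0 := by
  haveI := D.finiteDimensional_K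
  haveI := D.finiteDimensional_k hc hπ
  haveI := isSeparable_κ D hc hπ
  have H := hyp D hc hπ hr hne hgenus
  refine Inj.eq_zero_of_sp_eq_zero (redSetup D hc hπ hr hne) D.model.transcendental D.x_mem
    (xb := D.xb) rfl (D.transcendental_xb hc hπ) (goodFacts D hc hπ hr hne hB hB' hgenus)
    (Inj.isUnit_natCast (redSetup D hc hπ hr hne) hn) D.res_surjective (Deuring.spDiv H) ?_
    (Deuring.spPic0 H) (Deuring.spPic0_mk' H) hcn h0
  intro f hf hv E hE w
  exact Deuring.spDiv_principal H hv hE w

/-- **Block D8, abstract form**: a good model whose specialisation map is surjective on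
`n`-torsion (block D7) yields the `Outcome`. -/
theorem outcome {K : Type u} [Field K] [IsAlgClosed K] [CharZero K] {A : ValuationSubring K}
    {F : Type v} [Field F] [Algebra K F] {ι : Type*} [Fintype ι]
    (D : AperyData A F ι) {k : Type u} [Field k] [IsAlgClosed k] [CharZero k] [Algebra k D.κ]
    {π : A →+* k} (hc : D.Compat π) (hπ : Function.Surjective π)
    (hr : ∀ x ∈ maximalIdeal A, ∀ c : A, c ≠ 0 → ∃ j : ℕ, c ∣ x ^ j)
    (hne : ∃ ϖ ∈ maximalIdeal A, ϖ ≠ 0)
    (hB : ∀ g : F, IsIntegral (Algebra.adjoin K {D.x}) g → ∃ u : ι → K[X], g = ev D.x D.f u)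
    (hB' : ∀ g : F, IsIntegral (Algebra.adjoin K {D.x⁻¹}) g →
      ∃ (N : ℕ) (u : ι → K[X]), D.W.wdeg u ≤ N * D.W.d ∧ g = D.x⁻¹ ^ N * ev D.x D.f u)
    (hgenus : genusFF K F ≤ genusFF k D.κ)
    (hsurj : ∀ n : ℕ, 0 < n → ∀ c' ∈ Pic0.torsion k D.κ n,
      ∃ c ∈ Pic0.torsion K F n, sp D hc hπ hr hne hgenus c = c') :
    Outcome K F k :=
  ⟨D.κ, inferInstance, inferInstance, isCurveOver_κ D hc hπ, essFiniteType_κ D hc hπ,
    genus_eq D hc hπ hr hne hgenus, fun n hn =>
      natCard_torsion_eq_of_hom (sp D hc hπ hr hne hgenus) n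
        (fun _ hcn h0 => sp_eq_zero D hc hπ hr hne hB hB' hgenus hn hcn h0) (hsurj n hn)⟩

end Fermat.Agent.S27x.Spec.Model
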