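import Fermat.Agent.S27x.Spec.RankOne

/-!
# P-S27 block D (D8, helper95): admissible valuation rings and "for all sufficiently general `A`"

Setting of block D: `k ⊆ K` algebraically closed, `K` algebraic over `k(t)`, `t` transcendental.

* `Adm k A` : the data carried by an admissible valuation ring `A` of `K` over `k`
  (the conclusion of helper94's `exists_rankOne_valuationSubring`, bundled): `k ⊆ A`, a surjective
  residue map `π : A →+* k` which is the identity on `k` and whose kernel is the maximal ideal,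
  rank one, not a field.  The fields `π`, `π_surj`, `rank_one`, `exists_ne_zero` are verbatim the
  fields of `Gateway.C0.RedSetup`.
* `Ev k P` : "`P A h` holds for every admissible `A` containing a finite set `S` and having a
  finite set `U` of units" (the shape of all good-reduction conditions (A1)-(A4) of the design).
  Closed under `∧`, finite `∀`, monotone; `Ev.exists` : such an `A` exists.
-/

set_option autoImplicit false

open IsLocalRing

namespace Fermat.Agent.S27x.Spec

/-- The data of an admissible valuation ring `A` of `K` over `k`. -/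
structure Adm (k : Type*) {K : Type*} [Field k] [Field K] [Algebra k K]
    (A : ValuationSubring K) where
  /-- the residue map -/
  π : A →+* k
  algebraMap_mem : ∀ a : k, algebraMap k K a ∈ A
  π_surj : Function.Surjective π
  π_algebraMap : ∀ a : k, π ⟨algebraMap k K a, algebraMap_mem a⟩ = a
  π_eq_zero_iff : ∀ x : A, π x = 0 ↔ x ∈ maximalIdeal A
  rank_one : ∀ x ∈ maximalIdeal A, ∀ c : A, c ≠ 0 → ∃ j : ℕ, c ∣ x ^ j
  exists_ne_zero : ∃ ϖ ∈ maximalIdeal A, ϖ ≠ 0

namespace Adm

variable {k K : Type*} [Field k] [Field K] [Algebra k K] {A : ValuationSubring K} (h : Adm k A)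
include h

/-- the constants, as elements of `A`. -/
def const (a : k) : A := ⟨algebraMap k K a, h.algebraMap_mem a⟩

@[simp] theorem coe_const (a : k) : ((h.const a : A) : K) = algebraMap k K a := rfl

@[simp] theorem π_const (a : k) : h.π (h.const a) = a := h.π_algebraMap a

theorem isUnit_iff_π_ne_zero (x : A) : IsUnit x ↔ h.π x ≠ 0 := by
  rw [Ne, h.π_eq_zero_iff, mem_maximalIdeal, mem_nonunits_iff, not_not]

theorem isUnit_const {a : k} (ha : a ≠ 0) : IsUnit (h.const a) := by
  rw [h.isUnit_iff_π_ne_zero, h.π_const]; exact ha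

/-- every element of `A` is congruent to a constant. -/
theorem sub_const_mem (x : A) : x - h.const (h.π x) ∈ maximalIdeal A := by
  rw [← h.π_eq_zero_iff, map_sub, h.π_const, sub_self]

theorem ne_top : A ≠ ⊤ := by
  obtain ⟨ϖ, hϖ, hϖ0⟩ := h.exists_ne_zero
  intro htop
  have hall : ∀ y : K, y ∈ A := fun y => by rw [htop]; exact ValuationSubring.mem_top y
  have hinv : (ϖ : K)⁻¹ ∈ A := hall _
  have hK : (ϖ : K) ≠ 0 := fun h0 => hϖ0 (Subtype.ext h0)
  have hu : IsUnit ϖ :=
    IsUnit.of_mul_eq_one (⟨(ϖ : K)⁻¹, hinv⟩ : A) (Subtype.ext (by simp [hK]))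
  exact (mem_maximalIdeal ϖ).mp hϖ hu

theorem isUnit_natCast [CharZero k] {n : ℕ} (hn : n ≠ 0) : IsUnit ((n : ℕ) : A) := by
  rw [h.isUnit_iff_π_ne_zero, map_natCast]
  exact Nat.cast_ne_zero.mpr hn

end Adm

theorem isUnit_of_mem_of_inv_mem {K : Type*} [Field K] {A : ValuationSubring K} {u : K}
    (hu : u ∈ A) (hu' : u⁻¹ ∈ A) (h0 : u ≠ 0) : IsUnit (⟨u, hu⟩ : A) :=
  IsUnit.of_mul_eq_one (⟨u⁻¹, hu'⟩ : A) (Subtype.ext (by simp [h0]))

section Ev

variable (k : Type*) {K : Type*} [Field k] [Field K] [Algebra k K]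

/-- `P` holds for every admissible valuation ring containing a suitable finite set and having a
suitable finite set of units. -/
def Ev (P : ∀ A : ValuationSubring K, Adm k A → Prop) : Prop :=
  ∃ S U : Finset K, ∀ (A : ValuationSubring K) (h : Adm k A),
    (∀ s ∈ S, s ∈ A) → (∀ u ∈ U, u ∈ A ∧ u⁻¹ ∈ A) → P A h

variable {k}
variable {P Q : ∀ A : ValuationSubring K, Adm k A → Prop}

theorem Ev.of_forall (hP : ∀ A h, P A h) : Ev k P :=
  ⟨∅, ∅, fun A h _ _ => hP A h⟩

theorem Ev.mono (hP : Ev k P) (hPQ : ∀ A h, P A h → Q A h) : Ev k Q := by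
  obtain ⟨S, U, H⟩ := hP
  exact ⟨S, U, fun A h hS hU => hPQ A h (H A h hS hU)⟩

theorem Ev.and (hP : Ev k P) (hQ : Ev k Q) : Ev k (fun A h => P A h ∧ Q A h) := by
  classical
  obtain ⟨S, U, H⟩ := hP
  obtain ⟨S', U', H'⟩ := hQ
  refine ⟨S ∪ S', U ∪ U', fun A h hS hU => ⟨H A h ?_ ?_, H' A h ?_ ?_⟩⟩
  · exact fun s hs => hS s (Finset.mem_union_left _ hs)
  · exact fun u hu => hU u (Finset.mem_union_left _ hu)
  · exact fun s hs => hS s (Finset.mem_union_right _ hs)
  · exact fun u hu => hU u (Finset.mem_union_right _ hu)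

theorem Ev.mp (hP : Ev k P) (hPQ : Ev k (fun A h => P A h → Q A h)) : Ev k Q :=
  (hP.and hPQ).mono fun _ _ hh => hh.2 hh.1

/-- finite conjunctions. -/
theorem Ev.forall_finset {ι : Type*} (T : Finset ι)
    {P : ι → ∀ A : ValuationSubring K, Adm k A → Prop}
    (hP : ∀ i ∈ T, Ev k (P i)) : Ev k (fun A h => ∀ i ∈ T, P i A h) := by
  classical
  induction T using Finset.induction_on with
  | empty => exact Ev.of_forall fun _ _ i hi => absurd hi (Finset.notMem_empty i)
  | insert a T ha ih =>
    have h1 := hP a (Finset.mem_insert_self a T)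
    have h2 := ih fun i hi => hP i (Finset.mem_insert_of_mem hi)
    refine (h1.and h2).mono fun A h hh i hi => ?_
    rcases Finset.mem_insert.mp hi with rfl | hi
    · exact hh.1
    · exact hh.2 i hi

theorem Ev.forall_finite {ι : Type*} [Finite ι]
    {P : ι → ∀ A : ValuationSubring K, Adm k A → Prop}
    (hP : ∀ i, Ev k (P i)) : Ev k (fun A h => ∀ i, P i A h) := by
  have := Fintype.ofFinite ι
  exact (Ev.forall_finset Finset.univ fun i _ => hP i).mono fun A h hh i =>
    hh i (Finset.mem_univ i)

/-- a given element lies in every sufficiently general `A`. -/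
theorem ev_mem (s : K) : Ev k (fun (A : ValuationSubring K) _ => s ∈ A) :=
  ⟨{s}, ∅, fun _ _ hS _ => hS s (Finset.mem_singleton_self s)⟩

/-- a given finite set lies in every sufficiently general `A`. -/
theorem ev_finset_mem (S : Finset K) : Ev k (fun (A : ValuationSubring K) _ => ∀ s ∈ S, s ∈ A) :=
  ⟨S, ∅, fun _ _ hS _ => hS⟩

/-- a given nonzero element is a unit of every sufficiently general `A`. -/
theorem ev_isUnit {u : K} (hu : u ≠ 0) :
    Ev k (fun (A : ValuationSubring K) _ => ∃ hA : u ∈ A, IsUnit (⟨u, hA⟩ : A)) :=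
  ⟨∅, {u}, fun _ _ _ hU =>
    have := hU u (Finset.mem_singleton_self u)
    ⟨this.1, isUnit_of_mem_of_inv_mem this.1 this.2 hu⟩⟩

/-- a given nonzero element has valuation one for every sufficiently general `A`. -/
theorem ev_valuation_eq_one {u : K} (hu : u ≠ 0) :
    Ev k (fun (A : ValuationSubring K) _ => A.valuation u = 1) :=
  (ev_isUnit (k := k) hu).mono fun A _ ⟨hA, hunit⟩ =>
    (A.valuation_eq_one_iff ⟨u, hA⟩).mp hunit

/-- all coefficients of a given polynomial lie in every sufficiently general `A`. -/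
theorem ev_coeff_mem (p : Polynomial K) :
    Ev k (fun (A : ValuationSubring K) _ => ∀ n, p.coeff n ∈ A) := by
  classical
  refine (ev_finset_mem (k := k) (p.support.image p.coeff)).mono fun A _ hh n => ?_
  by_cases hn : n ∈ p.support
  · exact hh _ (Finset.mem_image_of_mem _ hn)
  · rw [Polynomial.notMem_support_iff.mp hn]; exact A.zero_mem

/-- **Existence of a sufficiently general admissible valuation ring** (helper94's (P2')). -/
theorem Ev.exists [IsAlgClosed k] (hP : Ev k P) {c : K} (hc : Transcendental k c)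
    (halg : Algebra.IsAlgebraic (IntermediateField.adjoin k {c}) K) :
    ∃ (A : ValuationSubring K) (h : Adm k A), P A h := by
  obtain ⟨S, U, H⟩ := hP
  obtain ⟨A, π, hk, hS, hU, hsurj, hπk, hπ0, hrank, hne⟩ :=
    exists_rankOne_valuationSubring' c hc halg S U
  exact ⟨A, ⟨π, hk, hsurj, fun a => hπk a (hk a), hπ0, hrank, hne⟩, H A _ hS hU⟩

end Ev

end Fermat.Agent.S27x.Spec
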