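import Fermat.Agent.S27x.Spec.Adm

/-!
# P-S27 block D (D8, helper95): more `Ev` lemmas (for the condition list (P6) of block D4)

* `Ev.forall_mem_finite` : finite conjunctions indexed by a finite set.
* `ev_forall_isRoot` : conjunction over the roots of a nonzero polynomial.
* `ev_forall_isRoot₂` : conjunction over the points `(β, θ₀)` with `δ(β) = 0`, `Q(β, θ₀) = 0`
  (`Q` monic in the outer variable).
* `ev_exists_map_eq` : a polynomial over `K` is the image of a polynomial over `A`;
  `ev_exists_map_eq_fun` : the same for finite tuples.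
* `ev_valuation_leadingCoeff`, `ev_exists_valuation_coeff` : the leading coefficient / some
  coefficient of a nonzero polynomial has valuation one.
-/

set_option autoImplicit false

open Polynomial IsLocalRing

namespace Fermat.Agent.S27x.Spec

variable {k K : Type*} [Field k] [Field K] [Algebra k K]

/-- conjunctions indexed by a finite set. -/
theorem Ev.forall_mem_finite {ι : Type*} {s : Set ι} (hs : s.Finite)
    {P : ι → ∀ A : ValuationSubring K, Adm k A → Prop} (hP : ∀ i ∈ s, Ev k (P i)) :
    Ev k (fun A h => ∀ i ∈ s, P i A h) := by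
  refine (Ev.forall_finset hs.toFinset fun i hi => hP i (hs.mem_toFinset.mp hi)).mono
    fun A h hh i hi => hh i (hs.mem_toFinset.mpr hi)

/-- conjunctions indexed by a predicate with finitely many solutions. -/
theorem Ev.forall_of_finite {ι : Type*} {p : ι → Prop} (hs : {i | p i}.Finite)
    {P : ι → ∀ A : ValuationSubring K, Adm k A → Prop} (hP : ∀ i, p i → Ev k (P i)) :
    Ev k (fun A h => ∀ i, p i → P i A h) :=
  Ev.forall_mem_finite hs hP

/-- conjunction over the roots of a nonzero polynomial. -/
theorem ev_forall_isRoot {δ : K[X]} (hδ : δ ≠ 0)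
    {P : K → ∀ A : ValuationSubring K, Adm k A → Prop}
    (hP : ∀ β, δ.IsRoot β → Ev k (P β)) :
    Ev k (fun A h => ∀ β, δ.IsRoot β → P β A h) :=
  Ev.forall_of_finite (Polynomial.finite_setOfPred_isRoot hδ) hP

/-- the two ways of evaluating a bivariate polynomial at a point agree. -/
theorem eval_eval_C_eq' {R : Type*} [CommRing R] (Q : R[X][X]) (β θ₀ : R) :
    (Q.eval (C θ₀)).eval β = (Q.map (evalRingHom β)).eval θ₀ := by
  have h := Polynomial.eval_map_apply (p := Q) (evalRingHom β) (C θ₀)
  rw [coe_evalRingHom, eval_C] at h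
  exact h.symm

/-- conjunction over the points `(β, θ₀)` of the plane curve `Q = 0` above the roots of `δ`. -/
theorem ev_forall_isRoot₂ {δ : K[X]} (hδ : δ ≠ 0) {Q : K[X][X]} (hQ : Q.Monic)
    {P : K → K → ∀ A : ValuationSubring K, Adm k A → Prop}
    (hP : ∀ β θ₀, δ.IsRoot β → (Q.eval (C θ₀)).IsRoot β → Ev k (P β θ₀)) :
    Ev k (fun A h => ∀ β θ₀, δ.IsRoot β → (Q.eval (C θ₀)).IsRoot β → P β θ₀ A h) := by
  have h1 : Ev k (fun A h => ∀ β, δ.IsRoot β → ∀ θ₀, (Q.eval (C θ₀)).IsRoot β → P β θ₀ A h) := by
    refine ev_forall_isRoot hδ fun β hβ => ?_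
    have hne : Q.map (evalRingHom β) ≠ 0 := (hQ.map _).ne_zero
    have hfin : {θ₀ : K | (Q.eval (C θ₀)).IsRoot β}.Finite := by
      refine (Polynomial.finite_setOfPred_isRoot hne).subset fun θ₀ hθ₀ => ?_
      show (Q.map (evalRingHom β)).IsRoot θ₀
      rw [IsRoot.def, ← eval_eval_C_eq']
      exact hθ₀
    exact Ev.forall_of_finite hfin fun θ₀ hθ₀ => hP β θ₀ hβ hθ₀
  exact h1.mono fun A h hh β θ₀ hβ hθ₀ => hh β hβ θ₀ hθ₀

/-- a polynomial over `K` descends to every sufficiently general `A`. -/
theorem ev_exists_map_eq (p : K[X]) :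
    Ev k (fun (A : ValuationSubring K) _ => ∃ q : A[X], q.map (algebraMap A K) = p) := by
  refine (ev_coeff_mem (k := k) p).mono fun A _ hh => ?_
  have hmem : p ∈ Polynomial.lifts (algebraMap A K) := by
    rw [Polynomial.lifts_iff_coeff_lifts]
    intro n
    exact ⟨⟨p.coeff n, hh n⟩, rfl⟩
  exact (Polynomial.mem_lifts p).mp hmem

/-- a finite tuple of polynomials over `K` descends to every sufficiently general `A`. -/
theorem ev_exists_map_eq_fun {ι : Type*} [Finite ι] (t : ι → K[X]) :
    Ev k (fun (A : ValuationSubring K) _ =>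
      ∃ q : ι → A[X], ∀ i, (q i).map (algebraMap A K) = t i) := by
  refine (Ev.forall_finite fun i => ev_exists_map_eq (k := k) (t i)).mono fun A _ hh => ?_
  choose q hq using hh
  exact ⟨q, hq⟩

/-- the leading coefficient of a nonzero polynomial has valuation one, eventually. -/
theorem ev_valuation_leadingCoeff {p : K[X]} (hp : p ≠ 0) :
    Ev k (fun (A : ValuationSubring K) _ => A.valuation p.leadingCoeff = 1) :=
  ev_valuation_eq_one (leadingCoeff_ne_zero.mpr hp)

/-- some coefficient of a nonzero polynomial has valuation one, eventually. -/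
theorem ev_exists_valuation_coeff {p : K[X]} (hp : p ≠ 0) :
    Ev k (fun (A : ValuationSubring K) _ => ∃ n, A.valuation (p.coeff n) = 1) :=
  (ev_valuation_leadingCoeff (k := k) hp).mono fun _ _ hh => ⟨p.natDegree, hh⟩

/-- the value of a nonzero element: membership and unit at once. -/
theorem ev_mem_and_valuation {u : K} (hu : u ≠ 0) :
    Ev k (fun (A : ValuationSubring K) _ => u ∈ A ∧ A.valuation u = 1) :=
  (ev_mem (k := k) u).and (ev_valuation_eq_one hu)

end Fermat.Agent.S27x.Spec
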