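import Mathlib

/-!
# P-S27 (G4): multi-variable Hensel lemma over a henselian local ring

* `exists_algHom_lift`: if `S` is a finitely presented algebra over a henselian local ring `O`
  which is étale at the kernel of an `O`-algebra map `φ : S → k` (`k` the residue field), then
  `φ` lifts to an `O`-algebra map `S → O`.
* `exists_lift_of_isUnit_jacobian`: a square polynomial system over `O` with a residue solution
  at which the Jacobian determinant is a unit has a solution in `O` lifting it.

The proof uses the local structure theorem for étale algebras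
(`Algebra.IsEtaleAt.exists_isStandardEtale`) to reduce to the one-variable Hensel property.
-/

set_option autoImplicit false
set_option linter.style.haveILetI false

noncomputable section

open IsLocalRing

namespace Fermat.Agent.S27x.Spec.HenselMulti

section Intrinsic

open Polynomial

variable {O : Type*} [CommRing O] [HenselianLocalRing O]

/-- A standard étale pair over a henselian local ring: every residue point lifts. -/
theorem exists_hasMap_lift (P : StandardEtalePair O) (a₀ : ResidueField O)
    (h : P.HasMap a₀) : ∃ a : O, P.HasMap a ∧ residue O a = a₀ := by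
  obtain ⟨b, rfl⟩ := residue_surjective a₀
  have hf : P.f.eval b ∈ maximalIdeal O := by
    have h1 := h.1
    rw [← residue_eq_zero_iff]
    have : residue O (P.f.eval b) = aeval (residue O b) P.f := by
      rw [← Polynomial.eval₂_at_apply, aeval_def]
      rfl
    rw [this]; exact h1
  have hder : IsUnit (P.f.derivative.eval b) := by
    have h2 := h.isUnit_derivative_f
    have : residue O (P.f.derivative.eval b) = aeval (residue O b) P.f.derivative := by
      rw [← Polynomial.eval₂_at_apply, aeval_def]
      rfl
    rw [← this] at h2
    by_contra hnu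
    have : P.f.derivative.eval b ∈ maximalIdeal O := by
      rwa [mem_maximalIdeal, mem_nonunits_iff]
    rw [← residue_eq_zero_iff] at this
    rw [this] at h2
    exact not_isUnit_zero h2
  obtain ⟨a, ha, hab⟩ := HenselianLocalRing.is_henselian P.f P.monic_f b hf hder
  have hres : residue O a = residue O b := by
    rw [← sub_eq_zero, ← map_sub, residue_eq_zero_iff]; exact hab
  refine ⟨a, ⟨by simpa [Polynomial.IsRoot] using ha, ?_⟩, hres⟩
  have h3 := h.2
  have : residue O (aeval a P.g) = aeval (residue O b) P.g := by
    rw [← hres]
    have : aeval a P.g = P.g.eval a := by simp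
    rw [this, ← Polynomial.eval₂_at_apply, aeval_def]
    rfl
  by_contra hnu
  have hm : aeval a P.g ∈ maximalIdeal O := by
    rwa [mem_maximalIdeal, mem_nonunits_iff]
  rw [← residue_eq_zero_iff, this] at hm
  rw [hm] at h3
  exact not_isUnit_zero h3

variable {S : Type*} [CommRing S] [Algebra O S]

/-- A standard étale algebra over a henselian local ring: every `O`-algebra map to the residue
field lifts to an `O`-algebra map to `O`. -/
theorem exists_algHom_lift_of_isStandardEtale [Algebra.IsStandardEtale O S]
    (φ : S →ₐ[O] ResidueField O) :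
    ∃ ψ : S →ₐ[O] O, ∀ s, residue O (ψ s) = φ s := by
  let P : StandardEtalePresentation O S :=
    Algebra.IsStandardEtale.nonempty_standardEtalePresentation.some
  have hmap : P.HasMap (φ P.x) := P.hasMap.map φ
  obtain ⟨a, ha, hres⟩ := exists_hasMap_lift P.P (φ P.x) hmap
  let ψ : S →ₐ[O] O := (P.lift a ha).comp P.equivRing.toAlgHom
  refine ⟨ψ, ?_⟩
  -- the two maps `S → k` agree on `P.x`, hence everywhere
  let resA : O →ₐ[O] ResidueField O := IsScalarTower.toAlgHom O O (ResidueField O)
  have hresA : ∀ y : O, resA y = residue O y := fun _ => rfl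
  have key : (resA.comp ψ) = φ := by
    apply P.hom_ext
    show resA (ψ P.x) = φ P.x
    have : ψ P.x = a := by
      show (P.lift a ha) (P.equivRing P.x) = a
      rw [P.equivRing_x, StandardEtalePair.lift_X]
    rw [this, hresA, hres]
  intro s
  rw [← key]; rfl

/-- **Lifting residue points of étale algebras over a henselian local ring.** -/
theorem exists_algHom_lift [Algebra.FinitePresentation O S]
    (φ : S →ₐ[O] ResidueField O) [(RingHom.ker φ).IsPrime]
    [Algebra.IsEtaleAt O (RingHom.ker φ)] :
    ∃ ψ : S →ₐ[O] O, ∀ s, residue O (ψ s) = φ s := by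
  obtain ⟨f, hfQ, hstd⟩ := Algebra.IsEtaleAt.exists_isStandardEtale (R := O) (RingHom.ker φ)
  have hfu : IsUnit (φ f) := by
    rw [isUnit_iff_ne_zero]
    exact fun h => hfQ (by simpa [RingHom.mem_ker] using h)
  have hM : ∀ y : Submonoid.powers f, IsUnit (φ y) := by
    rintro ⟨_, n, rfl⟩
    simpa using hfu.pow n
  let φ' : Localization.Away f →ₐ[O] ResidueField O :=
    IsLocalization.liftAlgHom (M := Submonoid.powers f) (f := φ) hM
  obtain ⟨ψ', hψ'⟩ := exists_algHom_lift_of_isStandardEtale φ'
  refine ⟨ψ'.comp (IsScalarTower.toAlgHom O S (Localization.Away f)), fun s => ?_⟩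
  show residue O (ψ' (algebraMap S (Localization.Away f) s)) = φ s
  rw [hψ']
  show (IsLocalization.liftAlgHom (M := Submonoid.powers f) (f := φ) hM)
    (algebraMap S (Localization.Away f) s) = φ s
  rw [IsLocalization.liftAlgHom_apply, IsLocalization.lift_eq]
  rfl

end Intrinsic

section Jacobian

open Algebra MvPolynomial

variable {O : Type*} [CommRing O] [HenselianLocalRing O]
variable {ι : Type*} [Fintype ι] [DecidableEq ι]

/-- **Multi-variable Hensel lemma** over a henselian local ring: a square polynomial system
`G` with an approximate solution `z0` (a solution modulo the maximal ideal) at which the Jacobian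
determinant is a unit has an exact solution `z ≡ z0` modulo the maximal ideal. -/
theorem exists_lift_of_isUnit_jacobian
    (G : ι → MvPolynomial ι O) (z0 : ι → O)
    (h0 : ∀ j, MvPolynomial.eval z0 (G j) ∈ maximalIdeal O)
    (hJ : IsUnit (Matrix.det (Matrix.of fun i j => MvPolynomial.eval z0 (pderiv i (G j))))) :
    ∃ z : ι → O, (∀ j, MvPolynomial.eval z (G j) = 0) ∧ ∀ i, z i - z0 i ∈ maximalIdeal O := by
  classical
  -- the quotient algebra and its naive presentation
  let I : Ideal (MvPolynomial ι O) := Ideal.span (Set.range G)
  let S := MvPolynomial ι O ⧸ I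
  let P0 : PreSubmersivePresentation O S ι ι :=
    PreSubmersivePresentation.naive (v := G) id Function.injective_id
  let r : S := P0.jacobian
  let S' := Localization.Away r
  let Q : PreSubmersivePresentation S S' Unit Unit :=
    PreSubmersivePresentation.localizationAway S' r
  let PQ : PreSubmersivePresentation O S' (Unit ⊕ ι) (Unit ⊕ ι) := Q.comp P0
  have hPQ : IsUnit PQ.jacobian := by
    rw [PreSubmersivePresentation.comp_jacobian_eq_jacobian_smul_jacobian,
      PreSubmersivePresentation.localizationAway_jacobian, Algebra.smul_def]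
    exact (IsLocalization.Away.algebraMap_isUnit r).mul (IsLocalization.Away.algebraMap_isUnit r)
  let SP : SubmersivePresentation O S' (Unit ⊕ ι) (Unit ⊕ ι) := ⟨PQ, hPQ⟩
  haveI : IsStandardSmoothOfRelativeDimension 0 O S' :=
    SP.isStandardSmoothOfRelativeDimension (by simp [Presentation.dimension])
  -- the residue point
  have key : ∀ p : MvPolynomial ι O,
      MvPolynomial.aeval (fun i => residue O (z0 i)) p = residue O (MvPolynomial.eval z0 p) := by
    intro p
    rw [MvPolynomial.aeval_def, MvPolynomial.eval, MvPolynomial.coe_eval₂Hom,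
      MvPolynomial.eval₂_comp_left (residue O)]
    rfl
  let φ0 : S →ₐ[O] ResidueField O :=
    Ideal.Quotient.liftₐ I (MvPolynomial.aeval fun i => residue O (z0 i)) (by
      intro a ha
      have hle : I ≤ RingHom.ker (MvPolynomial.aeval (R := O) fun i => residue O (z0 i)) := by
        refine Ideal.span_le.mpr ?_
        rintro _ ⟨j, rfl⟩
        show MvPolynomial.aeval (fun i => residue O (z0 i)) (G j) = 0
        rw [key, residue_eq_zero_iff]
        exact h0 j
      exact hle ha)
  have hφ0 : ∀ p : MvPolynomial ι O,
      φ0 (Ideal.Quotient.mk I p) = residue O (MvPolynomial.eval z0 p) := by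
    intro p
    show MvPolynomial.aeval (fun i => residue O (z0 i)) p = _
    exact key p
  have hr : IsUnit (φ0 r) := by
    have h1 : r = Ideal.Quotient.mk I P0.jacobiMatrix.det :=
      PreSubmersivePresentation.jacobian_eq_jacobiMatrix_det P0
    rw [h1, hφ0, RingHom.map_det]
    have : (MvPolynomial.eval z0).mapMatrix P0.jacobiMatrix
        = Matrix.of fun i j => MvPolynomial.eval z0 (pderiv i (G j)) := by
      ext i j
      show MvPolynomial.eval z0 (P0.jacobiMatrix i j) = _
      rw [PreSubmersivePresentation.jacobiMatrix_naive]
      rfl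
    rw [this]
    exact hJ.map (residue O)
  have hM : ∀ y : Submonoid.powers r, IsUnit (φ0 y) := by
    rintro ⟨_, m, rfl⟩
    simpa using hr.pow m
  let φ' : S' →ₐ[O] ResidueField O :=
    IsLocalization.liftAlgHom (M := Submonoid.powers r) (f := φ0) hM
  haveI : (RingHom.ker φ').IsPrime := RingHom.ker_isPrime φ'
  obtain ⟨ψ, hψ⟩ := exists_algHom_lift φ'
  refine ⟨fun i => ψ (algebraMap S S' (Ideal.Quotient.mk I (X i))), fun j => ?_, fun i => ?_⟩
  · -- `G j` vanishes at `z`
    have h1 : MvPolynomial.eval (fun i => ψ (algebraMap S S' (Ideal.Quotient.mk I (X i)))) (G j)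
        = ψ (algebraMap S S' (Ideal.Quotient.mk I (G j))) := by
      have hcomp : ∀ p : MvPolynomial ι O,
          MvPolynomial.eval (fun i => ψ (algebraMap S S' (Ideal.Quotient.mk I (X i)))) p
            = ψ (algebraMap S S' (Ideal.Quotient.mk I p)) := by
        intro p
        induction p using MvPolynomial.induction_on with
        | C a =>
          rw [MvPolynomial.eval_C]
          have : algebraMap S S' (Ideal.Quotient.mk I (C a)) = algebraMap O S' a := by
            rw [IsScalarTower.algebraMap_apply O S S']
            rfl
          rw [this, AlgHom.commutes]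
          rfl
        | add p q hp hq => simp only [map_add, hp, hq]
        | mul_X p i hp => simp only [map_mul, hp, MvPolynomial.eval_X]
      exact hcomp _
    rw [h1]
    have : Ideal.Quotient.mk I (G j) = 0 :=
      Ideal.Quotient.eq_zero_iff_mem.mpr (Ideal.subset_span ⟨j, rfl⟩)
    rw [this, map_zero, map_zero]
  · rw [← residue_eq_zero_iff, map_sub, sub_eq_zero, hψ]
    show (IsLocalization.liftAlgHom (M := Submonoid.powers r) (f := φ0) hM)
      (algebraMap S S' (Ideal.Quotient.mk I (X i))) = _
    rw [IsLocalization.liftAlgHom_apply, IsLocalization.lift_eq]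
    show φ0 (Ideal.Quotient.mk I (X i)) = _
    rw [hφ0, MvPolynomial.eval_X]

/-- Residue-field form of `exists_lift_of_isUnit_jacobian`: a simple residue solution `zbar` of a
square system lifts to a solution in `O`. -/
theorem exists_lift_of_residue_solution
    (G : ι → MvPolynomial ι O) (zbar : ι → ResidueField O)
    (h0 : ∀ j, MvPolynomial.aeval zbar (G j) = 0)
    (hJ : Matrix.det (Matrix.of fun i j => MvPolynomial.aeval zbar (pderiv i (G j))) ≠ 0) :
    ∃ z : ι → O, (∀ j, MvPolynomial.eval z (G j) = 0) ∧ ∀ i, residue O (z i) = zbar i := by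
  classical
  choose z0 hz0 using fun i => residue_surjective (zbar i)
  have key : ∀ p : MvPolynomial ι O,
      MvPolynomial.aeval zbar p = residue O (MvPolynomial.eval z0 p) := by
    intro p
    have hz : zbar = fun i => residue O (z0 i) := funext fun i => (hz0 i).symm
    rw [hz, MvPolynomial.aeval_def, MvPolynomial.eval, MvPolynomial.coe_eval₂Hom,
      MvPolynomial.eval₂_comp_left (residue O)]
    rfl
  have h0' : ∀ j, MvPolynomial.eval z0 (G j) ∈ maximalIdeal O := fun j => by
    rw [← residue_eq_zero_iff, ← key]; exact h0 j
  have hJ' : IsUnit (Matrix.det (Matrix.of fun i j => MvPolynomial.eval z0 (pderiv i (G j)))) := by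
    by_contra hnu
    have hm : Matrix.det (Matrix.of fun i j => MvPolynomial.eval z0 (pderiv i (G j)))
        ∈ maximalIdeal O := by rwa [mem_maximalIdeal, mem_nonunits_iff]
    rw [← residue_eq_zero_iff, RingHom.map_det] at hm
    apply hJ
    rw [← hm]
    congr 1
    ext i j
    simp [key]
  obtain ⟨z, hz, hzz⟩ := exists_lift_of_isUnit_jacobian G z0 h0' hJ'
  refine ⟨z, hz, fun i => ?_⟩
  rw [← hz0 i, ← sub_eq_zero, ← map_sub, residue_eq_zero_iff]
  exact hzz i

end Jacobian

end Fermat.Agent.S27x.Spec.HenselMulti
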