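import Mathlib
import Fermat.Agent.S27x.Spec.HenselMulti

/-!
# P-S27 block D7: multi-variable Hensel, rectangular index types (helper17)

Convenience wrappers around `HenselMulti.exists_lift_of_residue_solution` for systems whose
equations and unknowns are indexed by *different* finite types of the same cardinality, with the
Jacobian condition stated as *injectivity of the differential* at the residue solution
(no determinant appears in the statement).

* `exists_lift_of_injective_jacobian`: equations `G : κ → MvPolynomial ι O`, `#κ = #ι`,
  `zbar : ι → ResidueField O` a solution of the reduced system such that the only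
  `v : ι → ResidueField O` with `∑ i, ∂ᵢ G_j (zbar) * v i = 0` for all `j` is `v = 0`.
  Then there is an exact solution `z : ι → O` reducing to `zbar`.
* `exists_lift_of_injective_jacobian'`: the same with the reduced system given as
  `MvPolynomial.map (residue O) (G j)` and `MvPolynomial.eval`.
-/

set_option autoImplicit false

noncomputable section

namespace Fermat.Agent.S27x.Spec.HenselRect

open IsLocalRing MvPolynomial Fermat.Agent.S27x.Spec.HenselMulti

variable {O : Type*} [CommRing O] [HenselianLocalRing O]
variable {ι κ : Type*} [Fintype ι] [Fintype κ]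

/-- **Multi-variable Hensel lemma, rectangular form**: `#equations = #unknowns` and the
differential of the reduced system at the residue solution is injective. -/
theorem exists_lift_of_injective_jacobian
    (hcard : Fintype.card κ = Fintype.card ι)
    (G : κ → MvPolynomial ι O) (zbar : ι → ResidueField O)
    (h0 : ∀ j, MvPolynomial.aeval zbar (G j) = 0)
    (hker : ∀ v : ι → ResidueField O,
      (∀ j, ∑ i, MvPolynomial.aeval zbar (pderiv i (G j)) * v i = 0) → v = 0) :
    ∃ z : ι → O, (∀ j, MvPolynomial.eval z (G j) = 0) ∧ ∀ i, residue O (z i) = zbar i := by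
  classical
  let e : ι ≃ κ := Fintype.equivOfCardEq hcard.symm
  have hJ : Matrix.det (Matrix.of fun i j =>
      MvPolynomial.aeval zbar (pderiv i (G (e j)))) ≠ 0 := by
    intro hdet
    obtain ⟨v, hv, hv0⟩ := Matrix.exists_vecMul_eq_zero_iff.mpr hdet
    refine hv (hker v fun j => ?_)
    have := congrFun hv0 (e.symm j)
    simp only [Matrix.vecMul, dotProduct, Matrix.of_apply, Equiv.apply_symm_apply,
      Pi.zero_apply] at this
    rw [← this]
    exact Finset.sum_congr rfl fun i _ => mul_comm _ _
  obtain ⟨z, hz, hres⟩ := exists_lift_of_residue_solution (fun j => G (e j)) zbar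
    (fun j => h0 (e j)) hJ
  refine ⟨z, fun j => ?_, hres⟩
  have := hz (e.symm j)
  simpa using this

/-- The same with the reduced system written with `MvPolynomial.map (residue O)` and `eval`. -/
theorem exists_lift_of_injective_jacobian'
    (hcard : Fintype.card κ = Fintype.card ι)
    (G : κ → MvPolynomial ι O) (zbar : ι → ResidueField O)
    (h0 : ∀ j, MvPolynomial.eval zbar (MvPolynomial.map (residue O) (G j)) = 0)
    (hker : ∀ v : ι → ResidueField O,
      (∀ j, ∑ i, MvPolynomial.eval zbar (pderiv i (MvPolynomial.map (residue O) (G j))) * v i
        = 0) → v = 0) :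
    ∃ z : ι → O, (∀ j, MvPolynomial.eval z (G j) = 0) ∧ ∀ i, residue O (z i) = zbar i := by
  have key : ∀ p : MvPolynomial ι O,
      MvPolynomial.aeval zbar p = MvPolynomial.eval zbar (MvPolynomial.map (residue O) p) := by
    intro p
    rw [MvPolynomial.eval_map, MvPolynomial.aeval_def]
    rfl
  refine exists_lift_of_injective_jacobian hcard G zbar (fun j => (key _).trans (h0 j))
    fun v hv => hker v fun j => ?_
  rw [← hv j]
  refine Finset.sum_congr rfl fun i _ => ?_
  rw [key, MvPolynomial.pderiv_map]

end Fermat.Agent.S27x.Spec.HenselRect
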