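import Mathlib
import Fermat.Agent.S27x.Spec.AperyModel
import Fermat.Agent.S27x.Spec.Adm
import Fermat.Agent.S27x.Spec.GaussNorm.Ring

/-!
# P-S27 block D (D2 -> D3/D8): the Apéry model over `K` is integral over every sufficiently
general admissible valuation ring

* `ev_aperyData_of_isModel` : for a weighted model `M : IsModel W x f i₀ PK` of `F / K`, every
  sufficiently general admissible valuation ring `A` of `K` (in the sense of `Spec.Ev`) carries
  `D : GaussNorm.AperyData A F ι` with the same `W, x, f, i₀` and `D.P` mapping to `PK`: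
  conditions (A1) (coefficients of the structure constants in `A`) and (A2) (top leading
  coefficients units of `A`) of the design.
* `IsIntegralForm Mo D` : the dictionary between a `ModelAt` over `K` and an integral form `D`,
  with all the facts of `ModelAt` restated for `D.x`, `D.f`, `D.W`.
* `ev_modelAt` : the same for the packaged `ModelAt P d` of `Spec/AperyModel.lean`.
-/

set_option autoImplicit false
set_option linter.unusedSectionVars false

noncomputable section

open Polynomial AlgebraicCurve IntermediateField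

namespace Fermat.Agent.S27x.Spec.ModelEv

open Fermat.Agent.S27x.Spec Fermat.Agent.S27x.Spec.GaussNorm Fermat.Agent.S27x.Spec.AperyModel

variable {k K F : Type*} [Field k] [Field K] [Algebra k K] [Field F] [Algebra K F]

section General

variable {ι : Type*} [Fintype ι] {W : Weights ι} {x : F} {f : ι → F} {i₀ : ι}
  {PK : ι → ι → ι → K[X]}

/-- (A1): the coefficients of the structure constants lie in every sufficiently general `A`. -/
theorem ev_coeff_mem_sc (PK : ι → ι → ι → K[X]) :
    Ev k (fun (A : ValuationSubring K) _ => ∀ i j l n, (PK i j l).coeff n ∈ A) :=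
  Ev.forall_finite fun i => Ev.forall_finite fun j => Ev.forall_finite fun l =>
    ev_coeff_mem (PK i j l)

/-- **(A1) + (A2)**: a weighted model over `K` has an integral form over every sufficiently
general admissible valuation ring. -/
theorem ev_aperyData_of_isModel (M : IsModel W x f i₀ PK) :
    Ev k (fun (A : ValuationSubring K) _ =>
      ∃ D : GaussNorm.AperyData A F ι, D.W = W ∧ D.x = x ∧ D.f = f ∧ D.i₀ = i₀ ∧
        ∀ i j l, (D.P i j l).map (algebraMap A K) = PK i j l) := by
  choose l hl using M.sc.top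
  have h1 := ev_coeff_mem_sc (k := k) PK
  have h2 : Ev k (fun (A : ValuationSubring K) _ =>
      ∀ i j, A.valuation (PK i j (l i j)).leadingCoeff = 1) :=
    Ev.forall_finite fun i => Ev.forall_finite fun j =>
      ev_valuation_eq_one (hl i j).1.ne_zero
  refine (h1.and h2).mono fun A _ hh => ?_
  obtain ⟨hA, hU⟩ := hh
  have htop : ∀ i j, ∃ l', A.valuation (PK i j l').leadingCoeff = 1 ∧
      W.d * (PK i j l').natDegree + W.m l' = W.m i + W.m j :=
    fun i j => ⟨l i j, hU i j, (hl i j).2⟩
  exact ⟨AperyData.ofK A W x f i₀ PK M hA htop, rfl, rfl, rfl, rfl,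
    fun i j l' => AperyData.ofK_P_map A W x f i₀ PK M hA htop i j l'⟩

/-- **Constant families**: if the structure constants have coefficients in `k`, the integral form
exists over EVERY admissible valuation ring. -/
theorem exists_aperyData_of_coeff_mem_range (M : IsModel W x f i₀ PK)
    (hk : ∀ i j l n, (PK i j l).coeff n ∈ Set.range (algebraMap k K))
    (A : ValuationSubring K) (h : Adm k A) :
    ∃ D : GaussNorm.AperyData A F ι, D.W = W ∧ D.x = x ∧ D.f = f ∧ D.i₀ = i₀ ∧
      ∀ i j l, (D.P i j l).map (algebraMap A K) = PK i j l := by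
  have hA : ∀ i j l n, (PK i j l).coeff n ∈ A := by
    intro i j l n
    obtain ⟨a, ha⟩ := hk i j l n
    rw [← ha]
    exact h.algebraMap_mem a
  have htop : ∀ i j, ∃ l', A.valuation (PK i j l').leadingCoeff = 1 ∧
      W.d * (PK i j l').natDegree + W.m l' = W.m i + W.m j := by
    intro i j
    obtain ⟨l, hl1, hl2⟩ := M.sc.top i j
    refine ⟨l, ?_, hl2⟩
    obtain ⟨a, ha⟩ := hk i j l (PK i j l).natDegree
    have ha' : algebraMap k K a = (PK i j l).leadingCoeff := ha
    have ha0 : a ≠ 0 := by
      rintro rfl
      rw [map_zero] at ha'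
      exact hl1.ne_zero ha'.symm
    have hu := h.isUnit_const ha0
    have := (A.valuation_eq_one_iff (h.const a)).mp hu
    rw [← ha']
    exact this
  exact ⟨AperyData.ofK A W x f i₀ PK M hA htop, rfl, rfl, rfl, rfl,
    fun i j l' => AperyData.ofK_P_map A W x f i₀ PK M hA htop i j l'⟩

end General

/-! ### The packaged model `ModelAt` -/

section Packaged

variable {P : Place K F} {d : ℕ}

/-- `D` is an integral form over `A` of the model `Mo` over `K`: same weights, coordinate, basis,
and the structure constants of `D` map to those of `Mo`. -/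
structure IsIntegralForm (Mo : ModelAt P d) {A : ValuationSubring K}
    (D : GaussNorm.AperyData A F (Fin d)) : Prop where
  W_eq : D.W = Mo.W
  x_eq : D.x = Mo.x
  f_eq : D.f = Mo.f
  i₀_eq : D.i₀ = Mo.i₀
  P_map : ∀ i j l, (D.P i j l).map (algebraMap A K) = Mo.PK i j l

namespace IsIntegralForm

variable {Mo : ModelAt P d} {A : ValuationSubring K} {D : GaussNorm.AperyData A F (Fin d)}

theorem W_d (hD : IsIntegralForm Mo D) : D.W.d = d := by
  rw [hD.W_eq]
  exact Mo.W_d

theorem pole_iff (hD : IsIntegralForm Mo D) (v : Place K F) : v.ord D.x < 0 ↔ v = P := by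
  rw [hD.x_eq]
  exact Mo.pole_iff v

theorem ord_x (hD : IsIntegralForm Mo D) : P.ord D.x = -(d : ℤ) := by
  rw [hD.x_eq]
  exact Mo.ord_x

theorem transc (hD : IsIntegralForm Mo D) : Transcendental K D.x := by
  rw [hD.x_eq]
  exact Mo.transc

theorem fin (hD : IsIntegralForm Mo D) : FiniteDimensional K⟮D.x⟯ F := by
  obtain ⟨W, x, f, i₀, P', sc, model⟩ := D
  obtain ⟨-, hx, -, -, -⟩ := hD
  simp only at hx
  subst hx
  exact Mo.fin

theorem finrank_eq (hD : IsIntegralForm Mo D) : Module.finrank K⟮D.x⟯ F = d := by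
  obtain ⟨W, x, f, i₀, P', sc, model⟩ := D
  obtain ⟨-, hx, -, -, -⟩ := hD
  simp only at hx
  subst hx
  exact Mo.finrank_eq

theorem ord_ev (hD : IsIntegralForm Mo D) {u : Fin d → K[X]} (hu : u ≠ 0) :
    P.ord (ev D.x D.f u) = -(D.W.wdeg u : ℤ) := by
  rw [hD.x_eq, hD.f_eq, hD.W_eq]
  exact Mo.ord_ev u hu

/-- `hB`: integrality over `K[x]`. -/
theorem integral_iff (hD : IsIntegralForm Mo D) (g : F) :
    IsIntegral (Algebra.adjoin K {D.x}) g ↔ ∃ u : Fin d → K[X], g = ev D.x D.f u := by
  obtain ⟨W, x, f, i₀, P', sc, model⟩ := D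
  obtain ⟨-, hx, hf, -, -⟩ := hD
  simp only at hx hf
  subst hx hf
  exact Mo.integral_iff g

/-- `hB'`: integrality over `K[1/x]`. -/
theorem integral_inv (hD : IsIntegralForm Mo D) (g : F)
    (hg : IsIntegral (Algebra.adjoin K {D.x⁻¹}) g) :
    ∃ (N : ℕ) (u : Fin d → K[X]), D.W.wdeg u ≤ N * D.W.d ∧ g = D.x⁻¹ ^ N * ev D.x D.f u := by
  obtain ⟨W, x, f, i₀, P', sc, model⟩ := D
  obtain ⟨hW, hx, hf, -, -⟩ := hD
  simp only at hW hx hf
  subst hW hx hf
  exact Mo.integral_inv g hg

end IsIntegralForm

/-- **The model `Mo` over `K` has an integral form over every sufficiently general admissible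
valuation ring** (conditions (A1), (A2) of the design). -/
theorem ev_modelAt (Mo : ModelAt P d) :
    Ev k (fun (A : ValuationSubring K) _ =>
      ∃ D : GaussNorm.AperyData A F (Fin d), IsIntegralForm Mo D) :=
  (ev_aperyData_of_isModel (k := k) Mo.model).mono fun _ _ hh => by
    obtain ⟨D, h1, h2, h3, h4, h5⟩ := hh
    exact ⟨D, ⟨h1, h2, h3, h4, h5⟩⟩

/-- **Ticket form**: for every place `P` of a function field over an algebraically closed field of
characteristic zero there are `d ≥ 1`, a model `Mo : ModelAt P d` over `K`, and integral forms of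
`Mo` over every sufficiently general admissible valuation ring. -/
theorem exists_modelAt_ev [IsAlgClosed K] [CharZero K] {x₀ : F} (hx₀ : Transcendental K x₀)
    [FiniteDimensional K⟮x₀⟯ F] (P : Place K F) :
    ∃ (d : ℕ) (_ : 0 < d) (Mo : ModelAt P d),
      Ev k (fun (A : ValuationSubring K) _ =>
        ∃ D : GaussNorm.AperyData A F (Fin d), IsIntegralForm Mo D) := by
  obtain ⟨d, hd, ⟨Mo⟩⟩ := exists_modelAt hx₀ P
  exact ⟨d, hd, Mo, ev_modelAt Mo⟩

end Packaged

end Fermat.Agent.S27x.Spec.ModelEv
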