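import Fermat.Agent.S27x.Spec.GaussNorm.Hints
import Fermat.Agent.S27x.Spec.Deuring.Reduce
import Fermat.Agent.S27x.Spec.StepModel

/-!
# P-S27 block D: the hypotheses `Deuring.Hyp` for the Gauss-norm model

For an integral Apéry model `D : GaussNorm.AperyData A F ι` (helper2) with reduction
`(k, D.κ, D.xb, D.fb)` the reduction setup `D.redSetup ..` satisfies the standing hypotheses
`Deuring.Hyp` of the chart-free reduction of divisors (helper59), as soon as the genus does not
drop (`hgenus`, the output of block D4):

* `res_surj` : the residue map is surjective;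
* `cart` : `D.hcart` (cartesian lattices);
* `ff`, `ffb` : both fibres are finite over `K(x)`, resp. `k(x̄)` (`ModelDegree`).

`hyp` is the statement for `D.redSetup`, `hyp_gauss` the one for `Spec.gaussRedSetup M hc h`
(helper95's `StepModel`).
-/

set_option autoImplicit false
set_option linter.unusedSectionVars false
set_option linter.style.haveILetI false

namespace Fermat.Agent.S27x.Spec.ModelHyp

open IsLocalRing IntermediateField AlgebraicCurve Fermat.Agent.S27x.Spec.GaussNorm
  Fermat.Agent.S27x.Spec.Deuring

section general

variable {K : Type*} [Field K] {A : ValuationSubring K} {F : Type*} [Field F] [Algebra K F]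
  {ι : Type*} [Fintype ι] (D : AperyData A F ι)
  {k : Type*} [Field k] [Algebra k D.κ] {π : A →+* k} (hc : D.Compat π)
  (hπ : Function.Surjective π)
  (rank_one : ∀ x ∈ maximalIdeal A, ∀ c : A, c ≠ 0 → ∃ j : ℕ, c ∣ x ^ j)
  (exists_ne_zero : ∃ ϖ ∈ maximalIdeal A, ϖ ≠ 0)

include D in
/-- The general fibre is a function field of one variable: `x` is transcendental and `F` is
finite over `K(x)`. -/
theorem ff : ∃ x : F, Transcendental K x ∧ FiniteDimensional K⟮x⟯ F :=
  ⟨D.x, D.model.transcendental, D.finiteDimensional_K⟩

include hc hπ in
/-- The special fibre is a function field of one variable: `x̄` is transcendental and `κ` is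
finite over `k(x̄)`. -/
theorem ffb : ∃ xb : D.κ, Transcendental k xb ∧ FiniteDimensional k⟮xb⟯ D.κ :=
  ⟨D.xb, D.transcendental_xb hc hπ, D.finiteDimensional_k hc hπ⟩

/-- **`Deuring.Hyp` for the Gauss-norm model**, given that the genus does not drop. -/
theorem hyp (hgenus : genusFF K F ≤ genusFF k D.κ) :
    Hyp (D.redSetup hc hπ rank_one exists_ne_zero) where
  res_surj := D.res_surjective
  cart := fun V hV => D.hcart (D.redSetup hc hπ rank_one exists_ne_zero) V hV
  genus_le := hgenus
  ff := ff D
  ffb := ffb D hc hπ

end general

section gauss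

open Fermat.Agent.S27x.Spec.AperyModel

variable {K F : Type*} [Field K] [Field F] [Algebra K F] {P : Place K F} {d : ℕ}
  (M : ModelAt P d) {A : ValuationSubring K} (hc : IntegralCond M A)
  {k : Type*} [Field k] [Algebra k K] (h : Adm k A)

/-- **`Deuring.Hyp` for `Spec.gaussRedSetup`** (the reduction setup of block D8). -/
theorem hyp_gauss
    (hgenus : letI := gaussAlgebra M hc h
      genusFF K F ≤ genusFF k (gaussData M hc).κ) :
    letI := gaussAlgebra M hc h
    Hyp (gaussRedSetup M hc h) :=
  letI := gaussAlgebra M hc h
  hyp (gaussData M hc) ((gaussData M hc).resAlgebra_compat h.π h.π_surj) h.π_surj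
    h.rank_one h.exists_ne_zero hgenus

end gauss

end Fermat.Agent.S27x.Spec.ModelHyp
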