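/-
P-S27 block D1 (helper94): the specialisation ring is rank one.

`k0 ⊆ K`, `K` algebraic over `k0[t]`, `A` a valuation subring of `K` containing `k0` with `t` a
nonunit.  Then the value group of `A` is commensurable with `v(t)^ℤ`; in particular `A` satisfies
the `rank_one` field of `Gateway/C0/Count.lean` `RedSetup`.
-/
import Fermat.Agent.S27x.Spec.PlaceExt

set_option autoImplicit false

namespace Fermat.Agent.S27x.Spec

open Polynomial IsLocalRing

variable {k0 K : Type*} [Field k0] [Field K] [Algebra k0 K]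

/-- ultrametric: in a vanishing finite sum with a nonzero term, the maximal valuation is attained
twice -/
lemma exists_ne_valuation_eq_of_sum_eq_zero {Γ : Type*} [LinearOrderedCommGroupWithZero Γ]
    (v : Valuation K Γ) {ι : Type*} [DecidableEq ι] (s : Finset ι) (a : ι → K)
    (hsum : ∑ i ∈ s, a i = 0) (hne : ∃ i ∈ s, a i ≠ 0) :
    ∃ i ∈ s, ∃ l ∈ s, i ≠ l ∧ a i ≠ 0 ∧ a l ≠ 0 ∧ v (a i) = v (a l) := by
  obtain ⟨i0, hi0, hi0ne⟩ := hne
  obtain ⟨i, hi, hmax⟩ := Finset.exists_max_image s (fun i => v (a i)) ⟨i0, hi0⟩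
  have hvi : v (a i) ≠ 0 := by
    intro h
    have := hmax i0 hi0
    rw [h] at this
    exact hi0ne ((v.zero_iff).mp (le_antisymm this zero_le))
  have hai : a i ≠ 0 := fun h => hvi (by rw [h, map_zero])
  by_contra hcon
  push Not at hcon
  -- every other term has strictly smaller valuation
  have hlt : ∀ l ∈ s.erase i, v (a l) < v (a i) := by
    intro l hl
    have hl' := Finset.mem_erase.mp hl
    rcases eq_or_ne (a l) 0 with h0 | h0
    · rw [h0, map_zero]; exact zero_lt_iff.mpr hvi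
    · exact lt_of_le_of_ne (hmax l hl'.2) (fun h => hcon i hi l hl'.2 (Ne.symm hl'.1) hai h0 h.symm)
  have h1 : v (∑ l ∈ s.erase i, a l) < v (a i) := v.map_sum_lt hvi hlt
  have h2 : a i = -∑ l ∈ s.erase i, a l := by
    rw [eq_neg_iff_add_eq_zero, Finset.add_sum_erase s a hi, hsum]
  have h3 : v (a i) = v (∑ l ∈ s.erase i, a l) := by
    conv_lhs => rw [h2, Valuation.map_neg]
  rw [h3] at h1
  exact lt_irrefl _ h1

/-- order arithmetic behind commensurability -/
lemma exists_pow_eq_pow_of_mul_eq {Γ : Type*} [LinearOrderedCommGroupWithZero Γ] {X T : Γ}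
    (hX0 : X ≠ 0) (hX1 : X < 1) (hT1 : T ≤ 1) {e e' i a : ℕ} (ha : 1 ≤ a)
    (h : T ^ e * X ^ i = T ^ e' * X ^ (i + a)) (hne : T ^ e * X ^ i ≠ 0) :
    ∃ b : ℕ, 1 ≤ b ∧ X ^ a = T ^ b := by
  have hXi : X ^ i ≠ 0 := pow_ne_zero _ hX0
  have hTe : T ^ e ≠ 0 := left_ne_zero_of_mul hne
  have hTe' : T ^ e' ≠ 0 := by
    rw [h] at hne
    exact left_ne_zero_of_mul hne
  have hXa : X ^ a < 1 := pow_lt_one₀ zero_le hX1 (by omega)
  rcases le_or_gt e e' with hle | hlt
  · exfalso
    obtain ⟨d, rfl⟩ := Nat.exists_eq_add_of_le hle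
    have h1 : T ^ e * X ^ i * 1 = T ^ e * X ^ i * (T ^ d * X ^ a) := by
      calc T ^ e * X ^ i * 1 = T ^ e * X ^ i := mul_one _
        _ = T ^ (e + d) * X ^ (i + a) := h
        _ = (T ^ e * T ^ d) * (X ^ i * X ^ a) := by rw [pow_add, pow_add]
        _ = _ := by ac_rfl
    have h2 : (1 : Γ) = T ^ d * X ^ a := mul_left_cancel₀ hne h1
    have h3 : T ^ d * X ^ a < 1 := by
      calc T ^ d * X ^ a ≤ 1 * X ^ a := by
            gcongr
            exact pow_le_one₀ zero_le hT1
        _ = X ^ a := one_mul _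
        _ < 1 := hXa
    rw [← h2] at h3
    exact lt_irrefl _ h3
  · obtain ⟨b, rfl⟩ := Nat.exists_eq_add_of_lt hlt
    refine ⟨b + 1, by omega, ?_⟩
    have h1 : T ^ e' * X ^ i * T ^ (b + 1) = T ^ e' * X ^ i * X ^ a := by
      have h' : T ^ (e' + (b + 1)) * X ^ i = T ^ e' * X ^ (i + a) := h
      rw [pow_add T e' (b + 1), pow_add X i a] at h'
      calc T ^ e' * X ^ i * T ^ (b + 1) = T ^ e' * T ^ (b + 1) * X ^ i := by ac_rfl
        _ = T ^ e' * (X ^ i * X ^ a) := h'
        _ = _ := by ac_rfl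
    exact (mul_left_cancel₀ (mul_ne_zero hTe' hXi) h1).symm

section RankOne

variable (A : ValuationSubring K) (hk : ∀ a : k0, algebraMap k0 K a ∈ A)
include hk

lemma valuation_algebraMap_eq_one {a : k0} (ha : a ≠ 0) : A.valuation (algebraMap k0 K a) = 1 := by
  have h1 : A.valuation (algebraMap k0 K a) ≤ 1 := (A.valuation_le_one_iff _).mpr (hk a)
  have h2 : A.valuation (algebraMap k0 K a⁻¹) ≤ 1 := (A.valuation_le_one_iff _).mpr (hk a⁻¹)
  have h3 : A.valuation (algebraMap k0 K a) * A.valuation (algebraMap k0 K a⁻¹) = 1 := by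
    rw [← map_mul, ← map_mul, mul_inv_cancel₀ ha, map_one, map_one]
  refine le_antisymm h1 ?_
  calc (1 : A.ValueGroup) = A.valuation (algebraMap k0 K a) * A.valuation (algebraMap k0 K a⁻¹) :=
        h3.symm
    _ ≤ A.valuation (algebraMap k0 K a) * 1 := by gcongr
    _ = _ := mul_one _

lemma aeval_mem (t : K) (ht : t ∈ A) (p : k0[X]) : aeval t p ∈ A := by
  rw [aeval_eq_sum_range]
  refine A.toSubring.sum_mem fun i _ => ?_
  rw [Algebra.smul_def]
  exact A.mul_mem _ _ (hk _) (A.toSubring.pow_mem ht i)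

lemma valuation_aeval_eq_one {t : K} (ht : A.valuation t < 1) {q : k0[X]} (hq : q.coeff 0 ≠ 0) :
    A.valuation (aeval t q) = 1 := by
  have htA : t ∈ A := (A.valuation_le_one_iff _).mp ht.le
  have hdec : aeval t q = aeval t q.divX * t + algebraMap k0 K (q.coeff 0) := by
    conv_lhs => rw [← Polynomial.divX_mul_X_add q]
    simp
  have h1 : A.valuation (aeval t q.divX * t) < 1 := by
    rw [map_mul]
    calc A.valuation (aeval t q.divX) * A.valuation t ≤ 1 * A.valuation t := by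
          gcongr
          exact (A.valuation_le_one_iff _).mpr (aeval_mem A hk t htA _)
      _ = A.valuation t := one_mul _
      _ < 1 := ht
  rw [hdec, add_comm]
  rw [Valuation.map_add_eq_of_lt_left]
  · exact valuation_algebraMap_eq_one A hk hq
  · rw [valuation_algebraMap_eq_one A hk hq]; exact h1

lemma valuation_aeval_eq_pow {t : K} (ht : A.valuation t < 1) {p : k0[X]} (hp : p ≠ 0) :
    A.valuation (aeval t p) = A.valuation t ^ (p.rootMultiplicity 0) := by
  obtain ⟨q, hpq, hq⟩ := Polynomial.exists_eq_pow_rootMultiplicity_mul_and_not_dvd p hp 0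
  have hq0 : q.coeff 0 ≠ 0 := by
    intro h
    apply hq
    rw [map_zero, sub_zero]
    exact Polynomial.X_dvd_iff.mpr h
  conv_lhs => rw [hpq]
  rw [map_zero, sub_zero, map_mul, map_pow, aeval_X, map_mul, map_pow,
    valuation_aeval_eq_one A hk ht hq0, mul_one]

/-- **Commensurability.** Every nonzero nonunit `x` of `A` which is algebraic over `k0[t]`
satisfies `v(x)^a = v(t)^b` with `a, b ≥ 1`. -/
lemma exists_pow_valuation_eq {t : K} (ht : A.valuation t < 1) {x : K} (hx0 : x ≠ 0)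
    (hx1 : A.valuation x < 1) (halg : IsAlgebraic (Algebra.adjoin k0 {t}) x) :
    ∃ a b : ℕ, 1 ≤ a ∧ 1 ≤ b ∧ A.valuation x ^ a = A.valuation t ^ b := by
  classical
  obtain ⟨P, hP0, hPx⟩ := halg
  have hvx0 : A.valuation x ≠ 0 := (A.valuation.ne_zero_iff).mpr hx0
  -- the terms of the relation
  let c : ℕ → K := fun i => ((P.coeff i : Algebra.adjoin k0 {t}) : K)
  have hsum : ∑ i ∈ P.support, c i * x ^ i = 0 := by
    rw [← hPx, aeval_def, eval₂_eq_sum, Polynomial.sum_def]
    rfl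
  obtain ⟨i0, hi0⟩ := Polynomial.nonempty_support_iff.mpr hP0
  have hcne : ∀ i ∈ P.support, c i ≠ 0 := by
    intro i hi h
    exact (Polynomial.mem_support_iff.mp hi) (Subtype.ext h)
  have hterm : ∀ i ∈ P.support, c i * x ^ i ≠ 0 := fun i hi =>
    mul_ne_zero (hcne i hi) (pow_ne_zero _ hx0)
  obtain ⟨i, hi, l, hl, hil, hai, hal, hv⟩ :=
    exists_ne_valuation_eq_of_sum_eq_zero A.valuation P.support (fun i => c i * x ^ i) hsum
      ⟨i0, hi0, hterm i0 hi0⟩
  -- valuations of the coefficients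
  have hcoef : ∀ i ∈ P.support, ∃ e : ℕ, A.valuation (c i) = A.valuation t ^ e := by
    intro i hi
    have hmem : c i ∈ Algebra.adjoin k0 {t} := (P.coeff i).2
    rw [Algebra.adjoin_singleton_eq_range_aeval] at hmem
    obtain ⟨p, hp⟩ := hmem
    have hp' : aeval t p = c i := hp
    have hp0 : p ≠ 0 := by
      rintro rfl
      rw [map_zero] at hp'
      exact hcne i hi hp'.symm
    exact ⟨_, by rw [← hp']; exact valuation_aeval_eq_pow A hk ht hp0⟩
  obtain ⟨ei, hei⟩ := hcoef i hi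
  obtain ⟨el, hel⟩ := hcoef l hl
  simp only [map_mul, map_pow] at hv
  rw [hei, hel] at hv
  have hne_i : A.valuation t ^ ei * A.valuation x ^ i ≠ 0 := by
    rw [← hei, ← map_pow, ← map_mul]
    exact (A.valuation.ne_zero_iff).mpr hai
  have hne_l : A.valuation t ^ el * A.valuation x ^ l ≠ 0 := by
    rw [← hel, ← map_pow, ← map_mul]
    exact (A.valuation.ne_zero_iff).mpr hal
  rcases lt_or_gt_of_ne hil with h | h
  · obtain ⟨a, rfl⟩ := Nat.exists_eq_add_of_lt h
    obtain ⟨b, hb, hab⟩ := exists_pow_eq_pow_of_mul_eq hvx0 hx1 ht.le (a := a + 1) (by omega)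
      (by rw [hv]; congr 2) hne_i
    exact ⟨a + 1, b, by omega, hb, hab⟩
  · obtain ⟨a, rfl⟩ := Nat.exists_eq_add_of_lt h
    obtain ⟨b, hb, hab⟩ := exists_pow_eq_pow_of_mul_eq hvx0 hx1 ht.le (a := a + 1) (by omega)
      (by rw [← hv]; congr 2) hne_l
    exact ⟨a + 1, b, by omega, hb, hab⟩

/-- **Rank one** (the `rank_one` field of `Gateway/C0/Count.lean` `RedSetup`): if `K` is algebraic
over `k0[t]`, `k0 ⊆ A` and `t` is a nonunit of `A`, then any nonzero element of `A` divides a power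
of any element of the maximal ideal. -/
theorem rank_one_of_isAlgebraic {t : K} (ht : t ∈ A.nonunits)
    (halg : Algebra.IsAlgebraic (Algebra.adjoin k0 {t}) K) :
    ∀ x ∈ maximalIdeal A, ∀ c : A, c ≠ 0 → ∃ j : ℕ, c ∣ x ^ j := by
  intro x hx c hc
  have ht1 : A.valuation t < 1 := A.mem_nonunits_iff.mp ht
  have hx1 : A.valuation (x : K) < 1 := (A.valuation_lt_one_iff x).mp hx
  have hc0 : (c : K) ≠ 0 := fun h => hc (Subtype.ext h)
  -- divisibility from valuations
  have hdvd : ∀ j : ℕ, A.valuation ((x : K) ^ j) ≤ A.valuation (c : K) → c ∣ x ^ j := by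
    intro j hj
    have hmem : (x : K) ^ j / (c : K) ∈ A := by
      rw [← A.valuation_le_one_iff, map_div₀]
      exact div_le_one_of_le₀ hj zero_le
    refine ⟨⟨_, hmem⟩, Subtype.ext ?_⟩
    push_cast
    rw [mul_div_cancel₀ _ hc0]
  by_cases hx0 : (x : K) = 0
  · refine ⟨1, hdvd 1 ?_⟩
    rw [hx0, pow_one, map_zero]
    exact zero_le
  rcases (A.valuation_lt_one_or_eq_one c) with hc1 | hc1
  · obtain ⟨a, b, ha, hb, hab⟩ :=
      exists_pow_valuation_eq A hk ht1 hx0 hx1 (halg.isAlgebraic _)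
    obtain ⟨a', b', ha', hb', hab'⟩ :=
      exists_pow_valuation_eq A hk ht1 hc0 hc1 (halg.isAlgebraic _)
    refine ⟨a * b', hdvd (a * b') ?_⟩
    rw [map_pow, pow_mul, hab, ← pow_mul, mul_comm b b', pow_mul, ← hab', ← pow_mul]
    exact pow_le_of_le_one zero_le hc1.le (by positivity)
  · refine ⟨0, hdvd 0 ?_⟩
    rw [pow_zero, map_one, hc1]

end RankOne

lemma adjoin_sub_algebraMap_eq (c : K) (a : k0) :
    Algebra.adjoin k0 {c - algebraMap k0 K a} = Algebra.adjoin k0 {c} := by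
  apply le_antisymm
  · refine Algebra.adjoin_le ?_
    intro y hy
    rw [Set.mem_singleton_iff.mp hy]
    exact sub_mem (Algebra.subset_adjoin rfl) (Subalgebra.algebraMap_mem _ _)
  · refine Algebra.adjoin_le ?_
    intro y hy
    rw [Set.mem_singleton_iff.mp hy]
    have h1 : c - algebraMap k0 K a ∈ Algebra.adjoin k0 {c - algebraMap k0 K a} :=
      Algebra.subset_adjoin rfl
    have h2 := add_mem h1 (Subalgebra.algebraMap_mem (Algebra.adjoin k0 {c - algebraMap k0 K a}) a)
    rwa [sub_add_cancel] at h2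

lemma isAlgebraic_of_subalgebra_eq {S T : Subalgebra k0 K} (h : S = T)
    (hS : Algebra.IsAlgebraic S K) : Algebra.IsAlgebraic T K := by
  subst h; exact hS

/-- **The specialisation ring of block D** (`(P2')` of S27-DESIGN-D). `k0 ⊆ K`, `k0` algebraically
closed, `c ∈ K` transcendental over `k0` with `K` algebraic over `k0[c]` (transcendence degree
one).  For finite sets `S` and `U ⊆ Kˣ` there is a valuation subring `A` of `K` containing `k0` and
`S`, in which all `u ∈ U` are units, with a residue map `π : A → k0` which is the identity on `k0`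
(so the residue field is exactly `k0`), of rank one, and nontrivial.  The last five clauses are
the fields `π_surj`, kernel of `π`, `rank_one`, `exists_ne_zero` of `Gateway.C0.RedSetup`. -/
theorem exists_rankOne_valuationSubring [IsAlgClosed k0] (c : K) (hc : Transcendental k0 c)
    (halg : Algebra.IsAlgebraic (Algebra.adjoin k0 {c}) K) (S U : Finset K) :
    ∃ (A : ValuationSubring K) (π : A →+* k0),
      (∀ a : k0, algebraMap k0 K a ∈ A) ∧ (∀ s ∈ S, s ∈ A) ∧ (∀ u ∈ U, u ∈ A ∧ u⁻¹ ∈ A) ∧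
      Function.Surjective π ∧ (∀ (a : k0) (h : algebraMap k0 K a ∈ A), π ⟨_, h⟩ = a) ∧
      (∀ x : A, π x = 0 ↔ x ∈ maximalIdeal A) ∧
      (∀ x ∈ maximalIdeal A, ∀ c : A, c ≠ 0 → ∃ j : ℕ, c ∣ x ^ j) ∧
      ∃ ϖ ∈ maximalIdeal A, ϖ ≠ 0 := by
  classical
  let S' : Finset K := S ∪ U ∪ U.image (·⁻¹) ∪ {c}
  let R : Subalgebra k0 K := Algebra.adjoin k0 (S' : Set K)
  have hR : R.FG := Subalgebra.fg_adjoin_finset S'
  obtain ⟨A, f, hRA, -, hf1, hkA, hf2⟩ := exists_valuationSubring_of_fg R hR 1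
  have hS' : ∀ s ∈ S', s ∈ A := fun s hs => hRA (Algebra.subset_adjoin (Finset.mem_coe.mpr hs))
  have hcA : c ∈ A := hS' c (by simp [S'])
  -- the uniformising parameter
  let a0 : k0 := f ⟨c, hcA⟩
  let t : A := ⟨c, hcA⟩ - ⟨algebraMap k0 K a0, hkA a0⟩
  have hft : f t = 0 := by
    change f (⟨c, hcA⟩ - ⟨algebraMap k0 K a0, hkA a0⟩) = 0
    rw [map_sub, hf1, sub_self]
  have htm : t ∈ maximalIdeal A := (hf2 t).mp hft
  have ht0 : t ≠ 0 := by
    intro h
    have h1 : c - algebraMap k0 K a0 = 0 := congrArg Subtype.val h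
    apply hc
    rw [sub_eq_zero.mp h1]
    exact isAlgebraic_algebraMap a0
  have htval : A.valuation (t : K) < 1 := (A.valuation_lt_one_iff t).mp htm
  have htnu : (t : K) ∈ A.nonunits := A.mem_nonunits_iff.mpr htval
  have halg' : Algebra.IsAlgebraic (Algebra.adjoin k0 {(t : K)}) K := by
    have e : Algebra.adjoin k0 {(t : K)} = Algebra.adjoin k0 {c} :=
      adjoin_sub_algebraMap_eq c a0
    exact isAlgebraic_of_subalgebra_eq e.symm halg
  refine ⟨A, f, hkA, fun s hs => hS' s (by simp [S', hs]), fun u hu => ⟨hS' u (by simp [S', hu]),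
    hS' u⁻¹ (by simp only [S', Finset.mem_union, Finset.mem_image]; exact Or.inl (Or.inr ⟨u, hu, rfl⟩))⟩,
    fun a => ⟨⟨_, hkA a⟩, hf1 a _⟩, hf1, hf2, rank_one_of_isAlgebraic A hkA htnu halg',
    ⟨t, htm, ht0⟩⟩

open scoped IntermediateField.algebraAdjoinAdjoin in
/-- algebraic over `k0(c)` implies algebraic over `k0[c]` -/
lemma isAlgebraic_adjoin_of_intermediateField (c : K)
    (h : Algebra.IsAlgebraic (IntermediateField.adjoin k0 {c}) K) :
    Algebra.IsAlgebraic (Algebra.adjoin k0 {c}) K :=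
  ⟨fun x => (IsFractionRing.isAlgebraic_iff (Algebra.adjoin k0 {c})
    (IntermediateField.adjoin k0 {c}) K).mpr (h.isAlgebraic x)⟩

/-- `exists_rankOne_valuationSubring` with the hypothesis `K / k0(c)` algebraic. -/
theorem exists_rankOne_valuationSubring' [IsAlgClosed k0] (c : K) (hc : Transcendental k0 c)
    (halg : Algebra.IsAlgebraic (IntermediateField.adjoin k0 {c}) K) (S U : Finset K) :
    ∃ (A : ValuationSubring K) (π : A →+* k0),
      (∀ a : k0, algebraMap k0 K a ∈ A) ∧ (∀ s ∈ S, s ∈ A) ∧ (∀ u ∈ U, u ∈ A ∧ u⁻¹ ∈ A) ∧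
      Function.Surjective π ∧ (∀ (a : k0) (h : algebraMap k0 K a ∈ A), π ⟨_, h⟩ = a) ∧
      (∀ x : A, π x = 0 ↔ x ∈ maximalIdeal A) ∧
      (∀ x ∈ maximalIdeal A, ∀ c : A, c ≠ 0 → ∃ j : ℕ, c ∣ x ^ j) ∧
      ∃ ϖ ∈ maximalIdeal A, ϖ ≠ 0 :=
  exists_rankOne_valuationSubring c hc (isAlgebraic_adjoin_of_intermediateField c halg) S U

/-- The same with a transcendence basis consisting of one element. -/
theorem exists_rankOne_valuationSubring_of_isTranscendenceBasis [IsAlgClosed k0] {ι : Type*}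
    [Unique ι] (x : ι → K) (hx : IsTranscendenceBasis k0 x) (S U : Finset K) :
    ∃ (A : ValuationSubring K) (π : A →+* k0),
      (∀ a : k0, algebraMap k0 K a ∈ A) ∧ (∀ s ∈ S, s ∈ A) ∧ (∀ u ∈ U, u ∈ A ∧ u⁻¹ ∈ A) ∧
      Function.Surjective π ∧ (∀ (a : k0) (h : algebraMap k0 K a ∈ A), π ⟨_, h⟩ = a) ∧
      (∀ x : A, π x = 0 ↔ x ∈ maximalIdeal A) ∧
      (∀ x ∈ maximalIdeal A, ∀ c : A, c ≠ 0 → ∃ j : ℕ, c ∣ x ^ j) ∧
      ∃ ϖ ∈ maximalIdeal A, ϖ ≠ 0 := by
  have hrange : Set.range x = {x default} := by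
    ext y
    simp only [Set.mem_range, Set.mem_singleton_iff]
    constructor
    · rintro ⟨i, rfl⟩; rw [Unique.eq_default i]
    · rintro rfl; exact ⟨default, rfl⟩
  have halg : Algebra.IsAlgebraic (Algebra.adjoin k0 {x default}) K :=
    isAlgebraic_of_subalgebra_eq (congrArg (Algebra.adjoin k0) hrange) hx.isAlgebraic
  have htr : Transcendental k0 (x default) := hx.1.transcendental default
  exact exists_rankOne_valuationSubring (x default) htr halg S U

end Fermat.Agent.S27x.Spec
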