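import Fermat.Agent.S27x.Spec.Step
import Fermat.Agent.S27x.Spec.EvLemmas
import Fermat.Agent.S27x.Spec.Normal.CharQ
import Fermat.Agent.S27x.Spec.Normal.ThetaModel

/-!
# P-S27 block D (D8, helper95): (P6) = the list of conditions on `A` for block D4

`normalProp_of_main : NormalMainProp → NormalProp`, where `NormalMainProp` is the `k`-side
statement of block D4 (owner of `Normal/Main.lean`: helper6): for an integral Apéry model `D` over
`A`, a tuple `tA : ι → A[X]` (the coordinates of the auxiliary function `θ`) and the explicit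
conditions

* `(c2)` the leading coefficient of the discriminant `δ = discr D.P ∈ A[X]` is a unit of `A`,
* `(c3)` some coefficient of `D_θ = powDet D.P tA D.i₀ ∈ A[X]` is a unit of `A`,
* `(c4)` at every `K`-point `(β, θ₀)` of the plane curve `Q = charQ D.P tA = 0` above a root `β` of
  `δ`, the value `(∂Q/∂x)(β, θ₀)` has valuation one,

the reduction is normal and the genus does not drop (`NormalOut D k`).

The `K`-side (existence of `θ`, helper48's `ThetaModel.exists_t_discr` with helper97's `CharQ`) and
the conversion of `(c1)`-`(c4)` into "every sufficiently general `A`" are done here.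
-/

set_option autoImplicit false
set_option linter.unusedSectionVars false
set_option linter.style.haveILetI false

noncomputable section

open Polynomial IsLocalRing IntermediateField Module AlgebraicCurve

namespace Fermat.Agent.S27x.Spec

open Fermat.Agent.S27x.Spec.GaussNorm Fermat.Agent.S27x.Spec.AperyModel
  Fermat.Agent.S27x.Spec.Normal

universe u v

/-- **Block D4, `k`-side** (target of `Normal/Main.lean`). -/
def NormalMainProp : Prop :=
  ∀ (K : Type u) [Field K] [IsAlgClosed K] [CharZero K] (A : ValuationSubring K)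
    (F : Type v) [Field F] [Algebra K F] (ι : Type) [Fintype ι] [DecidableEq ι]
    (D : AperyData A F ι) (_hcard : Fintype.card ι = D.W.d)
    (k : Type u) [Field k] [IsAlgClosed k] [CharZero k] [Algebra k D.κ]
    (π : A →+* k) (_hc : D.Compat π) (_hπ : Function.Surjective π)
    (_hB : ∀ g : F, IsIntegral (Algebra.adjoin K {D.x}) g → ∃ u : ι → K[X], g = ev D.x D.f u)
    (tA : ι → A[X])
    (_c2 : IsUnit (discr D.P).leadingCoeff)
    (_c3 : ∃ n, IsUnit ((powDet D.P tA D.i₀).coeff n))
    (_c4 : ∀ β θ₀ : K, ((discr D.P).map (algebraMap A K)).IsRoot β →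
      (((charQ D.P tA).map (mapRingHom (algebraMap A K))).eval (C θ₀)).IsRoot β →
      A.valuation ((((charQ D.P tA).map (mapRingHom (algebraMap A K))).eval
        (C θ₀)).derivative.eval β) = 1),
    NormalOut D k

section

variable {K : Type u} [Field K] [IsAlgClosed K] [CharZero K] {F : Type v} [Field F] [Algebra K F]
  {P : Place K F} {d : ℕ}

/-- The `K`-side of D4 for a weighted model at a place: existence of `t`. -/
theorem exists_t_of_modelAt (M : ModelAt P d) :
    ∃ t : Fin d → K[X], powDet M.PK t M.i₀ ≠ 0 ∧
      ∀ β θ₀ : K, (discr M.PK).IsRoot β → ((charQ M.PK t).eval (C θ₀)).IsRoot β →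
        ((charQ M.PK t).eval (C θ₀)).derivative.eval β ≠ 0 := by
  haveI := M.model.finiteDimensional
  have hδ : discr M.PK ≠ 0 := M.model.discr_ne_zero_of_charZero M.model.finrank_eq
  obtain ⟨t, h1, -, h3⟩ := ThetaModel.exists_t_discr M.model (fun g hg => (M.integral_iff g).mp hg)
    (fun t => charQ M.PK t) (fun t => powDet M.PK t M.i₀)
    (fun t c => norm_sub_ev M.model t c)
    (fun t ht => powDet_ne_zero_of_adjoin_eq_top M.model t ht) hδ
  exact ⟨t, h1, fun β θ₀ hβ hθ₀ => h3 β hβ θ₀ hθ₀⟩

end

/-- **(P6)**: block D4 in the form consumed by D8, from its `k`-side statement. -/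
theorem normalProp_of_main (hMain : NormalMainProp.{u, v}) : NormalProp.{u, v} := by
  intro K _ _ _ k _ _ _ _ F _ _ P d M
  classical
  haveI := M.model.finiteDimensional
  have hδ : discr M.PK ≠ 0 := M.model.discr_ne_zero_of_charZero M.model.finrank_eq
  obtain ⟨t, hpow, hreg⟩ := exists_t_of_modelAt M
  -- the list of conditions
  have e1 := ev_exists_map_eq_fun (k := k) t
  have e2 := ev_valuation_leadingCoeff (k := k) hδ
  have e3 := ev_valuation_leadingCoeff (k := k) hpow
  have e4 := ev_forall_isRoot₂ (k := k) hδ (charQ_monic M.PK t)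
    (P := fun β θ₀ A _ => A.valuation (((charQ M.PK t).eval (C θ₀)).derivative.eval β) = 1)
    (fun β θ₀ hβ hθ₀ => ev_valuation_eq_one (hreg β θ₀ hβ hθ₀))
  refine (((e1.and e2).and e3).and e4).mono fun A h hh hc => ?_
  obtain ⟨⟨⟨⟨tA, htA⟩, h2⟩, h3⟩, h4⟩ := hh
  letI := gaussAlgebra M hc h
  have hinj : Function.Injective (algebraMap A K) := FaithfulSMul.algebraMap_injective A K
  -- base change identities
  have hPK : (fun i j l => ((gaussData M hc).P i j l).map (algebraMap A K)) = M.PK := by
    funext i j l
    exact gaussData_P_map M hc i j l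
  have htK : (fun i => (tA i).map (algebraMap A K)) = t := funext htA
  have hdiscr : (discr (gaussData M hc).P).map (algebraMap A K) = discr M.PK := by
    rw [← discr_map, hPK]
  have hpowd : (powDet (gaussData M hc).P tA (gaussData M hc).i₀).map (algebraMap A K) =
      powDet M.PK t M.i₀ := by
    rw [← powDet_map, hPK, htK]
    rfl
  have hQ : (charQ (gaussData M hc).P tA).map (mapRingHom (algebraMap A K)) = charQ M.PK t := by
    rw [← charQ_map, hPK, htK]
  have hcp := (gaussData M hc).resAlgebra_compat h.π h.π_surj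
  refine hMain K A F (Fin d) (gaussData M hc) (by rw [gaussData_W, M.W_d, Fintype.card_fin]) k h.π
    hcp h.π_surj (fun g hg => (M.integral_iff g).mp hg) tA ?_ ?_ ?_
  · -- (c2)
    refine (A.valuation_eq_one_iff _).mpr ?_
    have : (((discr (gaussData M hc).P).leadingCoeff : A) : K) = (discr M.PK).leadingCoeff := by
      rw [← hdiscr, leadingCoeff_map_of_injective hinj]
      rfl
    rw [this]
    exact h2
  · -- (c3)
    refine ⟨(powDet M.PK t M.i₀).natDegree, (A.valuation_eq_one_iff _).mpr ?_⟩
    have : (((powDet (gaussData M hc).P tA (gaussData M hc).i₀).coeff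
        (powDet M.PK t M.i₀).natDegree : A) : K) = (powDet M.PK t M.i₀).leadingCoeff := by
      rw [← hpowd, leadingCoeff, coeff_map, natDegree_map_eq_of_injective hinj]
      rfl
    rw [this]
    exact h3
  · -- (c4)
    intro β θ₀ hβ hθ₀
    rw [hdiscr] at hβ
    rw [hQ] at hθ₀ ⊢
    exact h4 β θ₀ hβ hθ₀

end Fermat.Agent.S27x.Spec
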